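import Mathlib

/-!
# S26 / P13 CURVEK — leaf "FromTensor" (helper3884), pure Mathlib

`K` a field, `A`, `B` `K`-algebras that are domains, `F0 = Frac A`, `k = Frac B`, and a field `F`
receiving `F0` and `k`, such that `A ⊗[K] B → F` is injective and every element of `F` is a
quotient of elements of the image.  Then `F0` and `k` are linearly disjoint over `K` in `F`,
`F = k(F0)`, and `K ⊆ k` inside `F`.
Also: a finitely generated field extension of transcendence degree one is a function field in
one variable (`∃ x` transcendental with `F / k(x)` finite).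
-/

set_option autoImplicit false

open scoped TensorProduct
open Module

namespace Fermat.Agent.S26.CURVEK.H3884

section TensorLemma

variable {K A B : Type*} [Field K] [AddCommGroup A] [Module K A] [AddCommGroup B] [Module K B]

/-- `∑ aᵢ ⊗ βᵢ = 0` with `(aᵢ)` linearly independent over a field forces all `βᵢ = 0`. -/
theorem tmul_sum_eq_zero {n : ℕ} (a : Fin n → A) (ha : LinearIndependent K a) (β : Fin n → B)
    (h : ∑ i, a i ⊗ₜ[K] β i = 0) : ∀ i, β i = 0 := by
  classical
  intro j
  have hinj : Function.Injective (Fintype.linearCombination K a) :=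
    ha.fintypeLinearCombination_injective
  obtain ⟨g, hg⟩ := LinearMap.exists_leftInverse_of_injective (Fintype.linearCombination K a)
    (LinearMap.ker_eq_bot.mpr hinj)
  let ψ : A →ₗ[K] K := (LinearMap.proj j).comp g
  have hψ : ∀ i, ψ (a i) = if i = j then 1 else 0 := by
    intro i
    have h1 : a i = Fintype.linearCombination K a (Pi.single i 1) := by
      simp [Fintype.linearCombination_apply_single]
    have h2 : g (a i) = Pi.single i 1 := by
      rw [h1]
      exact congrArg (fun f => f (Pi.single i (1 : K))) hg
    show (g (a i)) j = _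
    rw [h2, Pi.single_apply]
    simp [eq_comm]
  have h3 := congrArg (fun t => TensorProduct.lid K B (LinearMap.rTensor B ψ t)) h
  simp only [map_sum, LinearMap.rTensor_tmul, TensorProduct.lid_tmul, hψ, map_zero] at h3
  simpa using h3

end TensorLemma

section Fields

variable {K A B F0 k F : Type*} [Field K] [CommRing A] [CommRing B] [Algebra K A] [Algebra K B]
  [Field F0] [Field k] [Field F]
  [Algebra A F0] [IsFractionRing A F0] [Algebra B k] [IsFractionRing B k]
  [Algebra F0 F] [Algebra k F]

omit [IsFractionRing A F0] [IsFractionRing B k] in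
/-- Generation: `F = k(F0)`. -/
theorem generated_of_tensor (μ : A ⊗[K] B →+* F)
    (hμ : ∀ (a : A) (b : B), μ (a ⊗ₜ[K] b) =
      algebraMap F0 F (algebraMap A F0 a) * algebraMap k F (algebraMap B k b))
    (hfrac : ∀ f : F, ∃ s t : A ⊗[K] B, μ t ≠ 0 ∧ f = μ s / μ t) :
    IntermediateField.adjoin k (Set.range (algebraMap F0 F)) = ⊤ := by
  have hmem : ∀ s : A ⊗[K] B, μ s ∈ IntermediateField.adjoin k (Set.range (algebraMap F0 F)) := by
    intro s
    induction s using TensorProduct.induction_on with
    | zero => rw [map_zero]; exact zero_mem _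
    | tmul a b =>
      rw [hμ]
      exact mul_mem (IntermediateField.subset_adjoin _ _ ⟨_, rfl⟩)
        (IntermediateField.algebraMap_mem _ _)
    | add x y hx hy => rw [map_add]; exact add_mem hx hy
  rw [eq_top_iff]
  intro f _
  obtain ⟨s, t, -, rfl⟩ := hfrac f
  exact div_mem (hmem s) (hmem t)

variable [Algebra K F0] [IsScalarTower K A F0]

/-- Linear disjointness of `F0` and `k` over `K` inside `F`. -/
theorem linDisj_of_tensor [IsDomain A] [IsDomain B] (μ : A ⊗[K] B →+* F)
    (hμ : ∀ (a : A) (b : B), μ (a ⊗ₜ[K] b) =
      algebraMap F0 F (algebraMap A F0 a) * algebraMap k F (algebraMap B k b))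
    (hinj : Function.Injective μ) :
    ∀ (n : ℕ) (b : Fin n → F0), LinearIndependent K b →
      LinearIndependent k (fun i => algebraMap F0 F (b i)) := by
  classical
  intro n b hb
  rw [Fintype.linearIndependent_iff]
  intro c hc i
  -- clear denominators
  obtain ⟨d, hd⟩ := IsLocalization.exist_integer_multiples_of_finite (nonZeroDivisors A) b
  obtain ⟨e, he⟩ := IsLocalization.exist_integer_multiples_of_finite (nonZeroDivisors B) c
  choose a ha using hd
  choose β hβ using he
  have hd0 : algebraMap A F0 (d : A) ≠ 0 := by
    simp [nonZeroDivisors.ne_zero d.2]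
  have he0 : algebraMap B k (e : B) ≠ 0 := by
    simp [nonZeroDivisors.ne_zero e.2]
  -- the numerators `a i` are `K`-linearly independent
  have hind : LinearIndependent K a := by
    have h1 : LinearIndependent K (fun i => algebraMap A F0 (d : A) * b i) :=
      hb.map' (LinearMap.mulLeft K (algebraMap A F0 (d : A)))
        (LinearMap.ker_eq_bot.mpr (mul_right_injective₀ hd0))
    have h2 : (fun i => algebraMap A F0 (d : A) * b i) =
        (IsScalarTower.toAlgHom K A F0).toLinearMap ∘ a := by
      funext i
      simp [ha i, Algebra.smul_def]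
    rw [h2] at h1
    exact h1.of_comp
  -- the relation in the tensor product
  have hrel : μ (∑ i, a i ⊗ₜ[K] β i) = 0 := by
    rw [map_sum]
    have h3 : ∀ i, μ (a i ⊗ₜ[K] β i) =
        (algebraMap F0 F (algebraMap A F0 (d : A)) * algebraMap k F (algebraMap B k (e : B))) *
          (c i • algebraMap F0 F (b i)) := by
      intro i
      rw [hμ, ha i, hβ i, Algebra.smul_def, Algebra.smul_def, Algebra.smul_def, map_mul, map_mul]
      ring
    rw [Finset.sum_congr rfl (fun i _ => h3 i), ← Finset.mul_sum, hc, mul_zero]
  have hzero : ∑ i, a i ⊗ₜ[K] β i = 0 := hinj (by rw [hrel, map_zero])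
  have hβ0 := tmul_sum_eq_zero a hind β hzero i
  have h4 := hβ i
  rw [hβ0, map_zero, Algebra.smul_def] at h4
  rcases mul_eq_zero.mp h4.symm with h5 | h5
  · exact absurd h5 he0
  · exact h5

variable [Algebra K k] [IsScalarTower K B k]

omit [IsFractionRing A F0] [IsFractionRing B k] in
/-- `K ⊆ k` inside `F`. -/
theorem constLE_of_tensor (μ : A ⊗[K] B →+* F)
    (hμ : ∀ (a : A) (b : B), μ (a ⊗ₜ[K] b) =
      algebraMap F0 F (algebraMap A F0 a) * algebraMap k F (algebraMap B k b)) (a : K) :
    algebraMap k F (algebraMap K k a) = algebraMap F0 F (algebraMap K F0 a) := by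
  have h1 : (algebraMap K A a) ⊗ₜ[K] (1 : B) = (1 : A) ⊗ₜ[K] (algebraMap K B a) := by
    rw [Algebra.algebraMap_eq_smul_one, Algebra.algebraMap_eq_smul_one, TensorProduct.smul_tmul]
  have h2 := congrArg μ h1
  rw [hμ, hμ] at h2
  simp only [map_one, mul_one, one_mul] at h2
  rw [IsScalarTower.algebraMap_apply K A F0, IsScalarTower.algebraMap_apply K B k]
  exact h2.symm

end Fields

section FF1

variable {k F : Type*} [Field k] [Field F] [Algebra k F]

/-- A finitely generated field extension of transcendence degree one is a function field in one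
variable. -/
theorem exists_transcendental_finite_of_trdeg_one
    (hfg : (⊤ : IntermediateField k F).FG) (htr : Algebra.trdeg k F = 1) :
    ∃ x : F, Transcendental k x ∧ FiniteDimensional (IntermediateField.adjoin k {x}) F := by
  obtain ⟨s, hs⟩ := exists_isTranscendenceBasis k F
  have hcard : Cardinal.mk s = 1 := by rw [hs.cardinalMk_eq_trdeg, htr]
  obtain ⟨hsub, ⟨x, hx⟩⟩ := Cardinal.eq_one_iff_unique.mp hcard
  have hsx : s = {x} := by
    ext y
    constructor
    · intro hy
      have := congrArg Subtype.val (hsub.elim ⟨y, hy⟩ ⟨x, hx⟩)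
      exact this
    · rintro rfl
      exact hx
  subst hsx
  have htrans : Transcendental k x := hs.1.transcendental ⟨x, rfl⟩
  refine ⟨x, htrans, ?_⟩
  have halg : Algebra.IsAlgebraic (IntermediateField.adjoin k {x}) F := by
    have := hs.isAlgebraic_field
    rwa [Subtype.range_coe] at this
  obtain ⟨S, hS⟩ := hfg
  have htop : IntermediateField.adjoin (IntermediateField.adjoin k {x}) (S : Set F) = ⊤ := by
    have hle : IntermediateField.adjoin k (S : Set F) ≤
        (IntermediateField.adjoin (IntermediateField.adjoin k {x}) (S : Set F)).restrictScalars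
          k := by
      rw [IntermediateField.adjoin_le_iff]
      intro y hy
      rw [SetLike.mem_coe, IntermediateField.mem_restrictScalars]
      exact IntermediateField.subset_adjoin _ _ hy
    rw [hS] at hle
    rw [eq_top_iff]
    intro y _
    have := hle (IntermediateField.mem_top (F := k) (E := F) (x := y))
    rwa [IntermediateField.mem_restrictScalars] at this
  have hfin : FiniteDimensional (IntermediateField.adjoin k {x})
      (IntermediateField.adjoin (IntermediateField.adjoin k {x}) (S : Set F)) :=
    IntermediateField.finiteDimensional_adjoin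
      (fun y _ => (Algebra.IsAlgebraic.isAlgebraic y).isIntegral)
  rw [htop] at hfin
  exact (IntermediateField.topEquiv (F := IntermediateField.adjoin k {x})
    (E := F)).toLinearEquiv.finiteDimensional

end FF1

end Fermat.Agent.S26.CURVEK.H3884
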