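import Fermat.Agent.S26.CURVEK.Statements
import Fermat.Agent.S26.CURVEK.FromTensor3884

/-!
# S26 / P13 CURVEK, leaf L14 FromTensor (pure algebra, Mathlib only)
`F0 = Frac A`, `k = Frac B`, `F = Frac (A ⊗[K] B)` (a domain): `ConstLE`, `LinDisj`, `Generated`.
And: a finitely generated field extension of transcendence degree 1 is `IsFF1`.
Exact-signature wrapper (helper803) around helper3884's `FromTensor3884.lean`.
-/

set_option autoImplicit false

namespace Fermat.Agent.S26.CURVEK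

open AlgebraicCurve Module TensorProduct

section Tensor

variable {K A B : Type*} [Field K] [CommRing A] [CommRing B] [Algebra K A] [Algebra K B]
  [IsDomain A] [IsDomain B] [IsDomain (A ⊗[K] B)]
  {F0 k F : Type*} [Field F0] [Field k] [Field F]
  [Algebra A F0] [IsFractionRing A F0] [Algebra B k] [IsFractionRing B k]
  [Algebra (A ⊗[K] B) F] [IsFractionRing (A ⊗[K] B) F]
  [Algebra K F0] [IsScalarTower K A F0] [Algebra k F] [Algebra F0 F]

omit [IsDomain A] [IsDomain B] [IsDomain (A ⊗[K] B)] [IsFractionRing A F0] [IsFractionRing B k]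
  [IsFractionRing (A ⊗[K] B) F] [Algebra K F0] [IsScalarTower K A F0] in
theorem l14_mu
    (hF0 : ∀ a : A, algebraMap F0 F (algebraMap A F0 a) = algebraMap (A ⊗[K] B) F (a ⊗ₜ 1))
    (hk : ∀ b : B, algebraMap k F (algebraMap B k b) = algebraMap (A ⊗[K] B) F (1 ⊗ₜ b))
    (a : A) (b : B) : algebraMap (A ⊗[K] B) F (a ⊗ₜ[K] b) =
      algebraMap F0 F (algebraMap A F0 a) * algebraMap k F (algebraMap B k b) := by
  rw [hF0, hk, ← map_mul, Algebra.TensorProduct.tmul_mul_tmul, mul_one, one_mul]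

omit [IsDomain A] [IsDomain B] [IsFractionRing A F0] [IsFractionRing B k] in
theorem constLE_of_tensor
    (hF0 : ∀ a : A, algebraMap F0 F (algebraMap A F0 a) = algebraMap (A ⊗[K] B) F (a ⊗ₜ 1))
    (hk : ∀ b : B, algebraMap k F (algebraMap B k b) = algebraMap (A ⊗[K] B) F (1 ⊗ₜ b)) :
    ConstLE K F0 k F := by
  intro a
  refine ⟨algebraMap B k (algebraMap K B a), ?_⟩
  rw [hk, IsScalarTower.algebraMap_apply K A F0, hF0]
  congr 1
  rw [Algebra.algebraMap_eq_smul_one, Algebra.algebraMap_eq_smul_one, TensorProduct.smul_tmul]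

theorem linDisj_of_tensor
    (hF0 : ∀ a : A, algebraMap F0 F (algebraMap A F0 a) = algebraMap (A ⊗[K] B) F (a ⊗ₜ 1))
    (hk : ∀ b : B, algebraMap k F (algebraMap B k b) = algebraMap (A ⊗[K] B) F (1 ⊗ₜ b)) :
    LinDisj K F0 k F :=
  H3884.linDisj_of_tensor (algebraMap (A ⊗[K] B) F) (l14_mu hF0 hk)
    (IsFractionRing.injective (A ⊗[K] B) F)

omit [IsDomain A] [IsDomain B] [IsFractionRing A F0] [IsFractionRing B k] [Algebra K F0]
  [IsScalarTower K A F0] in
theorem generated_of_tensor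
    (hF0 : ∀ a : A, algebraMap F0 F (algebraMap A F0 a) = algebraMap (A ⊗[K] B) F (a ⊗ₜ 1))
    (hk : ∀ b : B, algebraMap k F (algebraMap B k b) = algebraMap (A ⊗[K] B) F (1 ⊗ₜ b)) :
    Generated F0 k F := by
  refine H3884.generated_of_tensor (algebraMap (A ⊗[K] B) F) (l14_mu hF0 hk) ?_
  intro f
  obtain ⟨s, t, ht, rfl⟩ := IsFractionRing.div_surjective (A := A ⊗[K] B) f
  exact ⟨s, t, by simpa using nonZeroDivisors.ne_zero ht, rfl⟩

end Tensor

theorem isFF1_of_trdeg_one {K F : Type*} [Field K] [Field F] [Algebra K F]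
    (hfg : (⊤ : IntermediateField K F).FG) (htr : Algebra.trdeg K F = 1) : IsFF1 K F :=
  H3884.exists_transcendental_finite_of_trdeg_one hfg htr

end Fermat.Agent.S26.CURVEK
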