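import Fermat.Agent.S26.CURVEK.GeomStatements

/-!
# S26 / P13 CURVEK, leaf L15 Fields
K(C) ⊗_K K(T) → K(C ×_K T) is injective and generates: on affine charts U = Spec A ⊆ C, V = Spec B ⊆ T
the open subscheme U ×_K V = Spec (A ⊗[K] B) of X (pullbackSpecIso; pullback.map of open immersions is
an open immersion), so K(X) = Frac (A ⊗[K] B) and L14 applies.  ConstLE is p ≫ sC = q ≫ sT.

Proof (helper5925): Mathlib's `isIso_pushoutSection_of_isAffineOpen` gives
`Γ(X, p⁻¹U ∩ q⁻¹V) ≃ Γ(C,U) ⊗[K] Γ(T,V)` for affine opens; the function fields are the fraction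
fields of these rings, and denominators are cleared by hand (all auxiliary lemmas `l15_*`).
-/

set_option autoImplicit false
set_option linter.style.haveILetI false
set_option linter.unusedSectionVars false

universe u

open CategoryTheory CategoryTheory.Limits AlgebraicGeometry AlgebraicCurve TensorProduct

namespace Fermat.Agent.S26.CURVEK

noncomputable section

section Dominant

variable {X Y : Scheme.{u}} [IsIntegral X] [IsIntegral Y]

/-- Pullback of rational functions along a morphism `φ : Y ⟶ X` mapping the generic point of `Y`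
to the generic point of `X`, as a ring homomorphism `K(X) →+* K(Y)`. -/
def l15_pullHom (φ : Y ⟶ X) (hφ : φ.base (genericPoint Y) = genericPoint X) :
    X.functionField →+* Y.functionField :=
  (X.presheaf.stalkSpecializes (specializes_of_eq hφ) ≫ φ.stalkMap (genericPoint Y)).hom

theorem l15_pullHom_germ (φ : Y ⟶ X) (hφ : φ.base (genericPoint Y) = genericPoint X)
    (U : X.Opens) (hU : genericPoint X ∈ U) (a : Γ(X, U)) :
    l15_pullHom φ hφ (X.presheaf.germ U (genericPoint X) hU a) =
      Y.presheaf.germ (φ ⁻¹ᵁ U) (genericPoint Y) (by show φ.base (genericPoint Y) ∈ U; rw [hφ]; exact hU)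
        (φ.app U a) := by
  have h1 : φ.base (genericPoint Y) ∈ U := by rw [hφ]; exact hU
  have h2 : (X.presheaf.stalkSpecializes (specializes_of_eq hφ)).hom
      (X.presheaf.germ U (genericPoint X) hU a) = X.presheaf.germ U (φ.base (genericPoint Y)) h1 a := by
    exact TopCat.Presheaf.germ_stalkSpecializes_apply _ _ _ _
  show (φ.stalkMap (genericPoint Y)).hom ((X.presheaf.stalkSpecializes (specializes_of_eq hφ)).hom
      (X.presheaf.germ U (genericPoint X) hU a)) = _
  rw [h2]
  exact Scheme.Hom.germ_stalkMap_apply φ U (genericPoint Y) h1 a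

theorem l15_pullHom_injective (φ : Y ⟶ X) (hφ : φ.base (genericPoint Y) = genericPoint X) :
    Function.Injective (l15_pullHom φ hφ) :=
  (l15_pullHom φ hφ).injective

/-- Every rational function is regular at the generic point. -/
theorem l15_mem_localRing_of_eq_genericPoint {x : X} (hx : x = genericPoint X) (u : X.functionField) :
    u ∈ localRing X x := by
  subst hx
  refine ⟨u, ?_⟩
  show (X.presheaf.stalkSpecializes _).hom u = u
  have : X.presheaf.stalkSpecializes ((genericPoint_spec X).specializes trivial :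
      genericPoint X ⤳ genericPoint X) = 𝟙 _ := TopCat.Presheaf.stalkSpecializes_refl _ _
  rw [this]; rfl

theorem l15_pullHom_eq_pullFun (φ : Y ⟶ X) (hφ : φ.base (genericPoint Y) = genericPoint X)
    (u : X.functionField) : l15_pullHom φ hφ u = pullFun φ u := by
  have hu : u ∈ localRing X (φ.base (genericPoint Y)) := l15_mem_localRing_of_eq_genericPoint hφ u
  unfold pullFun
  rw [dif_pos hu]
  have hc := Classical.choose_spec hu
  set t := Classical.choose hu with ht
  -- `t` is the preimage of `u` in the stalk at `φ η_Y`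
  have h3 : (X.presheaf.stalkSpecializes (specializes_of_eq hφ)).hom u = t := by
    apply IsFractionRing.injective (X.presheaf.stalk (φ.base (genericPoint Y))) X.functionField
    rw [hc]
    show (X.presheaf.stalkSpecializes _).hom ((X.presheaf.stalkSpecializes (specializes_of_eq hφ)).hom u) = u
    rw [← CommRingCat.comp_apply, TopCat.Presheaf.stalkSpecializes_comp,
      TopCat.Presheaf.stalkSpecializes_refl]
    rfl
  show (φ.stalkMap (genericPoint Y)).hom ((X.presheaf.stalkSpecializes (specializes_of_eq hφ)).hom u) = _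
  rw [h3]

theorem l15_pullHom_constHom {K : Type u} [Field K] (φ : Y ⟶ X)
    (hφ : φ.base (genericPoint Y) = genericPoint X) (s : X ⟶ Spec (CommRingCat.of K)) (c : K) :
    l15_pullHom φ hφ (constHom s c) = constHom (φ ≫ s) c := by
  unfold constHom
  have h := l15_pullHom_germ φ hφ ⊤ trivial
    (s.appTop.hom ((Scheme.ΓSpecIso (CommRingCat.of K)).inv.hom c))
  simp only [RingHom.comp_apply]
  erw [h]
  rw [Scheme.Hom.comp_appTop]
  rfl

theorem l15_pullHom_germ_appLE (φ : Y ⟶ X) (hφ : φ.base (genericPoint Y) = genericPoint X)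
    (U : X.Opens) (W : Y.Opens) (e : W ≤ φ ⁻¹ᵁ U) (hU : genericPoint X ∈ U)
    (hW : genericPoint Y ∈ W) (a : Γ(X, U)) :
    l15_pullHom φ hφ (X.presheaf.germ U (genericPoint X) hU a) =
      Y.presheaf.germ W (genericPoint Y) hW (φ.appLE U W e a) := by
  rw [l15_pullHom_germ φ hφ U hU a]
  unfold Scheme.Hom.appLE
  exact (TopCat.Presheaf.germ_res_apply Y.presheaf (homOfLE e) (genericPoint Y) hW (φ.app U a)).symm

end Dominant

section Product

variable {K : Type u} [Field K] {C T X : Scheme.{u}}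
  {sC : C ⟶ Spec (CommRingCat.of K)} {sT : T ⟶ Spec (CommRingCat.of K)}
  {pC : X ⟶ C} {pT : X ⟶ T}

/-- Sections of the product over a product of affine opens: the square of rings of sections is
a pushout square (Mathlib's `isIso_pushoutSection_of_isAffineOpen`). -/
theorem l15_isPushout_sections (h : IsPullback pC pT sC sT) {U : C.Opens} {V : T.Opens}
    (hU : IsAffineOpen U) (hV : IsAffineOpen V) :
    IsPushout (sC.appLE ⊤ U le_top) (sT.appLE ⊤ V le_top)
      (pC.appLE U (pC ⁻¹ᵁ U ⊓ pT ⁻¹ᵁ V) inf_le_left)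
      (pT.appLE V (pC ⁻¹ᵁ U ⊓ pT ⁻¹ᵁ V) inf_le_right) :=
  (isIso_pushoutSection_iff h le_top le_top rfl).mp
    (isIso_pushoutSection_of_isAffineOpen h le_top le_top rfl (isAffineOpen_top _) hV hU)

/-- The `K`-algebra structure on sections over an open subset given by the structure morphism. -/
@[reducible] def l15_secAlgebra (s : C ⟶ Spec (CommRingCat.of K)) (U : C.Opens) : Algebra K Γ(C, U) :=
  ((Scheme.ΓSpecIso (CommRingCat.of K)).inv ≫ s.appLE ⊤ U le_top).hom.toAlgebra

theorem l15_exists_sections_equiv (h : IsPullback pC pT sC sT) {U : C.Opens} {V : T.Opens}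
    (hU : IsAffineOpen U) (hV : IsAffineOpen V) :
    letI := l15_secAlgebra sC U
    letI := l15_secAlgebra sT V
    ∃ e : Γ(C, U) ⊗[K] Γ(T, V) ≃+* Γ(X, pC ⁻¹ᵁ U ⊓ pT ⁻¹ᵁ V), ∀ (a : Γ(C, U)) (b : Γ(T, V)),
      e (a ⊗ₜ[K] b) = (pC.appLE U (pC ⁻¹ᵁ U ⊓ pT ⁻¹ᵁ V) inf_le_left).hom a *
        (pT.appLE V (pC ⁻¹ᵁ U ⊓ pT ⁻¹ᵁ V) inf_le_right).hom b := by
  let _ := l15_secAlgebra sC U
  let _ := l15_secAlgebra sT V
  have H := l15_isPushout_sections h hU hV
  have H' : IsPushout ((Scheme.ΓSpecIso (CommRingCat.of K)).inv ≫ sC.appLE ⊤ U le_top)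
      ((Scheme.ΓSpecIso (CommRingCat.of K)).inv ≫ sT.appLE ⊤ V le_top)
      (pC.appLE U (pC ⁻¹ᵁ U ⊓ pT ⁻¹ᵁ V) inf_le_left)
      (pT.appLE V (pC ⁻¹ᵁ U ⊓ pT ⁻¹ᵁ V) inf_le_right) :=
    IsPushout.of_iso H (Scheme.ΓSpecIso (CommRingCat.of K)) (Iso.refl _) (Iso.refl _) (Iso.refl _)
      (by simp) (by simp) (by simp) (by simp)
  have H0 := CommRingCat.isPushout_tensorProduct K Γ(C, U) Γ(T, V)
  let E := H0.isoIsPushout _ _ H'
  refine ⟨E.commRingCatIsoToRingEquiv, fun a b => ?_⟩
  have h1 : E.hom.hom (a ⊗ₜ[K] (1 : Γ(T, V))) =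
      (pC.appLE U (pC ⁻¹ᵁ U ⊓ pT ⁻¹ᵁ V) inf_le_left).hom a :=
    congr($(H0.inl_isoIsPushout_hom _ _ H').hom a)
  have h2 : E.hom.hom ((1 : Γ(C, U)) ⊗ₜ[K] b) =
      (pT.appLE V (pC ⁻¹ᵁ U ⊓ pT ⁻¹ᵁ V) inf_le_right).hom b :=
    congr($(H0.inr_isoIsPushout_hom _ _ H').hom b)
  have h3 : a ⊗ₜ[K] b = (a ⊗ₜ[K] (1 : Γ(T, V))) * ((1 : Γ(C, U)) ⊗ₜ[K] b) := by
    rw [Algebra.TensorProduct.tmul_mul_tmul, mul_one, one_mul]
  show E.hom.hom (a ⊗ₜ[K] b) = _
  rw [h3, map_mul, h1, h2]

theorem l15_map_genericPoint_of_denseRange {X Y : Scheme.{u}} [IsIntegral X] [IsIntegral Y]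
    (φ : Y ⟶ X) (hφ : DenseRange φ.base) : φ.base (genericPoint Y) = genericPoint X := by
  have h1 := (genericPoint_spec Y).image φ.continuous
  rw [Set.image_univ, hφ.closure_range] at h1
  exact ((genericPoint_spec X).eq h1).symm

variable [IsIntegral C] [IsIntegral T] [IsIntegral X]

/-- The first projection of a product over a field maps the generic point to the generic point. -/
theorem l15_fst_genericPoint (h : IsPullback pC pT sC sT) :
    pC.base (genericPoint X) = genericPoint C := by
  have h1 : Surjective sT := inferInstance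
  have h2 : Surjective pC := MorphismProperty.of_isPullback (P := @Surjective) h.flip h1
  exact l15_map_genericPoint_of_denseRange pC pC.surjective.denseRange

/-- The second projection of a product over a field maps the generic point to the generic point. -/
theorem l15_snd_genericPoint (h : IsPullback pC pT sC sT) :
    pT.base (genericPoint X) = genericPoint T := by
  have h1 : Surjective sC := inferInstance
  have h2 : Surjective pT := MorphismProperty.of_isPullback (P := @Surjective) h h1
  exact l15_map_genericPoint_of_denseRange pT pT.surjective.denseRange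

/-- `K(C) → K(C × T)` as a `K`-algebra homomorphism. -/
def l15_fstAlgHom (h : IsPullback pC pT sC sT) : FF sC →ₐ[K] FF (pC ≫ sC) :=
  { l15_pullHom pC (l15_fst_genericPoint h) with
    commutes' := fun c => l15_pullHom_constHom pC (l15_fst_genericPoint h) sC c }

/-- `K(T) → K(C × T)` as a `K`-algebra homomorphism. -/
def l15_sndAlgHom (h : IsPullback pC pT sC sT) : FF sT →ₐ[K] FF (pC ≫ sC) :=
  { l15_pullHom pT (l15_snd_genericPoint h) with
    commutes' := fun c => by
      have := l15_pullHom_constHom pT (l15_snd_genericPoint h) sT c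
      rw [← h.w] at this
      exact this }

theorem l15_fstAlgHom_apply (h : IsPullback pC pT sC sT) (u : C.functionField) :
    (l15_fstAlgHom h (u : FF sC) : X.functionField) = pullFun pC u :=
  l15_pullHom_eq_pullFun pC (l15_fst_genericPoint h) u

theorem l15_sndAlgHom_apply (h : IsPullback pC pT sC sT) (u : T.functionField) :
    (l15_sndAlgHom h (u : FF sT) : X.functionField) = pullFun pT u :=
  l15_pullHom_eq_pullFun pT (l15_snd_genericPoint h) u

theorem l15_isAffineOpen_prod (h : IsPullback pC pT sC sT) {U : C.Opens} {V : T.Opens}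
    (hU : IsAffineOpen U) (hV : IsAffineOpen V) : IsAffineOpen (pC ⁻¹ᵁ U ⊓ pT ⁻¹ᵁ V) := by
  have : IsAffine (⊤ : (Spec (CommRingCat.of K)).Opens) := isAffineOpen_top _
  have : IsAffine U := hU
  have : IsAffine V := hV
  exact .of_isIso (Scheme.Hom.isPullback_resLE h (US := ⊤) (UT := V) (UX := U) le_top le_top
    rfl).isoPullback.hom

theorem l15_exists_affine_genericPoint (Z : Scheme.{u}) [IsIntegral Z] :
    ∃ U : Z.Opens, IsAffineOpen U ∧ genericPoint Z ∈ U := by
  obtain ⟨W, hW, hx, -⟩ := exists_isAffineOpen_mem_and_subset (X := Z) (x := genericPoint Z)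
    (U := ⊤) trivial
  exact ⟨W, hW, hx⟩

/-- Germ at the generic point as a `K`-algebra homomorphism from sections to the function field. -/
def l15_germAlgHom (s : C ⟶ Spec (CommRingCat.of K)) (U : C.Opens) (hU : genericPoint C ∈ U) :
    letI := l15_secAlgebra s U
    Γ(C, U) →ₐ[K] FF s :=
  letI := l15_secAlgebra s U
  { (C.presheaf.germ U (genericPoint C) hU).hom with
    commutes' := fun c => by
      show (C.presheaf.germ U (genericPoint C) hU).hom
        ((s.appLE ⊤ U le_top).hom ((Scheme.ΓSpecIso (CommRingCat.of K)).inv.hom c)) = constHom s c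
      unfold Scheme.Hom.appLE constHom
      exact TopCat.Presheaf.germ_res_apply C.presheaf (homOfLE (le_top : U ≤ s ⁻¹ᵁ ⊤))
        (genericPoint C) hU _ }

theorem l15_germAlgHom_apply (s : C ⟶ Spec (CommRingCat.of K)) (U : C.Opens)
    (hU : genericPoint C ∈ U) (a : Γ(C, U)) :
    letI := l15_secAlgebra s U
    (l15_germAlgHom s U hU a : C.functionField) = C.presheaf.germ U (genericPoint C) hU a := rfl

theorem l15_germAlgHom_injective (s : C ⟶ Spec (CommRingCat.of K)) (U : C.Opens)
    (hU : genericPoint C ∈ U) :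
    letI := l15_secAlgebra s U
    Function.Injective (l15_germAlgHom s U hU) :=
  germ_injective_of_isIntegral C (genericPoint C) hU

/-- The product map `K(C) ⊗[K] K(T) → K(C × T)`. -/
def l15_prodMap (h : IsPullback pC pT sC sT) : FF sC ⊗[K] FF sT →ₐ[K] FF (pC ≫ sC) :=
  Algebra.TensorProduct.productMap (l15_fstAlgHom h) (l15_sndAlgHom h)

theorem l15_prodMap_tmul (h : IsPullback pC pT sC sT) (u : FF sC) (v : FF sT) :
    l15_prodMap h (u ⊗ₜ[K] v) = l15_fstAlgHom h u * l15_sndAlgHom h v :=
  Algebra.TensorProduct.productMap_apply_tmul _ _ _ _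

/-- On a product chart, `l15_prodMap` is the germ of the tensor-product description of sections. -/
theorem l15_prodMap_chart (h : IsPullback pC pT sC sT) {U : C.Opens} {V : T.Opens}
    (hηU : genericPoint C ∈ U) (hηV : genericPoint T ∈ V)
    (hηW : genericPoint X ∈ pC ⁻¹ᵁ U ⊓ pT ⁻¹ᵁ V) :
    letI := l15_secAlgebra sC U
    letI := l15_secAlgebra sT V
    ∀ (e : Γ(C, U) ⊗[K] Γ(T, V) ≃+* Γ(X, pC ⁻¹ᵁ U ⊓ pT ⁻¹ᵁ V)),
      (∀ (a : Γ(C, U)) (b : Γ(T, V)),
        e (a ⊗ₜ[K] b) = (pC.appLE U (pC ⁻¹ᵁ U ⊓ pT ⁻¹ᵁ V) inf_le_left).hom a *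
          (pT.appLE V (pC ⁻¹ᵁ U ⊓ pT ⁻¹ᵁ V) inf_le_right).hom b) →
      ∀ w : Γ(C, U) ⊗[K] Γ(T, V),
        (l15_prodMap h (Algebra.TensorProduct.map (l15_germAlgHom sC U hηU) (l15_germAlgHom sT V hηV) w) :
          X.functionField) = X.presheaf.germ (pC ⁻¹ᵁ U ⊓ pT ⁻¹ᵁ V) (genericPoint X) hηW (e w) := by
  letI := l15_secAlgebra sC U
  letI := l15_secAlgebra sT V
  intro e he w
  induction w using TensorProduct.induction_on with
  | zero => simp only [map_zero]; rfl
  | tmul a b =>
    rw [Algebra.TensorProduct.map_tmul, l15_prodMap_tmul, he, map_mul]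
    congr 1
    · exact l15_pullHom_germ_appLE pC (l15_fst_genericPoint h) U _ inf_le_left hηU hηW a
    · exact l15_pullHom_germ_appLE pT (l15_snd_genericPoint h) V _ inf_le_right hηV hηW b
  | add x y hx hy =>
    rw [map_add, map_add, map_add, map_add, ← hx, ← hy]
    rfl

theorem l15_exists_clear_denominators {U : C.Opens} {V : T.Opens}
    (hU : IsAffineOpen U) (hV : IsAffineOpen V)
    (hηU : genericPoint C ∈ U) (hηV : genericPoint T ∈ V) :
    letI := l15_secAlgebra sC U
    letI := l15_secAlgebra sT V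
    ∀ z : FF sC ⊗[K] FF sT, ∃ (d : Γ(C, U)) (t : Γ(T, V)) (w : Γ(C, U) ⊗[K] Γ(T, V)),
      d ≠ 0 ∧ t ≠ 0 ∧
      Algebra.TensorProduct.map (l15_germAlgHom sC U hηU) (l15_germAlgHom sT V hηV) w =
        (l15_germAlgHom sC U hηU d ⊗ₜ[K] l15_germAlgHom sT V hηV t) * z := by
  letI := l15_secAlgebra sC U
  letI := l15_secAlgebra sT V
  haveI : Nonempty U := ⟨⟨genericPoint C, hηU⟩⟩
  haveI : Nonempty V := ⟨⟨genericPoint T, hηV⟩⟩
  haveI := functionField_isFractionRing_of_isAffineOpen C U hU
  haveI := functionField_isFractionRing_of_isAffineOpen T V hV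
  have hinjA := l15_germAlgHom_injective sC U hηU
  have hinjB := l15_germAlgHom_injective sT V hηV
  have hA1 : (1 : Γ(C, U)) ≠ 0 := fun h0 => by
    have := congrArg (l15_germAlgHom sC U hηU) h0
    rw [map_one, map_zero] at this
    exact one_ne_zero this
  have hB1 : (1 : Γ(T, V)) ≠ 0 := fun h0 => by
    have := congrArg (l15_germAlgHom sT V hηV) h0
    rw [map_one, map_zero] at this
    exact one_ne_zero this
  intro z
  induction z using TensorProduct.induction_on with
  | zero => exact ⟨1, 1, 0, hA1, hB1, by simp⟩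
  | tmul u v =>
    obtain ⟨a', a, ha, hu⟩ := IsFractionRing.div_surjective (A := Γ(C, U)) (K := C.functionField) u
    obtain ⟨b', b, hb, hv⟩ := IsFractionRing.div_surjective (A := Γ(T, V)) (K := T.functionField) v
    have ha0 : a ≠ 0 := nonZeroDivisors.ne_zero ha
    have hb0 : b ≠ 0 := nonZeroDivisors.ne_zero hb
    have ha1 : l15_germAlgHom sC U hηU a ≠ 0 := fun h0 => ha0 (hinjA (by rw [h0, map_zero]))
    have hb1 : l15_germAlgHom sT V hηV b ≠ 0 := fun h0 => hb0 (hinjB (by rw [h0, map_zero]))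
    have hu' : u = l15_germAlgHom sC U hηU a' / l15_germAlgHom sC U hηU a := hu.symm
    have hv' : v = l15_germAlgHom sT V hηV b' / l15_germAlgHom sT V hηV b := hv.symm
    refine ⟨a, b, a' ⊗ₜ[K] b', ha0, hb0, ?_⟩
    rw [Algebra.TensorProduct.map_tmul, Algebra.TensorProduct.tmul_mul_tmul, hu', hv',
      mul_div_cancel₀ _ ha1, mul_div_cancel₀ _ hb1]
  | add z₁ z₂ h₁ h₂ =>
    obtain ⟨a₁, b₁, w₁, ha₁, hb₁, h₁⟩ := h₁
    obtain ⟨a₂, b₂, w₂, ha₂, hb₂, h₂⟩ := h₂
    have hmulA : a₁ * a₂ ≠ 0 := fun h0 => by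
      have := congrArg (l15_germAlgHom sC U hηU) h0
      rw [map_mul, map_zero, mul_eq_zero] at this
      rcases this with h | h
      · exact ha₁ (hinjA (by rw [h, map_zero]))
      · exact ha₂ (hinjA (by rw [h, map_zero]))
    have hmulB : b₁ * b₂ ≠ 0 := fun h0 => by
      have := congrArg (l15_germAlgHom sT V hηV) h0
      rw [map_mul, map_zero, mul_eq_zero] at this
      rcases this with h | h
      · exact hb₁ (hinjB (by rw [h, map_zero]))
      · exact hb₂ (hinjB (by rw [h, map_zero]))
    refine ⟨a₁ * a₂, b₁ * b₂, (a₂ ⊗ₜ[K] b₂) * w₁ + (a₁ ⊗ₜ[K] b₁) * w₂, hmulA, hmulB, ?_⟩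
    rw [map_add, map_mul, map_mul, h₁, h₂]
    simp only [Algebra.TensorProduct.map_tmul, map_mul]
    rw [← Algebra.TensorProduct.tmul_mul_tmul]
    ring

/-- **(LD)** `K(C)` and `K(T)` are linearly disjoint over `K` inside `K(C × T)`:
the product map `K(C) ⊗[K] K(T) → K(C × T)` is injective. -/
theorem l15_prodMap_injective (h : IsPullback pC pT sC sT) : Function.Injective (l15_prodMap h) := by
  obtain ⟨U, hU, hηU⟩ := l15_exists_affine_genericPoint C
  obtain ⟨V, hV, hηV⟩ := l15_exists_affine_genericPoint T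
  have hηW : genericPoint X ∈ pC ⁻¹ᵁ U ⊓ pT ⁻¹ᵁ V :=
    ⟨by show pC.base _ ∈ U; rw [l15_fst_genericPoint h]; exact hηU,
     by show pT.base _ ∈ V; rw [l15_snd_genericPoint h]; exact hηV⟩
  letI := l15_secAlgebra sC U
  letI := l15_secAlgebra sT V
  obtain ⟨e, he⟩ := l15_exists_sections_equiv h hU hV
  have hchart := l15_prodMap_chart h hηU hηV hηW e he
  rw [injective_iff_map_eq_zero]
  intro z hz
  obtain ⟨d, t, w, hd, ht, hw⟩ := l15_exists_clear_denominators (sC := sC) (sT := sT) hU hV hηU hηV z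
  have h1 : X.presheaf.germ _ (genericPoint X) hηW (e w) = 0 := by
    rw [← hchart w, hw, map_mul, hz, mul_zero]
    rfl
  have h2 : e w = 0 := by
    apply germ_injective_of_isIntegral X (genericPoint X) hηW
    rw [h1, map_zero]
  have h3 : w = 0 := by
    have := congrArg e.symm h2
    rwa [e.symm_apply_apply, map_zero] at this
  rw [h3, map_zero] at hw
  have hgd : l15_germAlgHom sC U hηU d ≠ 0 := fun h0 =>
    hd (l15_germAlgHom_injective sC U hηU (by rw [h0, map_zero]))
  have hgt : l15_germAlgHom sT V hηV t ≠ 0 := fun h0 =>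
    ht (l15_germAlgHom_injective sT V hηV (by rw [h0, map_zero]))
  have h4 : z = ((l15_germAlgHom sC U hηU d)⁻¹ ⊗ₜ[K] (l15_germAlgHom sT V hηV t)⁻¹) *
      ((l15_germAlgHom sC U hηU d ⊗ₜ[K] l15_germAlgHom sT V hηV t) * z) := by
    rw [← mul_assoc, Algebra.TensorProduct.tmul_mul_tmul, inv_mul_cancel₀ hgd,
      inv_mul_cancel₀ hgt]
    exact (one_mul z).symm
  rw [h4, ← hw, mul_zero]

/-- **(GEN)** `K(C × T)` is the field of fractions of the image of `K(C) ⊗[K] K(T)`. -/
theorem l15_prodMap_gen (h : IsPullback pC pT sC sT) (m : FF (pC ≫ sC)) :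
    ∃ z₁ z₂ : FF sC ⊗[K] FF sT, l15_prodMap h z₂ ≠ 0 ∧ m * l15_prodMap h z₂ = l15_prodMap h z₁ := by
  obtain ⟨U, hU, hηU⟩ := l15_exists_affine_genericPoint C
  obtain ⟨V, hV, hηV⟩ := l15_exists_affine_genericPoint T
  have hηW : genericPoint X ∈ pC ⁻¹ᵁ U ⊓ pT ⁻¹ᵁ V :=
    ⟨by show pC.base _ ∈ U; rw [l15_fst_genericPoint h]; exact hηU,
     by show pT.base _ ∈ V; rw [l15_snd_genericPoint h]; exact hηV⟩
  letI := l15_secAlgebra sC U
  letI := l15_secAlgebra sT V
  obtain ⟨e, he⟩ := l15_exists_sections_equiv h hU hV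
  have hchart := l15_prodMap_chart h hηU hηV hηW e he
  have hW := l15_isAffineOpen_prod h hU hV
  haveI : Nonempty (pC ⁻¹ᵁ U ⊓ pT ⁻¹ᵁ V : X.Opens) := ⟨⟨genericPoint X, hηW⟩⟩
  haveI := functionField_isFractionRing_of_isAffineOpen X _ hW
  obtain ⟨q₁, q₂, hq₂, hm⟩ := IsFractionRing.div_surjective
    (A := Γ(X, pC ⁻¹ᵁ U ⊓ pT ⁻¹ᵁ V)) (K := X.functionField) m
  have hq0 : q₂ ≠ 0 := nonZeroDivisors.ne_zero hq₂
  have hg0 : X.presheaf.germ _ (genericPoint X) hηW q₂ ≠ 0 := fun h0 =>
    hq0 (germ_injective_of_isIntegral X (genericPoint X) hηW (by rw [h0, map_zero]))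
  have hm' : m = X.presheaf.germ _ (genericPoint X) hηW q₁ /
      X.presheaf.germ _ (genericPoint X) hηW q₂ := hm.symm
  refine ⟨Algebra.TensorProduct.map (l15_germAlgHom sC U hηU) (l15_germAlgHom sT V hηV) (e.symm q₁),
    Algebra.TensorProduct.map (l15_germAlgHom sC U hηU) (l15_germAlgHom sT V hηV) (e.symm q₂), ?_, ?_⟩
  · have := hchart (e.symm q₂)
    rw [e.apply_symm_apply] at this
    intro h0
    exact hg0 (this.symm.trans h0)
  · have h1 := hchart (e.symm q₁)
    have h2 := hchart (e.symm q₂)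
    rw [e.apply_symm_apply] at h1 h2
    refine Eq.trans ?_ h1.symm
    refine (congrArg (fun y => m * y) h2).trans ?_
    rw [hm']
    exact div_mul_cancel₀ _ hg0

/-- **(LD), family form.** A `K`-linearly independent family of `K(C)` stays linearly independent
over `K(T)` inside `K(C × T)`. -/
theorem l15_prod_linearIndependent (h : IsPullback pC pT sC sT) {ι : Type*} (v : ι → FF sC)
    (hv : LinearIndependent K v) (c : ι →₀ FF sT)
    (hc : (c.sum fun i ci => l15_sndAlgHom h ci * l15_fstAlgHom h (v i)) = 0) : c = 0 := by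
  have hli : LinearIndependent (FF sT) (fun i => (1 : FF sT) ⊗ₜ[K] v i) :=
    Module.Flat.linearIndependent_one_tmul hv
  rw [linearIndependent_iff] at hli
  apply hli c
  -- the element `∑ cᵢ ⊗ vᵢ` of `K(T) ⊗ K(C)` is zero since its image in `K(C × T)` is zero
  have hz : (Finsupp.linearCombination (FF sT) fun i => (1 : FF sT) ⊗ₜ[K] v i) c =
      c.sum fun i ci => ci ⊗ₜ[K] v i := by
    rw [Finsupp.linearCombination_apply]
    refine Finset.sum_congr rfl fun i _ => ?_
    show c i • ((1 : FF sT) ⊗ₜ[K] v i) = c i ⊗ₜ[K] v i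
    rw [TensorProduct.smul_tmul', smul_eq_mul, mul_one]
  rw [hz]
  apply (TensorProduct.comm K (FF sT) (FF sC)).injective
  apply l15_prodMap_injective h
  rw [map_zero, map_zero, ← hc]
  simp only [Finsupp.sum, map_sum, TensorProduct.comm_tmul, l15_prodMap_tmul]
  exact Finset.sum_congr rfl fun i _ => mul_comm _ _

end Product

end

variable {K : Type u} [Field K] {C T X : Scheme.{u}} [IsIntegral C] [IsIntegral T] [IsIntegral X]

theorem fields_prod (sC : C ⟶ Spec (CommRingCat.of K)) (sT : T ⟶ Spec (CommRingCat.of K))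
    (p : X ⟶ C) (q : X ⟶ T) (hpb : IsPullback p q sC sT)
    (hp : p.base (genericPoint X) = genericPoint C) (hq : q.base (genericPoint X) = genericPoint T)
    [Algebra T.functionField X.functionField] [Algebra (FF sC) X.functionField]
    (hk : ∀ a : T.functionField, algebraMap T.functionField X.functionField a = funMap q hq a)
    (hF0 : ∀ y : FF sC, algebraMap (FF sC) X.functionField y = funMap p hp y) :
    ConstLE K (FF sC) T.functionField X.functionField ∧
    LinDisj K (FF sC) T.functionField X.functionField ∧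
    Generated (FF sC) T.functionField X.functionField := by
  have e1 : ∀ a : T.functionField, algebraMap T.functionField X.functionField a =
      l15_sndAlgHom hpb (a : FF sT) := fun a => (hk a).trans rfl
  have e2 : ∀ y : FF sC, algebraMap (FF sC) X.functionField y = l15_fstAlgHom hpb y :=
    fun y => (hF0 y).trans rfl
  refine ⟨?_, ?_, ?_⟩
  · intro a
    refine ⟨constHom sT a, ?_⟩
    rw [e1, e2]
    exact ((l15_sndAlgHom hpb).commutes a).trans ((l15_fstAlgHom hpb).commutes a).symm
  · intro n b hb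
    rw [linearIndependent_iff]
    intro l hl
    apply l15_prod_linearIndependent hpb b hb l
    refine Eq.trans ?_ hl
    rw [Finsupp.linearCombination_apply]
    refine Finset.sum_congr rfl fun i _ => ?_
    show _ = l i • algebraMap (FF sC) X.functionField (b i)
    rw [Algebra.smul_def, e1, e2]
    rfl
  · unfold Generated
    rw [eq_top_iff]
    intro m _
    obtain ⟨z₁, z₂, hz₂, hm⟩ := l15_prodMap_gen hpb (m : FF (p ≫ sC))
    have hmem : ∀ a b : X.functionField, a = b →
        b ∈ IntermediateField.adjoin T.functionField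
          (Set.range (algebraMap (FF sC) X.functionField)) →
        a ∈ IntermediateField.adjoin T.functionField
          (Set.range (algebraMap (FF sC) X.functionField)) := fun a b h hb => h ▸ hb
    have himg : ∀ z : FF sC ⊗[K] FF sT, (l15_prodMap hpb z : X.functionField) ∈
        IntermediateField.adjoin T.functionField
          (Set.range (algebraMap (FF sC) X.functionField)) := by
      intro z
      induction z using TensorProduct.induction_on with
      | zero => exact hmem _ _ (map_zero (l15_prodMap hpb)) (zero_mem _)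
      | tmul u w =>
        have h1 : (l15_prodMap hpb (u ⊗ₜ[K] w) : X.functionField) =
            algebraMap (FF sC) X.functionField u *
              algebraMap T.functionField X.functionField (show T.functionField from w) :=
          (l15_prodMap_tmul hpb u w).trans
            (congrArg₂ (· * ·) (e2 u).symm (e1 (show T.functionField from w)).symm)
        exact hmem _ _ h1 (mul_mem (IntermediateField.subset_adjoin _ _ ⟨u, rfl⟩)
            (IntermediateField.algebraMap_mem _ _))
      | add x y hx hy =>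
        exact hmem _ _ (map_add (l15_prodMap hpb) x y) (add_mem hx hy)
    exact hmem _ _ (eq_div_of_mul_eq hz₂ hm) (div_mem (himg z₁) (himg z₂))

end Fermat.Agent.S26.CURVEK
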