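import Fermat.Agent.S26.CURVEK.GeomStatements

/-!
# S26 / P13 CURVEK, leaf L16 Centre  (proved by helper4905)
Centres of valuation rings (valuative criterion).

The valuative-criterion cores (`l16f_exists_center_of_commSq`, `l16f_exists_center_of_stalk`,
`l16f_centerHom*`) are adapted from helper4484's Mathlib-only file
origin/helper4484:Fermat/Agent/S26/H4484/Valuative.lean; the small `localRing` API from
origin/helper5483:Fermat/Agent/S26/VAR/LocalRing5483.lean.  All helpers carry the prefix `l16f_`.
-/

set_option autoImplicit false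

universe u

open CategoryTheory AlgebraicGeometry AlgebraicCurve

namespace Fermat.Agent.S26.CURVEK

/-! ### `localRing` API -/

section Api

variable {X : Scheme.{u}} [IsIntegral X]

theorem l16f_genericPoint_specializes (x : X) : genericPoint X ⤳ x :=
  (genericPoint_spec X).specializes (by simp)

theorem l16f_algebraMap_stalk_apply (x : X) (s : X.presheaf.stalk x) :
    algebraMap (X.presheaf.stalk x) X.functionField s =
      (X.presheaf.stalkSpecializes (l16f_genericPoint_specializes x)).hom s := rfl

theorem l16f_algebraMap_stalk_injective (x : X) :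
    Function.Injective (algebraMap (X.presheaf.stalk x) X.functionField) :=
  IsFractionRing.injective _ _

theorem l16f_algebraMap_stalkSpecializes {x y : X} (h : x ⤳ y) (s : X.presheaf.stalk y) :
    algebraMap (X.presheaf.stalk x) X.functionField ((X.presheaf.stalkSpecializes h).hom s) =
      algebraMap (X.presheaf.stalk y) X.functionField s := by
  rw [l16f_algebraMap_stalk_apply, l16f_algebraMap_stalk_apply, ← CommRingCat.comp_apply,
    TopCat.Presheaf.stalkSpecializes_comp]

theorem l16f_stalkSpecializes_genericPoint (u : X.functionField) :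
    (X.presheaf.stalkSpecializes (l16f_genericPoint_specializes (genericPoint X))).hom u = u := by
  have h : X.presheaf.stalkSpecializes (l16f_genericPoint_specializes (genericPoint X)) = 𝟙 _ :=
    TopCat.Presheaf.stalkSpecializes_refl _ _
  rw [h]
  rfl

theorem l16f_mem_localRing_genericPoint (u : X.functionField) :
    u ∈ localRing X (genericPoint X) :=
  ⟨u, by rw [l16f_algebraMap_stalk_apply]; exact l16f_stalkSpecializes_genericPoint u⟩

theorem l16f_inv_mem_localRing_of_isUnit {x : X} {t : X.presheaf.stalk x} (ht : IsUnit t) :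
    (algebraMap (X.presheaf.stalk x) X.functionField t)⁻¹ ∈ localRing X x := by
  obtain ⟨w, rfl⟩ := ht
  refine ⟨((w⁻¹ : (X.presheaf.stalk x)ˣ) : X.presheaf.stalk x), ?_⟩
  have h1 : algebraMap (X.presheaf.stalk x) X.functionField (w : X.presheaf.stalk x) *
      algebraMap (X.presheaf.stalk x) X.functionField
        ((w⁻¹ : (X.presheaf.stalk x)ˣ) : X.presheaf.stalk x) = 1 := by
    rw [← map_mul, Units.mul_inv, map_one]
  exact eq_inv_of_mul_eq_one_right h1

theorem l16f_isUnit_of_inv_mem_localRing {x : X} {t : X.presheaf.stalk x} (ht0 : t ≠ 0)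
    (ht : (algebraMap (X.presheaf.stalk x) X.functionField t)⁻¹ ∈ localRing X x) : IsUnit t := by
  obtain ⟨t', ht'⟩ := ht
  have hinj := l16f_algebraMap_stalk_injective x
  have h0 : algebraMap (X.presheaf.stalk x) X.functionField t ≠ 0 := fun h =>
    ht0 (hinj (by rw [h, map_zero]))
  have h1 : algebraMap (X.presheaf.stalk x) X.functionField (t * t') = 1 := by
    rw [map_mul, ht', mul_inv_cancel₀ h0]
  exact IsUnit.of_mul_eq_one _ (hinj (by rw [h1, map_one]))

/-- `Dominates` in terms of stalks. -/
theorem l16f_dominates_iff_stalk (V : ValuationSubring X.functionField) (x : X) :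
    Dominates x V ↔ ∀ t : X.presheaf.stalk x,
      algebraMap (X.presheaf.stalk x) X.functionField t ∈ V ∧
        (¬ IsUnit t → V.valuation (algebraMap (X.presheaf.stalk x) X.functionField t) < 1) := by
  constructor
  · rintro ⟨h1, h2⟩ t
    refine ⟨h1 ⟨t, rfl⟩, fun ht => ?_⟩
    by_cases ht0 : t = 0
    · rw [ht0, map_zero, map_zero]
      exact zero_lt_one
    · have hinv : (algebraMap (X.presheaf.stalk x) X.functionField t)⁻¹ ∉ V :=
        h2 _ ⟨t, rfl⟩ (fun h => ht (l16f_isUnit_of_inv_mem_localRing ht0 h))
      exact (V.mem_nonunits_iff).mp ((V.mem_nonunits_iff_or).mpr (Or.inr hinv))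
  · intro h
    refine ⟨?_, ?_⟩
    · rintro a ⟨t, rfl⟩
      exact (h t).1
    · rintro a ⟨t, rfl⟩ ha hmem
      have hlt := (h t).2 (fun ht => ha (l16f_inv_mem_localRing_of_isUnit ht))
      rcases (V.mem_nonunits_iff_or).mp ((V.mem_nonunits_iff).mpr hlt) with h0 | h0
      · exact ha (by rw [h0, inv_zero]; exact Subring.zero_mem _)
      · exact h0 hmem

/-- A point whose stalk is a field is the generic point. -/
theorem l16f_eq_genericPoint_of_field (y : X)
    (h : ∀ t : X.presheaf.stalk y, t ≠ 0 → IsUnit t) : y = genericPoint X := by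
  have hmem : genericPoint X ∈ Set.range (X.fromSpecStalk y) := by
    rw [Scheme.range_fromSpecStalk]
    exact l16f_genericPoint_specializes y
  obtain ⟨z, hz⟩ := hmem
  have hzc : z = IsLocalRing.closedPoint (X.presheaf.stalk y) := by
    apply PrimeSpectrum.ext
    apply le_antisymm
    · exact IsLocalRing.le_maximalIdeal (PrimeSpectrum.isPrime z).ne_top
    · intro t ht
      have ht' : t ∈ IsLocalRing.maximalIdeal (X.presheaf.stalk y) := ht
      by_cases ht0 : t = 0
      · rw [ht0]; exact Ideal.zero_mem _
      · exact absurd (h t ht0) ((IsLocalRing.mem_maximalIdeal t).mp ht')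
  rw [← hz, hzc, Scheme.fromSpecStalk_closedPoint]

end Api

/-! ### Valuative criterion (after helper4484) -/

section Valuative

theorem l16f_exists_center_of_commSq {X Y : Scheme.{u}} [IsIntegral X] (σ : X ⟶ Y)
    [UniversallyClosed σ] (V : ValuationSubring X.functionField)
    (i₂ : Spec (CommRingCat.of V) ⟶ Y)
    (h : Spec.map (CommRingCat.ofHom (algebraMap V X.functionField)) ≫ i₂ =
      X.fromSpecStalk (genericPoint X) ≫ σ) :
    ∃ x : X, σ x = i₂ (IsLocalRing.closedPoint V) ∧
      ∀ t : X.presheaf.stalk x,
        algebraMap (X.presheaf.stalk x) X.functionField t ∈ V ∧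
        (¬ IsUnit t → V.valuation (algebraMap (X.presheaf.stalk x) X.functionField t) < 1) := by
  have hE : ValuativeCriterion.Existence σ := by
    have h1 : (ValuativeCriterion.Existence ⊓ @QuasiCompact) σ := by
      rw [← UniversallyClosed.eq_valuativeCriterion]
      infer_instance
    exact h1.1
  let S : ValuativeCommSq σ :=
    { R := V
      K := X.functionField
      i₁ := X.fromSpecStalk (genericPoint X)
      i₂ := i₂
      commSq := ⟨h.symm⟩ }
  have hS : S.commSq.HasLift := hE S
  obtain ⟨l⟩ := hS.exists_lift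
  have hl1 : Spec.map (CommRingCat.ofHom (algebraMap V X.functionField)) ≫ l.l =
      X.fromSpecStalk (genericPoint X) := l.fac_left
  have hl2 : l.l ≫ σ = i₂ := l.fac_right
  set x : X := l.l (IsLocalRing.closedPoint V) with hx
  let φ : X.presheaf.stalk x ⟶ CommRingCat.of V := Scheme.stalkClosedPointTo l.l
  have hφ : Spec.map φ ≫ X.fromSpecStalk x = l.l := Scheme.Spec_stalkClosedPointTo_fromSpecStalk l.l
  have hφloc : IsLocalHom φ.hom := Scheme.isLocalHom_stalkClosedPointTo l.l
  have hspec : genericPoint X ⤳ x := (genericPoint_spec X).specializes (Set.mem_univ x)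
  have hcomp : X.presheaf.stalkSpecializes hspec =
      φ ≫ CommRingCat.ofHom (algebraMap V X.functionField) := by
    apply Spec.map_injective
    rw [← cancel_mono (X.fromSpecStalk x), Scheme.SpecMap_stalkSpecializes_fromSpecStalk,
      Spec.map_comp, Category.assoc, hφ, hl1]
  have halg : ∀ t : X.presheaf.stalk x,
      algebraMap (X.presheaf.stalk x) X.functionField t = ((φ.hom t : V) : X.functionField) := by
    intro t
    have h1 : algebraMap (X.presheaf.stalk x) X.functionField t =
        (X.presheaf.stalkSpecializes hspec).hom t := rfl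
    rw [h1, hcomp]
    rfl
  refine ⟨x, ?_, fun t => ⟨?_, ?_⟩⟩
  · rw [← hl2]
    rfl
  · rw [halg t]
    exact (φ.hom t).2
  · intro ht
    rw [halg t, ← ValuationSubring.valuation_lt_one_iff]
    rw [IsLocalRing.mem_maximalIdeal, mem_nonunits_iff]
    intro hu
    exact ht (hφloc.map_nonunit t hu)

theorem l16f_exists_center_of_stalk {X Y : Scheme.{u}} [IsIntegral X] (σ : X ⟶ Y)
    [UniversallyClosed σ] (V : ValuationSubring X.functionField) (y : Y)
    (hy : σ (genericPoint X) ⤳ y)
    (hV : ∀ s : Y.presheaf.stalk y,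
      (Y.presheaf.stalkSpecializes hy ≫ σ.stalkMap (genericPoint X)).hom s ∈ V) :
    ∃ x : X, σ x ⤳ y ∧ ∀ t : X.presheaf.stalk x,
        algebraMap (X.presheaf.stalk x) X.functionField t ∈ V ∧
        (¬ IsUnit t → V.valuation (algebraMap (X.presheaf.stalk x) X.functionField t) < 1) := by
  let ψ : Y.presheaf.stalk y →+* V :=
    (Y.presheaf.stalkSpecializes hy ≫ σ.stalkMap (genericPoint X)).hom.codRestrict V.toSubring hV
  have hψ : CommRingCat.ofHom ψ ≫ CommRingCat.ofHom (algebraMap V X.functionField) =
      Y.presheaf.stalkSpecializes hy ≫ σ.stalkMap (genericPoint X) := by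
    ext c
    rfl
  obtain ⟨x, hx1, hx2⟩ := l16f_exists_center_of_commSq σ V
    (Spec.map (CommRingCat.ofHom ψ) ≫ Y.fromSpecStalk y) (by
      rw [← Category.assoc, ← Spec.map_comp, hψ, Spec.map_comp, Category.assoc,
        Scheme.SpecMap_stalkSpecializes_fromSpecStalk, Scheme.SpecMap_stalkMap_fromSpecStalk])
  refine ⟨x, ?_, hx2⟩
  have h1 : σ x ∈ Set.range (Y.fromSpecStalk y) := by
    rw [hx1]
    exact ⟨(Spec.map (CommRingCat.ofHom ψ)) (IsLocalRing.closedPoint V), rfl⟩
  rw [Scheme.range_fromSpecStalk] at h1
  exact h1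

theorem l16f_specMap_base_eq {K : Type u} [Field K] {X : Scheme.{u}}
    (f : X ⟶ Spec (CommRingCat.of K)) (x : X) :
    Spec.map ((Scheme.ΓSpecIso (CommRingCat.of K)).inv ≫ f.appTop ≫
      X.presheaf.germ ⊤ x trivial) = X.fromSpecStalk x ≫ f := by
  rw [Spec.map_comp, Spec.map_comp, ← Scheme.fromSpecStalk_toSpecΓ]
  simp only [Category.assoc]
  rw [← Scheme.toSpecΓ_naturality_assoc, toSpecΓ_SpecMap_ΓSpecIso_inv, Category.comp_id]

/-- The inclusion `𝒪_{X,x} → V` for a point `x` whose local ring lies in `V`. -/
noncomputable def l16f_toV {X : Scheme.{u}} [IsIntegral X] (V : ValuationSubring X.functionField)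
    (x : X) (hx : ∀ t : X.presheaf.stalk x, algebraMap (X.presheaf.stalk x) X.functionField t ∈ V) :
    X.presheaf.stalk x →+* V :=
  (algebraMap (X.presheaf.stalk x) X.functionField).codRestrict V.toSubring hx

/-- The morphism `Spec V ⟶ X` attached to a point `x` whose local ring lies in `V`. -/
noncomputable def l16f_centerHom {X : Scheme.{u}} [IsIntegral X]
    (V : ValuationSubring X.functionField) (x : X)
    (hx : ∀ t : X.presheaf.stalk x, algebraMap (X.presheaf.stalk x) X.functionField t ∈ V) :
    Spec (CommRingCat.of V) ⟶ X :=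
  Spec.map (CommRingCat.ofHom (l16f_toV V x hx)) ≫ X.fromSpecStalk x

theorem l16f_centerHom_fac {X : Scheme.{u}} [IsIntegral X] (V : ValuationSubring X.functionField)
    (x : X) (hx : ∀ t : X.presheaf.stalk x, algebraMap (X.presheaf.stalk x) X.functionField t ∈ V) :
    Spec.map (CommRingCat.ofHom (algebraMap V X.functionField)) ≫ l16f_centerHom V x hx =
      X.fromSpecStalk (genericPoint X) := by
  have hspec : genericPoint X ⤳ x := (genericPoint_spec X).specializes (Set.mem_univ x)
  have h1 : CommRingCat.ofHom (l16f_toV V x hx) ≫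
      CommRingCat.ofHom (algebraMap V X.functionField) = X.presheaf.stalkSpecializes hspec := by
    ext t
    rfl
  unfold l16f_centerHom
  rw [← Category.assoc, ← Spec.map_comp, h1, Scheme.SpecMap_stalkSpecializes_fromSpecStalk]

theorem l16f_centerHom_closedPoint {X : Scheme.{u}} [IsIntegral X]
    (V : ValuationSubring X.functionField) (x : X)
    (hx : ∀ t : X.presheaf.stalk x, algebraMap (X.presheaf.stalk x) X.functionField t ∈ V)
    (hx' : ∀ t : X.presheaf.stalk x, ¬ IsUnit t →
      V.valuation (algebraMap (X.presheaf.stalk x) X.functionField t) < 1) :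
    l16f_centerHom V x hx (IsLocalRing.closedPoint V) = x := by
  have hloc : IsLocalHom (l16f_toV V x hx) := by
    constructor
    intro t ht
    by_contra hnu
    have h1 := hx' t hnu
    have h2 : l16f_toV V x hx t ∈ IsLocalRing.maximalIdeal V := by
      rw [ValuationSubring.valuation_lt_one_iff]
      exact h1
    exact h2 ht
  unfold l16f_centerHom
  have h3 : (Spec.map (CommRingCat.ofHom (l16f_toV V x hx)))
      (IsLocalRing.closedPoint V) = IsLocalRing.closedPoint (X.presheaf.stalk x) :=
    IsLocalRing.comap_closedPoint (l16f_toV V x hx)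
  rw [Scheme.Hom.comp_apply, h3, Scheme.fromSpecStalk_closedPoint]

end Valuative

/-! ### The leaf -/

variable {X S : Scheme.{u}} [IsIntegral X] [IsIntegral S]

theorem l16f_funMap_apply (φ : X ⟶ S) (hφ : φ.base (genericPoint X) = genericPoint S)
    (a : S.functionField) :
    funMap φ hφ a = (φ.stalkMap (genericPoint X)).hom
      ((S.presheaf.stalkSpecializes (Inseparable.of_eq hφ.symm).ge).hom a) := rfl

/-- `funMap` on an element regular at `φ x`: the image under the stalk map at `x`. -/
theorem l16f_funMap_algebraMap (φ : X ⟶ S) (hφ : φ.base (genericPoint X) = genericPoint S)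
    (x : X) (s : S.presheaf.stalk (φ.base x)) :
    funMap φ hφ (algebraMap (S.presheaf.stalk (φ.base x)) S.functionField s) =
      algebraMap (X.presheaf.stalk x) X.functionField ((φ.stalkMap x).hom s) := by
  have hsp : genericPoint X ⤳ x := l16f_genericPoint_specializes x
  have hsp' : φ.base (genericPoint X) ⤳ φ.base x := φ.base.hom.map_specializes hsp
  have h1 : (S.presheaf.stalkSpecializes (Inseparable.of_eq hφ.symm).ge).hom
      (algebraMap (S.presheaf.stalk (φ.base x)) S.functionField s) =
      (S.presheaf.stalkSpecializes hsp').hom s := by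
    rw [l16f_algebraMap_stalk_apply, ← CommRingCat.comp_apply,
      TopCat.Presheaf.stalkSpecializes_comp]
  rw [l16f_funMap_apply, h1, l16f_algebraMap_stalk_apply]
  exact Scheme.Hom.stalkSpecializes_stalkMap_apply φ _ _ hsp s

/-- `φ^*` maps the local ring at `φ x` into the local ring at `x`, non-units to non-units. -/
theorem funMap_localRing (φ : X ⟶ S) (hφ : φ.base (genericPoint X) = genericPoint S) (x : X)
    (a : S.functionField) (ha : a ∈ localRing S (φ.base x)) :
    funMap φ hφ a ∈ localRing X x ∧
      (a⁻¹ ∉ localRing S (φ.base x) → (funMap φ hφ a)⁻¹ ∉ localRing X x) := by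
  obtain ⟨s, rfl⟩ := ha
  rw [l16f_funMap_algebraMap]
  refine ⟨⟨_, rfl⟩, fun hinv hmem => hinv ?_⟩
  have hs0 : s ≠ 0 := by
    rintro rfl
    exact hinv (by rw [map_zero, inv_zero]; exact Subring.zero_mem _)
  have hne : (φ.stalkMap x).hom s ≠ 0 := by
    intro h0
    have h1 : funMap φ hφ (algebraMap (S.presheaf.stalk (φ.base x)) S.functionField s) = 0 := by
      rw [l16f_funMap_algebraMap, h0, map_zero]
    have h2 : algebraMap (S.presheaf.stalk (φ.base x)) S.functionField s = 0 :=
      (map_eq_zero (funMap φ hφ)).mp h1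
    exact hs0 (l16f_algebraMap_stalk_injective _ (by rw [h2, map_zero]))
  have hunit : IsUnit ((φ.stalkMap x).hom s) := l16f_isUnit_of_inv_mem_localRing hne hmem
  have hs : IsUnit s := isUnit_of_map_unit (φ.stalkMap x).hom s hunit
  exact l16f_inv_mem_localRing_of_isUnit hs

/-- At a horizontal point all of `φ^* K(S)` is regular. -/
theorem funMap_mem_localRing (φ : X ⟶ S) (hφ : φ.base (genericPoint X) = genericPoint S) (x : X)
    (hx : φ.base x = genericPoint S) (a : S.functionField) : funMap φ hφ a ∈ localRing X x := by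
  exact (funMap_localRing φ hφ x a (by rw [hx]; exact l16f_mem_localRing_genericPoint a)).1

/-- A centre of a valuation ring containing `φ^* K(S)` is horizontal. -/
theorem horizontal_of_dominates (φ : X ⟶ S) (hφ : φ.base (genericPoint X) = genericPoint S)
    (O : ValuationSubring X.functionField) (hO : ∀ a : S.functionField, funMap φ hφ a ∈ O)
    (x : X) (hx : Dominates x O) : φ.base x = genericPoint S := by
  apply l16f_eq_genericPoint_of_field
  intro t ht0
  by_contra hnu
  set a : S.functionField := algebraMap (S.presheaf.stalk (φ.base x)) S.functionField t with ha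
  have hainv : a⁻¹ ∉ localRing S (φ.base x) := fun h =>
    hnu (l16f_isUnit_of_inv_mem_localRing ht0 h)
  obtain ⟨h1, h2⟩ := funMap_localRing φ hφ x a ⟨t, rfl⟩
  have h3 : (funMap φ hφ a)⁻¹ ∉ O := hx.2 _ h1 (h2 hainv)
  apply h3
  rw [← map_inv₀]
  exact hO _

/-- Existence of the centre (valuative criterion for the proper morphism `φ`). -/
theorem exists_centre (φ : X ⟶ S) [IsProper φ] (hφ : φ.base (genericPoint X) = genericPoint S)
    (O : ValuationSubring X.functionField) (hO : ∀ a : S.functionField, funMap φ hφ a ∈ O) :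
    ∃ x : X, φ.base x = genericPoint S ∧ Dominates x O := by
  have hy : φ.base (genericPoint X) ⤳ genericPoint S := (Inseparable.of_eq hφ.symm).ge
  obtain ⟨x, hx1, hx2⟩ := l16f_exists_center_of_stalk φ O (genericPoint S) hy (fun s => hO s)
  exact ⟨x, (hx1.antisymm ((genericPoint_spec S).specializes (Set.mem_univ _))).eq,
    (l16f_dominates_iff_stalk O x).mpr hx2⟩

/-- the composite `Spec V ⟶ X ⟶ S` for a horizontal centre -/
theorem l16f_centerHom_comp (φ : X ⟶ S) (hφ : φ.base (genericPoint X) = genericPoint S)
    (V : ValuationSubring X.functionField) (hO : ∀ a : S.functionField, funMap φ hφ a ∈ V)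
    (x : X) (hx : ∀ t : X.presheaf.stalk x, algebraMap (X.presheaf.stalk x) X.functionField t ∈ V)
    (hxh : φ.base x = genericPoint S) :
    l16f_centerHom V x hx ≫ φ =
      Spec.map (CommRingCat.ofHom ((funMap φ hφ).codRestrict V.toSubring hO)) ≫
        S.fromSpecStalk (genericPoint S) := by
  have hsp : φ.base x ⤳ genericPoint S := by rw [hxh]
  have h1 : S.presheaf.stalkSpecializes hsp ≫ φ.stalkMap x ≫
      CommRingCat.ofHom (l16f_toV V x hx) =
      CommRingCat.ofHom ((funMap φ hφ).codRestrict V.toSubring hO) := by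
    refine CommRingCat.hom_ext (RingHom.ext fun a => Subtype.ext ?_)
    show algebraMap (X.presheaf.stalk x) X.functionField
      ((φ.stalkMap x).hom ((S.presheaf.stalkSpecializes hsp).hom a)) = funMap φ hφ a
    rw [← l16f_funMap_algebraMap φ hφ x]
    congr 1
    rw [l16f_algebraMap_stalkSpecializes, l16f_algebraMap_stalk_apply]
    exact l16f_stalkSpecializes_genericPoint a
  unfold l16f_centerHom
  rw [← h1, Spec.map_comp, Spec.map_comp, Category.assoc, Category.assoc, Category.assoc,
    Scheme.SpecMap_stalkSpecializes_fromSpecStalk, Scheme.SpecMap_stalkMap_fromSpecStalk]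
  rfl

/-- Uniqueness of the centre (valuative criterion for the separated morphism `φ`). -/
theorem centre_unique (φ : X ⟶ S) [IsSeparated φ] (hφ : φ.base (genericPoint X) = genericPoint S)
    (O : ValuationSubring X.functionField) (hO : ∀ a : S.functionField, funMap φ hφ a ∈ O)
    {x y : X} (hx : Dominates x O) (hy : Dominates y O) : x = y := by
  have hxh := horizontal_of_dominates φ hφ O hO x hx
  have hyh := horizontal_of_dominates φ hφ O hO y hy
  have h := (l16f_dominates_iff_stalk O x).mp hx
  have h' := (l16f_dominates_iff_stalk O y).mp hy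
  have hU : ValuativeCriterion.Uniqueness φ := IsSeparated.valuativeCriterion φ
  have hff : l16f_centerHom O x (fun t => (h t).1) ≫ φ =
      l16f_centerHom O y (fun t => (h' t).1) ≫ φ := by
    rw [l16f_centerHom_comp φ hφ O hO x _ hxh, l16f_centerHom_comp φ hφ O hO y _ hyh]
  let Sq : ValuativeCommSq φ :=
    { R := O
      K := X.functionField
      i₁ := X.fromSpecStalk (genericPoint X)
      i₂ := l16f_centerHom O x (fun t => (h t).1) ≫ φ
      commSq := ⟨by rw [← Category.assoc, l16f_centerHom_fac]⟩ }
  have hsub : Subsingleton Sq.commSq.LiftStruct := hU Sq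
  let l₁ : Sq.commSq.LiftStruct :=
    ⟨l16f_centerHom O x (fun t => (h t).1), l16f_centerHom_fac O x _, rfl⟩
  let l₂ : Sq.commSq.LiftStruct :=
    ⟨l16f_centerHom O y (fun t => (h' t).1), l16f_centerHom_fac O y _, hff.symm⟩
  have h12 : l₁ = l₂ := Subsingleton.elim _ _
  have h3 : l16f_centerHom O x (fun t => (h t).1) = l16f_centerHom O y (fun t => (h' t).1) :=
    congrArg CommSq.LiftStruct.l h12
  rw [← l16f_centerHom_closedPoint O x (fun t => (h t).1) (fun t => (h t).2),
    ← l16f_centerHom_closedPoint O y (fun t => (h' t).1) (fun t => (h' t).2), h3]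

/-- Existence of the centre over a field. -/
theorem exists_centre_over_field {K : Type u} [Field K] {C : Scheme.{u}} [IsIntegral C]
    (sC : C ⟶ Spec (CommRingCat.of K)) [IsProper sC]
    (O : ValuationSubring C.functionField) (hO : ∀ a : K, constHom sC a ∈ O) :
    ∃ c : C, Dominates c O := by
  let ψ : K →+* O := (constHom sC).codRestrict O.toSubring hO
  have hψ : CommRingCat.ofHom ψ ≫ CommRingCat.ofHom (algebraMap O C.functionField) =
      (Scheme.ΓSpecIso (CommRingCat.of K)).inv ≫ sC.appTop ≫
        C.presheaf.germ ⊤ (genericPoint C) trivial := by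
    ext c
    rfl
  obtain ⟨x, -, hx⟩ := l16f_exists_center_of_commSq sC O (Spec.map (CommRingCat.ofHom ψ)) (by
    rw [← Spec.map_comp, hψ, l16f_specMap_base_eq])
  exact ⟨x, (l16f_dominates_iff_stalk O x).mpr hx⟩

end Fermat.Agent.S26.CURVEK
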