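import Fermat.Agent.S26.CURVEK.GeomStatements

/-!
# S26 / P13 CURVEK, leaf L17 Normal  (proved by helper4905)
An integrally closed local domain is the intersection of the valuation rings of its fraction field
dominating it [Mathlib `LocalSubring.exists_le_valuationSubring_of_isIntegrallyClosedIn`].
-/

set_option autoImplicit false

universe u

open CategoryTheory AlgebraicGeometry AlgebraicCurve

namespace Fermat.Agent.S26.CURVEK

variable {X : Scheme.{u}} [IsIntegral X]

theorem mem_localRing_of_forall_dominating (x : X)
    (hnorm : IsIntegrallyClosed (X.presheaf.stalk x)) (f : X.functionField)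
    (h : ∀ O : ValuationSubring X.functionField, Dominates x O → f ∈ O) :
    f ∈ localRing X x := by
  have hinj : Function.Injective (algebraMap (X.presheaf.stalk x) X.functionField) :=
    IsFractionRing.injective _ _
  -- the local ring as a local subring, integrally closed in `K(X)`
  let e : X.presheaf.stalk x ≃+* localRing X x :=
    RingEquiv.ofBijective (algebraMap (X.presheaf.stalk x) X.functionField).rangeRestrict
      ⟨fun a b hab => hinj (congrArg Subtype.val hab),
        (algebraMap (X.presheaf.stalk x) X.functionField).rangeRestrict_surjective⟩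
  have hloc : IsLocalRing (localRing X x) := e.isLocalRing
  have hic : IsIntegrallyClosedIn (localRing X x) X.functionField := by
    rw [Subring.isIntegrallyClosedIn_iff]
    intro b hb
    have hb' : IsIntegral (X.presheaf.stalk x) b := by
      obtain ⟨P, hP, hPb⟩ := hb
      refine ⟨P.map (e.symm : localRing X x →+* X.presheaf.stalk x), hP.map _, ?_⟩
      rw [Polynomial.eval₂_map]
      have hcomp : (algebraMap (X.presheaf.stalk x) X.functionField).comp
          (e.symm : localRing X x →+* X.presheaf.stalk x) =
          algebraMap (localRing X x) X.functionField := by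
        ext r
        obtain ⟨s, rfl⟩ := e.surjective r
        simp only [RingHom.coe_comp, RingHom.coe_coe, Function.comp_apply,
          RingEquiv.symm_apply_apply]
        rfl
      rw [hcomp]
      exact hPb
    obtain ⟨s, hs⟩ := (IsIntegrallyClosed.isIntegral_iff (R := X.presheaf.stalk x)
      (K := X.functionField)).mp hb'
    exact ⟨s, hs⟩
  by_contra ha
  let R : LocalSubring X.functionField := ⟨localRing X x⟩
  have hic' : IsIntegrallyClosedIn R.toSubring X.functionField := hic
  obtain ⟨V, hRV, haV⟩ := R.exists_le_valuationSubring_of_isIntegrallyClosedIn (x := f) ha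
  obtain ⟨hle, hlocal⟩ := hRV
  refine haV (h V ⟨hle, fun b hb hbinv hbV => ?_⟩)
  -- `b` is a non-unit of the local ring, hence of `V`
  have hb0 : b ≠ 0 := by
    rintro rfl
    exact hbinv (by rw [inv_zero]; exact Subring.zero_mem _)
  have hnu : ¬ IsUnit (⟨b, hb⟩ : localRing X x) := by
    intro hu
    obtain ⟨c, hc⟩ := hu.exists_right_inv
    apply hbinv
    have hc' : b * (c : X.functionField) = 1 := congrArg Subtype.val hc
    rw [← eq_inv_of_mul_eq_one_right hc']
    exact c.2
  have hnu' : ¬ IsUnit (Subring.inclusion hle ⟨b, hb⟩) := fun hu =>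
    hnu (hlocal.map_nonunit _ hu)
  apply hnu'
  refine IsUnit.of_mul_eq_one (⟨b⁻¹, hbV⟩ : V.toSubring) (Subtype.ext ?_)
  show b * b⁻¹ = 1
  exact mul_inv_cancel₀ hb0

end Fermat.Agent.S26.CURVEK
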