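import Fermat.Agent.S26.CURVEK.GeomStatements

/-!
# S26 / P13 CURVEK, leaf L18 DivGen  (proved by helper4905)
The divisor on the generic fibre of a Cartier family: A v = ord_v (D x_v), x_v the centre of v.
Well defined by L16 (existence, uniqueness); finite support: finitely many charts of D cover the
quasi-compact generic fibre, and a nonzero function has finitely many zeros and poles.
Effectivity by L17.  (Prerequisite leaves are hypotheses h16.., you may not import them.)

Helper lemmas carry the prefix `l18f_`.
-/

set_option autoImplicit false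

universe u

open CategoryTheory AlgebraicGeometry AlgebraicCurve

namespace Fermat.Agent.S26.CURVEK

section Ord

variable {k F : Type*} [Field k] [Field F] [Algebra k F] (v : Place k F)

theorem l18f_ord_nonneg_of_mem {f : F} (hf : f ∈ v.toValuationSubring) : 0 ≤ v.ord f := by
  rcases v.adicValuation_le_one_iff.mp (v.adicValuation_le_one_of_mem hf) with h | h
  · rw [h, Place.ord_zero]
  · exact h

theorem l18f_mem_of_ord_nonneg {f : F} (hf : f ≠ 0) (h : 0 ≤ v.ord f) :
    f ∈ v.toValuationSubring := by
  obtain ⟨π, hπ⟩ := IsDiscreteValuationRing.exists_irreducible v.toValuationSubring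
  obtain ⟨w, hw⟩ := v.exists_unit_mul_zpow hf hπ
  obtain ⟨n, hn⟩ := Int.eq_ofNat_of_zero_le h
  rw [hw, hn, zpow_natCast]
  exact v.toValuationSubring.mul_mem _ _ (w : v.toValuationSubring).2
    (v.toValuationSubring.pow_mem π.2 n)

theorem l18f_ord_eq_zero_of_mem_of_inv_mem {f : F} (hf : f ∈ v.toValuationSubring)
    (hf' : f⁻¹ ∈ v.toValuationSubring) : v.ord f = 0 := by
  have h1 := l18f_ord_nonneg_of_mem v hf
  have h2 := l18f_ord_nonneg_of_mem v hf'
  rw [Place.ord_inv] at h2
  omega

end Ord

variable {X S : Scheme.{u}} [IsIntegral X] [IsIntegral S]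

theorem isDivGen_mul {k : Type u} [Field k] [Algebra k X.functionField]
    {D D' : Fam X} {A A' : Divisor k X.functionField}
    (h : IsDivGen D A) (h' : IsDivGen D' A') : IsDivGen (D * D') (A + A') := by
  intro v x hx
  rw [Finsupp.add_apply, h v x hx, h' v x hx]
  show _ = v.ord (((D x * D' x : (X.functionField)ˣ)) : X.functionField)
  rw [Units.val_mul, v.ord_mul (Units.ne_zero _) (Units.ne_zero _)]

theorem isDivGen_inv {k : Type u} [Field k] [Algebra k X.functionField]
    {D : Fam X} {A : Divisor k X.functionField} (h : IsDivGen D A) : IsDivGen D⁻¹ (-A) := by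
  intro v x hx
  rw [Finsupp.neg_apply, h v x hx]
  show _ = v.ord ((((D x)⁻¹ : (X.functionField)ˣ)) : X.functionField)
  rw [Units.val_inv_eq_inv_val, v.ord_inv]

theorem exists_divGen (q : X ⟶ S) [IsProper q] (hq : q.base (genericPoint X) = genericPoint S)
    [Algebra S.functionField X.functionField]
    (hk : ∀ a : S.functionField, algebraMap S.functionField X.functionField a = funMap q hq a)
    [HasPrincipalDivisors S.functionField X.functionField]
    (h16e : ∀ O : ValuationSubring X.functionField, (∀ a : S.functionField, funMap q hq a ∈ O) →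
      ∃ x : X, q.base x = genericPoint S ∧ Dominates x O)
    (h16u : ∀ O : ValuationSubring X.functionField, (∀ a : S.functionField, funMap q hq a ∈ O) →
      ∀ x y : X, Dominates x O → Dominates y O → x = y)
    (D : Fam X) (hD : D.IsCartier) :
    ∃ A : Divisor S.functionField X.functionField, IsDivGen D A := by
  classical
  have hmem : ∀ v : Place S.functionField X.functionField,
      ∀ a : S.functionField, funMap q hq a ∈ v.toValuationSubring := fun v a => by
    rw [← hk a]; exact v.algebraMap_mem' a
  -- the centre function
  choose cX hcXh hcX using fun v : Place S.functionField X.functionField =>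
    h16e v.toValuationSubring (hmem v)
  choose U hxU hU using hD
  -- the generic fibre is quasi-compact
  have hcomp : IsCompact (q.base ⁻¹' {genericPoint S}) := q.isCompact_preimage_singleton _
  obtain ⟨t, -, ht⟩ := hcomp.elim_nhds_subcover (fun x => ((U x : X.Opens) : Set X))
    (fun x _ => (U x).isOpen.mem_nhds (hxU x))
  -- principal divisors of the finitely many local equations
  have hpr : ∀ x : X, ∃ P : Divisor S.functionField X.functionField,
      ∀ v : Place S.functionField X.functionField,
        P v = v.ord ((D x : (X.functionField)ˣ) : X.functionField) := fun x => by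
    obtain ⟨P, hP, -⟩ := HasPrincipalDivisors.exists_divisor (K := S.functionField)
      (F := X.functionField) ((D x : (X.functionField)ˣ) : X.functionField) (Units.ne_zero _)
    exact ⟨P, hP⟩
  choose P hP using hpr
  -- the order at `v` is the order of the local equation at a point of the finite cover
  have key : ∀ v : Place S.functionField X.functionField, ∃ x ∈ t,
      v.ord ((D (cX v) : (X.functionField)ˣ) : X.functionField) =
        v.ord ((D x : (X.functionField)ˣ) : X.functionField) := by
    intro v
    have hmem' : cX v ∈ ⋃ x ∈ t, ((U x : X.Opens) : Set X) := ht (hcXh v)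
    simp only [Set.mem_iUnion] at hmem'
    obtain ⟨x, hxt, hxv⟩ := hmem'
    refine ⟨x, hxt, ?_⟩
    have hunit := hU x (cX v) hxv
    have h0 : v.ord (((D (cX v) / D x : (X.functionField)ˣ)) : X.functionField) = 0 :=
      l18f_ord_eq_zero_of_mem_of_inv_mem v ((hcX v).1 hunit.1) ((hcX v).1 hunit.2)
    have hmul : ((D (cX v) : (X.functionField)ˣ) : X.functionField) =
        (((D (cX v) / D x : (X.functionField)ˣ)) : X.functionField) *
          ((D x : (X.functionField)ˣ) : X.functionField) := by
      rw [← Units.val_mul, div_mul_cancel]
    rw [hmul, v.ord_mul (Units.ne_zero _) (Units.ne_zero _), h0, zero_add]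
  refine ⟨Finsupp.onFinset (t.biUnion fun x => (P x).support)
    (fun v => v.ord ((D (cX v) : (X.functionField)ˣ) : X.functionField)) ?_, fun v x hx => ?_⟩
  · intro v hv
    obtain ⟨x, hxt, hx⟩ := key v
    rw [Finset.mem_biUnion]
    refine ⟨x, hxt, ?_⟩
    rw [Finsupp.mem_support_iff, hP x v, ← hx]
    exact hv
  · have hxc : x = cX v := h16u v.toValuationSubring (hmem v) x (cX v) hx (hcX v)
    rw [hxc]
    rfl

theorem effective_of_mem (q : X ⟶ S) (hq : q.base (genericPoint X) = genericPoint S)
    [Algebra S.functionField X.functionField]
    (hk : ∀ a : S.functionField, algebraMap S.functionField X.functionField a = funMap q hq a)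
    (hdisc : StDiscrete S.functionField X.functionField)
    (h16m : ∀ x : X, q.base x = genericPoint S → ∀ a : S.functionField,
      funMap q hq a ∈ localRing X x)
    (h17 : ∀ (x : X) (f : X.functionField),
      (∀ O : ValuationSubring X.functionField, Dominates x O → f ∈ O) → f ∈ localRing X x)
    (D : Fam X) (A : Divisor S.functionField X.functionField) (hA : IsDivGen D A)
    (f : X.functionField) (hf : f ∈ riemannRochSpace A) :
    ∀ x : X, q.base x = genericPoint S →
      f * ((D x : (X.functionField)ˣ) : X.functionField) ∈ localRing X x := by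
  intro x hx
  by_cases hf0 : f = 0
  · rw [hf0, zero_mul]; exact Subring.zero_mem _
  refine h17 x _ fun O hO => ?_
  by_cases htop : O = ⊤
  · rw [htop]; exact ValuationSubring.mem_top _
  · -- `O` is a place of `K(X) / K(S)` with centre `x`
    have hkO : ∀ a : S.functionField, algebraMap S.functionField X.functionField a ∈ O :=
      fun a => by rw [hk a]; exact hO.1 (h16m x hx a)
    let v : Place S.functionField X.functionField := ⟨O, hkO, htop, hdisc O hkO htop⟩
    have hord : -A v ≤ v.ord f :=
      ((mem_riemannRochSpace_iff.mp hf) v).resolve_left hf0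
    have hne : f * ((D x : (X.functionField)ˣ) : X.functionField) ≠ 0 :=
      mul_ne_zero hf0 (Units.ne_zero _)
    have h2 : 0 ≤ v.ord (f * ((D x : (X.functionField)ˣ) : X.functionField)) := by
      rw [v.ord_mul hf0 (Units.ne_zero _), ← hA v x hO]
      omega
    exact l18f_mem_of_ord_nonneg v hne h2

end Fermat.Agent.S26.CURVEK
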