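import Fermat.Agent.S26.CURVEK.GeomStatements

/-!
# S26 / P13 CURVEK, leaf L19 ConPull  (proved by helper4905)
divGen (p^* E) = Con(E0): for a place v of K(X)/K(T) with centre x, the point p x is a centre of the
restriction of v to K(C) (funMap p is local on local rings), and Fam.pullback p E x is funMap p (E (p x))
(pullFun p = funMap p because p is dominant).

Helper lemmas carry the prefix `l19f_` (the small `localRing` API is adapted from
origin/helper5483:Fermat/Agent/S26/VAR/LocalRing5483.lean).
-/

set_option autoImplicit false

universe u

open CategoryTheory AlgebraicGeometry AlgebraicCurve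

namespace Fermat.Agent.S26.CURVEK

section Helpers

variable {X : Scheme.{u}} [IsIntegral X]

theorem l19f_genericPoint_specializes (x : X) : genericPoint X ⤳ x :=
  (genericPoint_spec X).specializes (by simp)

theorem l19f_algebraMap_stalk_apply (x : X) (s : X.presheaf.stalk x) :
    algebraMap (X.presheaf.stalk x) X.functionField s =
      (X.presheaf.stalkSpecializes (l19f_genericPoint_specializes x)).hom s := rfl

theorem l19f_algebraMap_stalk_injective (x : X) :
    Function.Injective (algebraMap (X.presheaf.stalk x) X.functionField) :=
  IsFractionRing.injective _ _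

theorem l19f_algebraMap_stalkSpecializes {x y : X} (h : x ⤳ y) (s : X.presheaf.stalk y) :
    algebraMap (X.presheaf.stalk x) X.functionField ((X.presheaf.stalkSpecializes h).hom s) =
      algebraMap (X.presheaf.stalk y) X.functionField s := by
  rw [l19f_algebraMap_stalk_apply, l19f_algebraMap_stalk_apply, ← CommRingCat.comp_apply,
    TopCat.Presheaf.stalkSpecializes_comp]

theorem l19f_stalkSpecializes_genericPoint (u : X.functionField) :
    (X.presheaf.stalkSpecializes (l19f_genericPoint_specializes (genericPoint X))).hom u = u := by
  have h : X.presheaf.stalkSpecializes (l19f_genericPoint_specializes (genericPoint X)) = 𝟙 _ :=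
    TopCat.Presheaf.stalkSpecializes_refl _ _
  rw [h]
  rfl

variable {C : Scheme.{u}} [IsIntegral C]

theorem l19f_pullFun_algebraMap (p : X ⟶ C) (s : C.presheaf.stalk (p.base (genericPoint X))) :
    pullFun p (algebraMap (C.presheaf.stalk (p.base (genericPoint X))) C.functionField s) =
      (p.stalkMap (genericPoint X)).hom s := by
  have h : algebraMap (C.presheaf.stalk (p.base (genericPoint X))) C.functionField s ∈
      localRing C (p.base (genericPoint X)) := ⟨s, rfl⟩
  unfold pullFun
  rw [dif_pos h]
  congr 1
  exact l19f_algebraMap_stalk_injective _ (Classical.choose_spec h)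

end Helpers

variable {K : Type u} [Field K] {C T X : Scheme.{u}} [IsIntegral C] [IsIntegral T] [IsIntegral X]

/-- for a dominant morphism the `pullFun` of `Defs.lean` is the field embedding `funMap` -/
theorem pullFun_eq_funMap (p : X ⟶ C) (hp : p.base (genericPoint X) = genericPoint C)
    (y : C.functionField) : pullFun p y = funMap p hp y := by
  have hsp : p.base (genericPoint X) ⤳ genericPoint C := (Inseparable.of_eq hp.symm).ge
  have hy : algebraMap (C.presheaf.stalk (p.base (genericPoint X))) C.functionField
      ((C.presheaf.stalkSpecializes hsp).hom y) = y := by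
    rw [l19f_algebraMap_stalkSpecializes, l19f_algebraMap_stalk_apply]
    exact l19f_stalkSpecializes_genericPoint y
  have h := l19f_pullFun_algebraMap p ((C.presheaf.stalkSpecializes hsp).hom y)
  rw [hy] at h
  rw [h]
  rfl

/-- the value of the pulled back family is `funMap` of the local equation at the image point -/
theorem l19f_pullback_apply (p : X ⟶ C) (hp : p.base (genericPoint X) = genericPoint C)
    (E : Fam C) (x : X) :
    (((Fam.pullback p E) x : (X.functionField)ˣ) : X.functionField) =
      funMap p hp ((E (p.base x) : (C.functionField)ˣ) : C.functionField) := by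
  have hne : pullFun p ((E (p.base x) : (C.functionField)ˣ) : C.functionField) ≠ 0 := by
    rw [pullFun_eq_funMap p hp]
    exact (map_ne_zero (funMap p hp)).mpr (Units.ne_zero _)
  show ((toUnit (pullFun p ((E (p.base x) : (C.functionField)ˣ) : C.functionField)) :
    (X.functionField)ˣ) : X.functionField) = _
  unfold toUnit
  rw [dif_neg hne, ← pullFun_eq_funMap p hp]
  rfl

/-- the pullback of a Cartier family along a dominant morphism is Cartier -/
theorem isCartier_pullback (p : X ⟶ C) (hp : p.base (genericPoint X) = genericPoint C)
    (h16l : ∀ (x : X) (a : C.functionField), a ∈ localRing C (p.base x) →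
      funMap p hp a ∈ localRing X x ∧
        (a⁻¹ ∉ localRing C (p.base x) → (funMap p hp a)⁻¹ ∉ localRing X x))
    (E : Fam C) (hE : E.IsCartier) : (Fam.pullback p E).IsCartier := by
  intro x
  obtain ⟨U, hxU, hU⟩ := hE (p.base x)
  refine ⟨p ⁻¹ᵁ U, hxU, fun y hy => ?_⟩
  have hyU : p.base y ∈ U := hy
  obtain ⟨h1, h2⟩ := hU (p.base y) hyU
  have hval : (((Fam.pullback p E y / Fam.pullback p E x : (X.functionField)ˣ)) :
      X.functionField) =
      funMap p hp (((E (p.base y) / E (p.base x) : (C.functionField)ˣ)) : C.functionField) := by
    rw [Units.val_div_eq_div_val, Units.val_div_eq_div_val, l19f_pullback_apply p hp,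
      l19f_pullback_apply p hp, map_div₀]
  refine ⟨?_, ?_⟩
  · rw [hval]
    exact (h16l y _ h1).1
  · rw [hval, ← map_inv₀]
    exact (h16l y _ h2).1

theorem conorm_pullback (sC : C ⟶ Spec (CommRingCat.of K)) (p : X ⟶ C) (q : X ⟶ T)
    (hp : p.base (genericPoint X) = genericPoint C) (hq : q.base (genericPoint X) = genericPoint T)
    [Algebra T.functionField X.functionField] [Algebra (FF sC) X.functionField]
    (hk : ∀ a : T.functionField, algebraMap T.functionField X.functionField a = funMap q hq a)
    (hF0 : ∀ y : FF sC, algebraMap (FF sC) X.functionField y = funMap p hp y)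
    (h16e : ∀ O : ValuationSubring X.functionField, (∀ a : T.functionField, funMap q hq a ∈ O) →
      ∃ x : X, q.base x = genericPoint T ∧ Dominates x O)
    (h16l : ∀ (x : X) (a : C.functionField), a ∈ localRing C (p.base x) →
      funMap p hp a ∈ localRing X x ∧
        (a⁻¹ ∉ localRing C (p.base x) → (funMap p hp a)⁻¹ ∉ localRing X x))
    (E : Fam C) (E0 : Divisor K (FF sC)) (hE0 : IsDivisorOf sC E E0)
    (A : Divisor T.functionField X.functionField) (hA : IsDivGen (Fam.pullback p E) A) :
    IsConorm A E0 := by
  intro v
  obtain ⟨x, -, hx⟩ := h16e v.toValuationSubring (fun a => by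
    rw [← hk a]; exact v.algebraMap_mem' a)
  have hAv : A v = v.ord (algebraMap (FF sC) X.functionField
      (((E (p.base x) : (C.functionField)ˣ) : C.functionField) : FF sC)) := by
    rw [hA v x hx, l19f_pullback_apply p hp E x, hF0]
  refine ⟨fun htriv => ?_, fun w e hw hord => ?_⟩
  · rw [hAv]
    exact htriv _ (Units.ne_zero _)
  · have hcentre : Dominates (p.base x) w.toValuationSubring := by
      rw [hw]
      refine ⟨fun a ha => ?_, fun a ha hinv hmem => ?_⟩
      · show algebraMap (FF sC) X.functionField a ∈ v.toValuationSubring
        rw [hF0]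
        exact hx.1 (h16l x a ha).1
      · have h1 : algebraMap (FF sC) X.functionField (a⁻¹ : C.functionField) ∈
            v.toValuationSubring := hmem
        rw [hF0, map_inv₀] at h1
        exact hx.2 _ (h16l x a ha).1 ((h16l x a ha).2 hinv) h1
    rw [hAv, hord _ (Units.ne_zero _), hE0 w (p.base x) hcentre]

end Fermat.Agent.S26.CURVEK
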