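import Fermat.Agent.S26.CURVEK.Main
import Fermat.Agent.S26.CURVEK.L15_Fields
import Fermat.Agent.S26.CURVEK.L16_Centre
import Fermat.Agent.S26.CURVEK.L17_Normal
import Fermat.Agent.S26.CURVEK.L18_DivGen
import Fermat.Agent.S26.CURVEK.L19_ConPull

/-!
# S26 / P13 CURVEK, leaf L20 Export: (K3) in the language of `Defs.lean` (assembly, proved)

`C` proper integral curve over `K` (function field `IsFF1`), `T` integral, `X = C ×_K T` integral
with integrally closed stalks; `γ` a constant for Riemann's inequality on `K(C)/K` and `E` a Cartier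
family on `C` whose divisor `E0` has degree `≥ γ`.  Then for every Cartier family `D` on `X` there
is `F0 ≠ 0` such that `div F0 + D + p^* E` or `div F0 - D + p^* E` is effective at every point of
the generic fibre of `q`.
-/

set_option autoImplicit false

universe u

open CategoryTheory AlgebraicGeometry AlgebraicCurve

namespace Fermat.Agent.S26.CURVEK

variable {K : Type u} [Field K] {C T X : Scheme.{u}} [IsIntegral C] [IsIntegral T] [IsIntegral X]

/-- **EXPORT of P13 (K3).** -/
theorem K3 (sC : C ⟶ Spec (CommRingCat.of K)) (sT : T ⟶ Spec (CommRingCat.of K))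
    (p : X ⟶ C) (q : X ⟶ T) (hpb : IsPullback p q sC sT) [IsProper sC]
    (hp : p.base (genericPoint X) = genericPoint C) (hq : q.base (genericPoint X) = genericPoint T)
    (hnorm : ∀ x : X, IsIntegrallyClosed (X.presheaf.stalk x))
    (hFF : IsFF1 K (FF sC)) (γ : ℤ) (hR : StRiemannWith K (FF sC) γ)
    (E : Fam C) (hE : E.IsCartier) (E0 : Divisor K (FF sC)) (hE0 : IsDivisorOf sC E E0)
    (hγ : γ ≤ Divisor.degree E0)
    (D : Fam X) (hD : D.IsCartier) :
    ∃ F0 : (X.functionField)ˣ,
      (∀ x : X, q.base x = genericPoint T →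
        ((F0 * D x * Fam.pullback p E x : (X.functionField)ˣ) : X.functionField) ∈
          localRing X x) ∨
      (∀ x : X, q.base x = genericPoint T →
        ((F0 * (D x)⁻¹ * Fam.pullback p E x : (X.functionField)ˣ) : X.functionField) ∈
          localRing X x) := by
  let _ : Algebra T.functionField X.functionField := (funMap q hq).toAlgebra
  let _ : Algebra (FF sC) X.functionField := (funMap p hp).toAlgebra
  have hk : ∀ a : T.functionField,
      algebraMap T.functionField X.functionField a = funMap q hq a := fun _ => rfl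
  have hF0 : ∀ y : FF sC, algebraMap (FF sC) X.functionField y = funMap p hp y := fun _ => rfl
  obtain ⟨hK, hLD, hGen⟩ := fields_prod sC sT p q hpb hp hq hk hF0
  have h1 : IsFF1 T.functionField X.functionField := isFF1_of_generated hK hLD hGen hFF
  have c1 := core h1
  have := c1.principal
  have hprop : IsProper q := MorphismProperty.of_isPullback hpb ‹IsProper sC›
  have h16e := fun O hO => exists_centre q hq O hO
  have h16u : ∀ O : ValuationSubring X.functionField,
      (∀ a : T.functionField, funMap q hq a ∈ O) →
      ∀ x y : X, Dominates x O → Dominates y O → x = y :=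
    fun O hO x y hx hy => centre_unique q hq O hO hx hy
  have h16m := fun x hx a => funMap_mem_localRing q hq x hx a
  have h16l := fun x a ha => funMap_localRing p hp x a ha
  have h17 := fun x f h => mem_localRing_of_forall_dominating x (hnorm x) f h
  obtain ⟨AD, hAD⟩ := exists_divGen q hq hk h16e h16u D hD
  have hEc := isCartier_pullback p hp h16l E hE
  obtain ⟨AE, hAE⟩ := exists_divGen q hq hk h16e h16u (Fam.pullback p E) hEc
  have hcon : IsConorm AE E0 := conorm_pullback sC p q hp hq hk hF0 h16e h16l E E0 hE0 AE hAE
  rcases le_or_gt 0 (Divisor.degree AD) with h | h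
  · obtain ⟨f, hf0, hf⟩ := riemann_generic hK hLD hGen hFF γ hR E0 hγ AE hcon AD h
    refine ⟨Units.mk0 f hf0, Or.inl fun x hx => ?_⟩
    have key := effective_of_mem q hq hk c1.discrete h16m h17 (D * Fam.pullback p E) (AD + AE)
      (isDivGen_mul hAD hAE) f hf x hx
    simpa [mul_assoc] using key
  · have h' : 0 ≤ Divisor.degree (-AD) := by rw [map_neg]; omega
    obtain ⟨f, hf0, hf⟩ := riemann_generic hK hLD hGen hFF γ hR E0 hγ AE hcon (-AD) h'
    refine ⟨Units.mk0 f hf0, Or.inr fun x hx => ?_⟩
    have key := effective_of_mem q hq hk c1.discrete h16m h17 (D⁻¹ * Fam.pullback p E)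
      (-AD + AE) (isDivGen_mul (isDivGen_inv hAD) hAE) f hf x hx
    simpa [mul_assoc] using key

end Fermat.Agent.S26.CURVEK
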