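import Fermat.Agent.S26.CURVEK.Statements
import Fermat.Agent.S26.FF.FromFinite
import Fermat.Agent.S26.FF.LSpace

/-!
# S26 / P13 CURVEK : `StFinite` directly from helper9503's library (replaces L5 + L6 in Main)
-/

set_option autoImplicit false

namespace Fermat.Agent.S26.CURVEK

open AlgebraicCurve Module

variable {k F : Type*} [Field k] [Field F] [Algebra k F]

theorem finite_of_isFF1 (h : IsFF1 k F) : StFinite k F := by
  obtain ⟨x₀, hx₀, hfin⟩ := h
  have : Module.Finite (IntermediateField.adjoin k {x₀}) F := hfin
  have : FF.IsFF1 k F := FF.isFF1_of_finite hx₀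
  exact ⟨fun D => FF.instFiniteLSpace D, fun A B hBA => FF.finrank_lspace_le hBA⟩

end Fermat.Agent.S26.CURVEK
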