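import Fermat.Agent.S26.CURVEK.Statements

/-!
# S26 / P13 CURVEK, leaf L11 Transfer
Riemann's inequality for F/k with the constant γ of F0/K.  B0 = (x)_∞ on F0, B = (ιx)_∞ on F:
L0(l B0) maps into L(l B) (L9), independent by LinDisj, so ℓ(l B) ≥ l deg B + 1 - γ; then
Stichtenoth 1.4.14: every D is ≤ l B + div z for some l, z.

(helper2145) Helper lemmas are prefixed `l11_`; the restriction lemma (leaf L9) is re-proved
locally as `l11_exists_ramification`, so that this file imports only `Statements`.
-/

set_option autoImplicit false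

namespace Fermat.Agent.S26.CURVEK

open AlgebraicCurve Module

variable {K F0 k F : Type*} [Field K] [Field F0] [Field k] [Field F]
  [Algebra K F0] [Algebra k F] [Algebra F0 F]

/-! ### Places: membership and order -/

theorem l11_ord_nonneg_of_mem {k F : Type*} [Field k] [Field F] [Algebra k F]
    (v : Place k F) {z : F} (hz : z ∈ v.toValuationSubring) : 0 ≤ v.ord z := by
  rcases (v.adicValuation_le_one_iff).mp (v.adicValuation_le_one_of_mem hz) with h | h
  · rw [h, Place.ord_zero]
  · exact h

theorem l11_isUnit_of_ord_eq_zero {k F : Type*} [Field k] [Field F] [Algebra k F]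
    (v : Place k F) (a : v.toValuationSubring) (ha : (a : F) ≠ 0) (h0 : v.ord (a : F) = 0) :
    IsUnit a := by
  rw [← v.adicValuation_coe_eq_one_iff, v.adicValuation_eq_exp_neg_ord ha, h0]
  simp

theorem l11_mem_of_ord_nonneg {k F : Type*} [Field k] [Field F] [Algebra k F]
    (v : Place k F) {z : F} (hz : 0 ≤ v.ord z) : z ∈ v.toValuationSubring := by
  by_contra hmem
  have hz0 : z ≠ 0 := fun h => hmem (h ▸ v.toValuationSubring.zero_mem)
  have hinv : z⁻¹ ∈ v.toValuationSubring :=
    (v.toValuationSubring.mem_or_inv_mem z).resolve_left hmem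
  have h1 : 0 ≤ v.ord z⁻¹ := l11_ord_nonneg_of_mem v hinv
  rw [v.ord_inv] at h1
  have h0 : v.ord z⁻¹ = 0 := by rw [v.ord_inv]; omega
  have hu : IsUnit (⟨z⁻¹, hinv⟩ : v.toValuationSubring) :=
    l11_isUnit_of_ord_eq_zero v ⟨z⁻¹, hinv⟩ (inv_ne_zero hz0) h0
  obtain ⟨b, hb⟩ := hu.exists_right_inv
  have hb' : z⁻¹ * (b : F) = 1 := by
    have := congrArg Subtype.val hb
    simpa using this
  have hbz : (b : F) = z := by
    field_simp at hb'
    exact hb'
  exact hmem (hbz ▸ b.2)

theorem l11_ord_eq_zero_of_mem_of_inv_mem {k F : Type*} [Field k] [Field F] [Algebra k F]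
    (v : Place k F) {z : F} (hz : z ∈ v.toValuationSubring)
    (hz' : z⁻¹ ∈ v.toValuationSubring) : v.ord z = 0 := by
  have h1 := l11_ord_nonneg_of_mem v hz
  have h2 := l11_ord_nonneg_of_mem v hz'
  rw [v.ord_inv] at h2
  omega

/-! ### Restriction of a place of `F / k` to `F0` (leaf L9, local copy) -/

theorem l11_exists_ramification (hK : ConstLE K F0 k F) (hdisc0 : StDiscrete K F0)
    (v : Place k F) :
    (∀ y : F0, y ≠ 0 → v.ord (algebraMap F0 F y) = 0) ∨
    ∃ (w : Place K F0) (e : ℕ), 0 < e ∧ w.toValuationSubring = restrSubring v ∧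
      ∀ y : F0, y ≠ 0 → v.ord (algebraMap F0 F y) = e * w.ord y := by
  have hmem : ∀ y : F0, y ∈ restrSubring v ↔ algebraMap F0 F y ∈ v.toValuationSubring :=
    fun y => Iff.rfl
  have hKmem : ∀ a : K, algebraMap K F0 a ∈ restrSubring v := by
    intro a
    rw [hmem]
    obtain ⟨b, hb⟩ := hK a
    rw [← hb]
    exact v.algebraMap_mem' b
  by_cases htop : (restrSubring v : ValuationSubring F0) = ⊤
  · left
    intro y _
    have h1 : algebraMap F0 F y ∈ v.toValuationSubring := by
      rw [← hmem, htop]; exact ValuationSubring.mem_top _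
    have h2 : (algebraMap F0 F y)⁻¹ ∈ v.toValuationSubring := by
      rw [← map_inv₀, ← hmem, htop]; exact ValuationSubring.mem_top _
    exact l11_ord_eq_zero_of_mem_of_inv_mem v h1 h2
  · right
    obtain ⟨w, hwv⟩ : ∃ w : Place K F0, w.toValuationSubring = restrSubring v :=
      ⟨{ toValuationSubring := restrSubring v
         algebraMap_mem' := hKmem
         ne_top' := htop
         isPrincipalIdealRing' := hdisc0 (restrSubring v) hKmem htop }, rfl⟩
    have hmemw : ∀ y : F0, y ∈ w.toValuationSubring ↔
        algebraMap F0 F y ∈ v.toValuationSubring := by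
      intro y
      rw [hwv]
      exact hmem y
    obtain ⟨π, hπ⟩ := IsDiscreteValuationRing.exists_irreducible w.toValuationSubring
    have hπ0 : (π : F0) ≠ 0 := by
      simpa [ne_eq, ZeroMemClass.coe_eq_zero] using hπ.ne_zero
    have hιπ0 : algebraMap F0 F (π : F0) ≠ 0 := by
      simpa using hπ0
    have hπmem : algebraMap F0 F (π : F0) ∈ v.toValuationSubring := (hmemw _).mp π.2
    have he0 : 0 ≤ v.ord (algebraMap F0 F (π : F0)) := l11_ord_nonneg_of_mem v hπmem
    have hene : v.ord (algebraMap F0 F (π : F0)) ≠ 0 := by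
      intro h0
      have hu := l11_isUnit_of_ord_eq_zero v ⟨_, hπmem⟩ hιπ0 h0
      obtain ⟨b, hb⟩ := hu.exists_right_inv
      have hb' : algebraMap F0 F (π : F0) * (b : F) = 1 := by
        have := congrArg Subtype.val hb
        simpa using this
      have hbinv : (b : F) = algebraMap F0 F ((π : F0)⁻¹) := by
        rw [map_inv₀]
        exact eq_inv_of_mul_eq_one_right hb'
      have hπinv : (π : F0)⁻¹ ∈ w.toValuationSubring := by
        rw [hmemw, ← hbinv]
        exact b.2
      apply hπ.not_isUnit
      refine IsUnit.of_mul_eq_one (⟨(π : F0)⁻¹, hπinv⟩ : w.toValuationSubring) ?_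
      apply Subtype.ext
      show (π : F0) * (π : F0)⁻¹ = 1
      exact mul_inv_cancel₀ hπ0
    refine ⟨w, (v.ord (algebraMap F0 F (π : F0))).toNat, by omega, hwv, ?_⟩
    intro y hy
    obtain ⟨u, hu⟩ := w.exists_unit_mul_zpow hy hπ
    have hu1 : algebraMap F0 F ((u : w.toValuationSubring) : F0) ∈ v.toValuationSubring :=
      (hmemw _).mp (u : w.toValuationSubring).2
    have hu2 : (algebraMap F0 F ((u : w.toValuationSubring) : F0))⁻¹ ∈ v.toValuationSubring := by
      have h3 : (((u⁻¹ : (w.toValuationSubring)ˣ) : w.toValuationSubring) : F0)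
          = (((u : w.toValuationSubring) : F0))⁻¹ := by
        have h4 : (((u : w.toValuationSubring) : F0))
            * (((u⁻¹ : (w.toValuationSubring)ˣ) : w.toValuationSubring) : F0) = 1 := by
          have h5 : (u : w.toValuationSubring) * ((u⁻¹ : (w.toValuationSubring)ˣ) :
              w.toValuationSubring) = 1 := Units.mul_inv u
          exact congrArg Subtype.val h5
        exact eq_inv_of_mul_eq_one_right h4
      rw [← map_inv₀, ← h3]
      exact (hmemw _).mp ((u⁻¹ : (w.toValuationSubring)ˣ) : w.toValuationSubring).2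
    have hu0 : v.ord (algebraMap F0 F ((u : w.toValuationSubring) : F0)) = 0 :=
      l11_ord_eq_zero_of_mem_of_inv_mem v hu1 hu2
    have hune : algebraMap F0 F ((u : w.toValuationSubring) : F0) ≠ 0 := by
      have : ((u : w.toValuationSubring) : F0) ≠ 0 := by
        simp [ne_eq, ZeroMemClass.coe_eq_zero]
      simp
    have hcalc : v.ord (algebraMap F0 F y)
        = w.ord y * v.ord (algebraMap F0 F (π : F0)) := by
      conv_lhs => rw [hu]
      rw [map_mul, map_zpow₀, v.ord_mul hune (zpow_ne_zero _ hιπ0), hu0, zero_add, v.ord_zpow]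
    rw [hcalc, Int.toNat_of_nonneg he0, mul_comm]

/-! ### `L0(l B0)` maps into `L(l B)` -/

theorem l11_map_mem (hK : ConstLE K F0 k F) (hdisc0 : StDiscrete K F0)
    (x : F0) (B0 : Divisor K F0) (hB0 : IsPoleDivisor B0 x)
    (B : Divisor k F) (hB : IsPoleDivisor B (algebraMap F0 F x)) (l : ℕ)
    (y : F0) (hy : y ∈ riemannRochSpace (l • B0)) :
    algebraMap F0 F y ∈ riemannRochSpace (l • B) := by
  rw [mem_riemannRochSpace_iff] at hy ⊢
  intro v
  rcases eq_or_ne y 0 with rfl | hy0
  · left; simp
  right
  have hBv : B v = max 0 (-(v.ord (algebraMap F0 F x))) := hB v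
  rw [Finsupp.smul_apply, nsmul_eq_mul]
  rcases l11_exists_ramification hK hdisc0 v with h0 | ⟨w, e, he, -, hw⟩
  · rw [h0 y hy0]
    have : (0 : ℤ) ≤ (l : ℤ) * B v := by
      rw [hBv]; positivity
    omega
  · have hyw : -(l • B0) w ≤ w.ord y := (hy w).resolve_left hy0
    rw [Finsupp.smul_apply, nsmul_eq_mul] at hyw
    have hB0w : B0 w = max 0 (-(w.ord x)) := hB0 w
    have hxv : v.ord (algebraMap F0 F x) = e * w.ord x := by
      rcases eq_or_ne x 0 with rfl | hx0
      · simp
      · exact hw x hx0
    have hBe : B v = e * B0 w := by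
      rw [hBv, hB0w, hxv]
      rcases le_total 0 (-(w.ord x)) with h | h
      · rw [max_eq_right h, max_eq_right]
        · ring
        · have : (0 : ℤ) ≤ (e : ℤ) * (-(w.ord x)) := by positivity
          linarith
      · rw [max_eq_left h, max_eq_left]
        · ring
        · have : (0 : ℤ) ≤ (e : ℤ) * (w.ord x) := by
            have : 0 ≤ w.ord x := by omega
            positivity
          linarith
    rw [hw y hy0, hBe]
    have he' : (0 : ℤ) ≤ (e : ℤ) := by positivity
    nlinarith [mul_le_mul_of_nonneg_left hyw he']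

/-! ### The lower bound for the multiples of `B` -/

theorem l11_multiples (hK : ConstLE K F0 k F) (hLD : LinDisj K F0 k F)
    (hdisc0 : StDiscrete K F0) (hfin : StFinite k F)
    (x : F0) (B0 : Divisor K F0) (hB0 : IsPoleDivisor B0 x)
    (B : Divisor k F) (hB : IsPoleDivisor B (algebraMap F0 F x))
    (hdeg : Divisor.degree B ≤ Divisor.degree B0)
    (γ : ℤ) (hR0 : StRiemannWith K F0 γ) (l : ℕ) :
    (l : ℤ) * Divisor.degree B + 1 - γ ≤ (finrank k (riemannRochSpace (l • B)) : ℤ) := by
  have h1 : Divisor.degree (l • B0) + 1 - γ ≤ (finrank K (riemannRochSpace (l • B0)) : ℤ) :=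
    hR0 (l • B0)
  rw [map_nsmul, nsmul_eq_mul] at h1
  have h2 : (l : ℤ) * Divisor.degree B ≤ (l : ℤ) * Divisor.degree B0 :=
    mul_le_mul_of_nonneg_left hdeg (by positivity)
  have h3 : finrank K (riemannRochSpace (l • B0)) ≤ finrank k (riemannRochSpace (l • B)) := by
    set n := finrank K (riemannRochSpace (l • B0)) with hn
    rcases Nat.eq_zero_or_pos n with h0 | hpos
    · rw [h0]; exact Nat.zero_le _
    have : Module.Finite K (riemannRochSpace (l • B0)) := Module.finite_of_finrank_pos hpos
    let b : Basis (Fin n) K (riemannRochSpace (l • B0)) := Module.finBasis K _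
    have hli0 : LinearIndependent K (fun i => ((b i : riemannRochSpace (l • B0)) : F0)) :=
      b.linearIndependent.map' (riemannRochSpace (l • B0)).subtype
        (Submodule.ker_subtype _)
    have hli : LinearIndependent k
        (fun i => algebraMap F0 F ((b i : riemannRochSpace (l • B0)) : F0)) :=
      hLD n _ hli0
    have : Module.Finite k (riemannRochSpace (l • B)) := hfin.1 (l • B)
    let c : Fin n → riemannRochSpace (l • B) := fun i =>
      ⟨algebraMap F0 F ((b i : riemannRochSpace (l • B0)) : F0),
        l11_map_mem hK hdisc0 x B0 hB0 B hB l _ (b i).2⟩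
    have hc : LinearIndependent k c :=
      LinearIndependent.of_comp (riemannRochSpace (l • B)).subtype hli
    have := hc.fintype_card_le_finrank
    simpa using this
  have h3' : (finrank K (riemannRochSpace (l • B0)) : ℤ)
      ≤ (finrank k (riemannRochSpace (l • B)) : ℤ) := by exact_mod_cast h3
  linarith

/-! ### Twisting by a principal divisor -/

theorem l11_finrank_sub_principal_le {k F : Type*} [Field k] [Field F] [Algebra k F]
    (hfin : StFinite k F) (D P : Divisor k F) (z : F) (hz : z ≠ 0)
    (hP : ∀ v : Place k F, P v = v.ord z) :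
    finrank k (riemannRochSpace (D - P)) ≤ finrank k (riemannRochSpace D) := by
  have : Module.Finite k (riemannRochSpace D) := hfin.1 D
  have hmap : ∀ f : F, f ∈ riemannRochSpace (D - P) → z⁻¹ * f ∈ riemannRochSpace D := by
    intro f hf
    rw [mem_riemannRochSpace_iff] at hf ⊢
    intro v
    rcases eq_or_ne f 0 with rfl | hf0
    · left; simp
    right
    have h1 : -(D - P) v ≤ v.ord f := (hf v).resolve_left hf0
    rw [Finsupp.sub_apply, hP v] at h1
    rw [v.ord_mul (inv_ne_zero hz) hf0, v.ord_inv]
    omega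
  let φ : riemannRochSpace (D - P) →ₗ[k] riemannRochSpace D :=
    { toFun := fun f => ⟨z⁻¹ * (f : F), hmap _ f.2⟩
      map_add' := fun f g => by
        apply Subtype.ext
        simp [mul_add]
      map_smul' := fun c f => by
        apply Subtype.ext
        simp }
  have hφ : Function.Injective φ := by
    intro f g hfg
    have h1 : z⁻¹ * (f : F) = z⁻¹ * (g : F) := congrArg Subtype.val hfg
    exact Subtype.ext (mul_left_cancel₀ (inv_ne_zero hz) h1)
  exact LinearMap.finrank_le_finrank_of_injective hφ

/-! ### The transfer -/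

theorem riemann_of_constant_subfield (hK : ConstLE K F0 k F) (hLD : LinDisj K F0 k F)
    (hdisc0 : StDiscrete K F0) (hfin : StFinite k F) [HasPrincipalDivisors k F]
    (x : F0) (B0 : Divisor K F0) (hB0 : IsPoleDivisor B0 x)
    (B : Divisor k F) (hB : IsPoleDivisor B (algebraMap F0 F x))
    (hpos : 0 < Divisor.degree B) (hdeg : Divisor.degree B ≤ Divisor.degree B0)
    (γ : ℤ) (hR0 : StRiemannWith K F0 γ) :
    StRiemannWith k F γ := by
  intro D
  have hmult := l11_multiples hK hLD hdisc0 hfin x B0 hB0 B hB hdeg γ hR0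
  -- the negative part of `D`
  let D' : Divisor k F := D.mapRange (fun n : ℤ => max 0 (-n)) (by simp)
  have hD' : ∀ v, D' v = max 0 (-(D v)) := fun v => Finsupp.mapRange_apply
  -- choose `l` large
  obtain ⟨l, hl⟩ : ∃ l : ℕ, γ + Divisor.degree D' + Divisor.degree D
      ≤ (l : ℤ) * Divisor.degree B := by
    refine ⟨(γ + Divisor.degree D' + Divisor.degree D).toNat, ?_⟩
    have h1 : γ + Divisor.degree D' + Divisor.degree D
        ≤ ((γ + Divisor.degree D' + Divisor.degree D).toNat : ℤ) := Int.self_le_toNat _
    have h2 : (((γ + Divisor.degree D' + Divisor.degree D).toNat : ℤ)) * 1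
        ≤ ((γ + Divisor.degree D' + Divisor.degree D).toNat : ℤ) * Divisor.degree B :=
      mul_le_mul_of_nonneg_left (by omega) (by positivity)
    linarith
  -- `M = l B - D ≤ A' = l B + D'` and `l B ≤ A'`
  have hMA : l • B - D ≤ l • B + D' := by
    rw [Finsupp.le_def]
    intro v
    rw [Finsupp.sub_apply, Finsupp.add_apply, hD' v]
    have := le_max_right 0 (-(D v))
    omega
  have hBA : l • B ≤ l • B + D' := by
    rw [Finsupp.le_def]
    intro v
    rw [Finsupp.add_apply, hD' v]
    have := le_max_left 0 (-(D v))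
    omega
  have hfinA : Module.Finite k (riemannRochSpace (l • B + D')) := hfin.1 _
  have hmono : finrank k (riemannRochSpace (l • B)) ≤ finrank k (riemannRochSpace (l • B + D')) := by
    apply Submodule.finrank_mono
    intro f hf
    rw [mem_riemannRochSpace_iff] at hf ⊢
    intro v
    rcases hf v with h | h
    · exact Or.inl h
    · right
      have := Finsupp.le_def.mp hBA v
      omega
  have hcod := hfin.2 (l • B + D') (l • B - D) hMA
  have hM : (1 : ℤ) ≤ finrank k (riemannRochSpace (l • B - D)) := by
    have h1 := hmult l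
    have h2 : (finrank k (riemannRochSpace (l • B)) : ℤ)
        ≤ finrank k (riemannRochSpace (l • B + D')) := by exact_mod_cast hmono
    have h3 : Divisor.degree (l • B + D') - Divisor.degree (l • B - D)
        = Divisor.degree D' + Divisor.degree D := by
      rw [map_add, map_sub]; ring
    rw [h3] at hcod
    linarith
  -- a nonzero element `z` of `L(l B - D)`
  obtain ⟨z, hzmem, hz0⟩ : ∃ z : F, z ∈ riemannRochSpace (l • B - D) ∧ z ≠ 0 := by
    have hpos' : 0 < finrank k (riemannRochSpace (l • B - D)) := by exact_mod_cast hM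
    have : Module.Finite k (riemannRochSpace (l • B - D)) := hfin.1 _
    obtain ⟨z, hz⟩ := Module.finrank_pos_iff_exists_ne_zero.mp hpos'
    exact ⟨z, z.2, fun h => hz (Subtype.ext h)⟩
  obtain ⟨P, hP, hPdeg⟩ := HasPrincipalDivisors.exists_divisor (K := k) z hz0
  have hDP : D - P ≤ l • B := by
    rw [Finsupp.le_def]
    intro v
    have h1 : -(l • B - D) v ≤ v.ord z :=
      ((mem_riemannRochSpace_iff.mp hzmem) v).resolve_left hz0
    rw [Finsupp.sub_apply] at h1 ⊢
    rw [hP v]
    omega
  have hle := l11_finrank_sub_principal_le hfin D P z hz0 hP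
  have hcod2 := hfin.2 (l • B) (D - P) hDP
  have h4 : Divisor.degree (l • B) - Divisor.degree (D - P)
      = (l : ℤ) * Divisor.degree B - Divisor.degree D := by
    rw [map_nsmul, map_sub, hPdeg, nsmul_eq_mul]; ring
  rw [h4] at hcod2
  have h5 := hmult l
  have h6 : (finrank k (riemannRochSpace (D - P)) : ℤ) ≤ finrank k (riemannRochSpace D) := by
    exact_mod_cast hle
  linarith

end Fermat.Agent.S26.CURVEK
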