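import Fermat.Agent.S26.CURVEK.Statements
import Fermat.Agent.S26.FF.FromFinite
import Fermat.Agent.S26.FF.Exists

/-!
# S26 / P13 CURVEK, leaf L1 Discrete
Stichtenoth 1.1.6.  Wrapper (helper803) around helper9503's
`FF.isPrincipalIdealRing_of_valuationSubring`.
-/

set_option autoImplicit false

namespace Fermat.Agent.S26.CURVEK

open AlgebraicCurve Module

variable {k F : Type*} [Field k] [Field F] [Algebra k F]

theorem discrete (hfo : StFiniteOver k F) : StDiscrete k F := by
  intro O hK hO
  obtain ⟨x, hx⟩ : ∃ x : F, x ∉ O := by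
    by_contra h
    push Not at h
    exact hO (eq_top_iff.mpr fun y _ => h y)
  have hx0 : x ≠ 0 := fun h => hx (h ▸ O.zero_mem)
  have hw : ∀ c : k, O.valuation (algebraMap k F c) ≤ 1 :=
    fun c => (O.valuation_le_one_iff _).mpr (hK c)
  have h1 : 1 < O.valuation x := not_le.mp fun h => hx ((O.valuation_le_one_iff x).mp h)
  have hval : O.valuation x⁻¹ < 1 := by
    rw [map_inv₀]
    exact inv_lt_one_of_one_lt₀ h1
  have ht : Transcendental k x⁻¹ :=
    FF.transcendental_of_val_lt_one O.valuation hw (inv_ne_zero hx0) hval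
  have : Module.Finite (IntermediateField.adjoin k {x⁻¹}) F := hfo _ ht
  have : FF.IsFF1 k F := FF.isFF1_of_finite ht
  exact FF.isPrincipalIdealRing_of_valuationSubring O hK

end Fermat.Agent.S26.CURVEK
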