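import Fermat.Agent.S26.CURVEK.Statements

/-!
# S26 / P13 CURVEK, leaf L2 ResidueFinite
Stichtenoth 1.1.15: x a uniformizer of v (transcendental); lifts of k-independent residues are
k(x)-independent, so deg v ≤ [F : k(x)] < ∞.
-/

set_option autoImplicit false

namespace Fermat.Agent.S26.CURVEK

open AlgebraicCurve Module

variable {k F : Type*} [Field k] [Field F] [Algebra k F]

/-- Core of Stichtenoth 1.1.15 in a local domain `R` which is a `k`-algebra: if `ϖ ≠ 0` lies in
the maximal ideal and the residues of the `z i` are `k`-linearly independent, then the `z i` are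
linearly independent over the polynomials in `ϖ`. -/
theorem l2_core {R : Type*} [CommRing R] [IsDomain R] [IsLocalRing R] [Algebra k R]
    {ϖ : R} (hϖ : ϖ ∈ IsLocalRing.maximalIdeal R) (hϖ0 : ϖ ≠ 0) {ι : Type*} (z : ι → R)
    (hz : LinearIndependent k (fun i => IsLocalRing.residue R (z i))) (s : Finset ι) :
    ∀ (N : ℕ) (p : ι → Polynomial k), (∀ i ∈ s, p i ≠ 0 → (p i).natDegree < N) →
      ∑ i ∈ s, Polynomial.aeval ϖ (p i) * z i = 0 → ∀ i ∈ s, p i = 0 := by
  intro N
  induction N with
  | zero =>
    intro p hdeg _ i hi
    by_contra hne
    exact absurd (hdeg i hi hne) (Nat.not_lt_zero _)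
  | succ N ih =>
    intro p hdeg hsum
    by_cases h0 : ∀ i ∈ s, (p i).coeff 0 = 0
    · -- all constant coefficients vanish: divide by `X`
      have hp : ∀ i ∈ s, p i = (p i).divX * Polynomial.X := by
        intro i hi
        have := Polynomial.divX_mul_X_add (p i)
        rw [h0 i hi, map_zero, add_zero] at this
        exact this.symm
      have hq : ∀ i ∈ s, (p i).divX = 0 := by
        apply ih (fun i => (p i).divX)
        · intro i hi hne
          have hpne : p i ≠ 0 := by
            intro h
            apply hne
            rw [h, Polynomial.divX_zero]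
          have h1 := hdeg i hi hpne
          rw [Polynomial.natDegree_divX_eq_natDegree_tsub_one]
          have h2 : (p i).natDegree ≠ 0 := by
            intro h
            apply hne
            rw [hp i hi] at h
            by_contra hne'
            rw [Polynomial.natDegree_mul_X hne'] at h
            omega
          omega
        · have h1 : ∑ i ∈ s, Polynomial.aeval ϖ (p i) * z i
              = ϖ * ∑ i ∈ s, Polynomial.aeval ϖ ((p i).divX) * z i := by
            rw [Finset.mul_sum]
            refine Finset.sum_congr rfl fun i hi => ?_
            conv_lhs => rw [hp i hi]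
            rw [map_mul, Polynomial.aeval_X]
            ring
          rw [h1] at hsum
          exact (mul_eq_zero.mp hsum).resolve_left hϖ0
      intro i hi
      rw [hp i hi, hq i hi, zero_mul]
    · -- some constant coefficient is nonzero: reduce modulo the maximal ideal
      exfalso
      apply h0
      have hres : ∀ q : Polynomial k, IsLocalRing.residue R (Polynomial.aeval ϖ q)
          = algebraMap k (IsLocalRing.ResidueField R) (q.coeff 0) := by
        intro q
        have h1 : IsLocalRing.residue R ϖ = 0 := by
          rw [IsLocalRing.residue_eq_zero_iff]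
          exact hϖ
        have h2 : IsLocalRing.residue R (Polynomial.aeval ϖ q)
            = Polynomial.aeval (IsLocalRing.residue R ϖ) q := by
          have := Polynomial.aeval_algebraMap_apply (R := k) (A := R)
            (IsLocalRing.ResidueField R) ϖ q
          rw [IsLocalRing.ResidueField.algebraMap_eq] at this
          exact this.symm
        rw [h2, h1, ← Polynomial.coeff_zero_eq_aeval_zero']
      have hsum' : ∑ i ∈ s, (p i).coeff 0 • IsLocalRing.residue R (z i) = 0 := by
        have := congrArg (IsLocalRing.residue R) hsum
        rw [map_sum, map_zero] at this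
        rw [← this]
        refine Finset.sum_congr rfl fun i _ => ?_
        rw [map_mul, hres, Algebra.smul_def]
      exact (linearIndependent_iff'.mp hz) s (fun i => (p i).coeff 0) hsum'

/-- Lifts of `k`-independent residues are linearly independent over `k(x)`, for a nonzero `x` in
the maximal ideal of the place. -/
theorem l2_linearIndependent (v : Place k F) {ϖ : v.toValuationSubring}
    (hϖ : ϖ ∈ IsLocalRing.maximalIdeal v.toValuationSubring) (hϖ0 : ϖ ≠ 0) {ι : Type*}
    (z : ι → v.toValuationSubring)
    (hz : LinearIndependent k (fun i => IsLocalRing.residue v.toValuationSubring (z i))) :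
    LinearIndependent (IntermediateField.adjoin k {(ϖ : F)}) (fun i => ((z i : F))) := by
  open scoped IntermediateField.algebraAdjoinAdjoin in
  rw [← LinearIndependent.iff_fractionRing (Algebra.adjoin k {(ϖ : F)})
    (IntermediateField.adjoin k {(ϖ : F)})]
  rw [linearIndependent_iff']
  intro s g hsum i hi
  have hg : ∀ j, ∃ q : Polynomial k, Polynomial.aeval (ϖ : F) q = (g j : F) := by
    intro j
    have hmem : (g j : F) ∈ (Polynomial.aeval (R := k) (ϖ : F)).range := by
      rw [← Algebra.adjoin_singleton_eq_range_aeval]
      exact (g j).2
    exact hmem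
  choose p hp using hg
  have hcoe : ∀ q : Polynomial k, ((Polynomial.aeval ϖ q : v.toValuationSubring) : F)
      = Polynomial.aeval (ϖ : F) q := by
    intro q
    exact (Polynomial.aeval_algebraMap_apply (R := k) (A := v.toValuationSubring) F ϖ q).symm
  have hsum' : ∑ j ∈ s, Polynomial.aeval ϖ (p j) * z j = 0 := by
    apply Subtype.ext
    have h1 : ((∑ j ∈ s, Polynomial.aeval ϖ (p j) * z j : v.toValuationSubring) : F)
        = ∑ j ∈ s, g j • (z j : F) := by
      push_cast
      refine Finset.sum_congr rfl fun j _ => ?_
      rw [hcoe, hp]
      rfl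
    rw [h1, hsum]
    rfl
  have hall := l2_core hϖ hϖ0 z hz s (s.sup (fun j => (p j).natDegree) + 1) p
    (fun j hj _ => Nat.lt_succ_of_le (Finset.le_sup (f := fun j => (p j).natDegree) hj)) hsum'
  apply Subtype.ext
  rw [← hp i, hall i hi, map_zero]
  rfl

/-- A nonzero element of the maximal ideal of a place is transcendental over `k`. -/
theorem l2_transcendental (v : Place k F) {ϖ : v.toValuationSubring}
    (hϖ : ϖ ∈ IsLocalRing.maximalIdeal v.toValuationSubring) (hϖ0 : ϖ ≠ 0) :
    Transcendental k (ϖ : F) := by
  rw [transcendental_iff]
  intro q hq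
  have hcoe : ((Polynomial.aeval ϖ q : v.toValuationSubring) : F)
      = Polynomial.aeval (ϖ : F) q :=
    (Polynomial.aeval_algebraMap_apply (R := k) (A := v.toValuationSubring) F ϖ q).symm
  have hz : LinearIndependent k
      (fun _ : Unit => IsLocalRing.residue v.toValuationSubring (1 : v.toValuationSubring)) := by
    rw [map_one]
    exact LinearIndependent.of_subsingleton () one_ne_zero
  have h := l2_core hϖ hϖ0 (fun _ : Unit => (1 : v.toValuationSubring)) hz {()}
    (q.natDegree + 1) (fun _ => q) (fun _ _ _ => Nat.lt_succ_self _)
    (by
      rw [Finset.sum_singleton, mul_one]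
      apply Subtype.ext
      rw [hcoe, hq]
      rfl)
  exact h () (Finset.mem_singleton_self _)

/-- The residue field of a place has dimension at most `[F : k(x)]` for `x` a nonzero element of
the maximal ideal. -/
theorem l2_rank_le (v : Place k F) {ϖ : v.toValuationSubring}
    (hϖ : ϖ ∈ IsLocalRing.maximalIdeal v.toValuationSubring) (hϖ0 : ϖ ≠ 0)
    [FiniteDimensional (IntermediateField.adjoin k {(ϖ : F)}) F] :
    Module.rank k v.ResidueField ≤ (finrank (IntermediateField.adjoin k {(ϖ : F)}) F : ℕ) := by
  apply rank_le
  intro s hs
  have hsurj : ∀ y : v.ResidueField, ∃ a : v.toValuationSubring,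
      IsLocalRing.residue v.toValuationSubring a = y := IsLocalRing.residue_surjective
  choose lift hlift using hsurj
  have hz : LinearIndependent k
      (fun i : s => IsLocalRing.residue v.toValuationSubring (lift (i : v.ResidueField))) := by
    simpa only [hlift] using hs
  have hli := l2_linearIndependent v hϖ hϖ0 (fun i : s => lift (i : v.ResidueField)) hz
  have := hli.fintype_card_le_finrank
  simpa using this

theorem residueFinite (hfo : StFiniteOver k F) : StResidueFinite k F := by
  intro v
  obtain ⟨ϖ, hirr⟩ := IsDiscreteValuationRing.exists_irreducible v.toValuationSubring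
  have hϖ : ϖ ∈ IsLocalRing.maximalIdeal v.toValuationSubring := by
    rw [IsLocalRing.mem_maximalIdeal]
    exact hirr.not_isUnit
  have hϖ0 : ϖ ≠ 0 := hirr.ne_zero
  have hfin := hfo (ϖ : F) (l2_transcendental v hϖ hϖ0)
  have hrank := l2_rank_le v hϖ hϖ0
  rw [← Module.rank_lt_aleph0_iff]
  exact lt_of_le_of_lt hrank (Cardinal.natCast_lt_aleph0)

theorem deg_pos (hfo : StFiniteOver k F) (v : Place k F) : 0 < v.deg := by
  have := residueFinite hfo v
  exact Module.finrank_pos

end Fermat.Agent.S26.CURVEK
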