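import Fermat.Agent.S26.CURVEK.Statements
import Fermat.Agent.S26.FF.Exists

/-!
# S26 / P13 CURVEK, leaf L3 ExistsZero
Chevalley: a valuation ring of F containing k[x] with x in its maximal ideal; `StDiscrete` makes it
a `Place`.  Adapted (helper803) from helper9503's `FF.exists_place_pos_ord`.
-/

set_option autoImplicit false

namespace Fermat.Agent.S26.CURVEK

open AlgebraicCurve Module Polynomial

variable {k F : Type*} [Field k] [Field F] [Algebra k F]

theorem existsZero (hdisc : StDiscrete k F) : StExistsZero k F := by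
  intro x hx
  have hx0 : x ≠ 0 := by
    rintro rfl
    exact hx (isAlgebraic_zero)
  let S : Subalgebra k F := Algebra.adjoin k {x}
  let xS : S.toSubring := ⟨x, Algebra.subset_adjoin rfl⟩
  have hI : Ideal.span {xS} ≠ ⊤ := by
    intro h
    rw [Ideal.span_singleton_eq_top] at h
    obtain ⟨r, hr⟩ := isUnit_iff_exists_inv.mp h
    have hr' : x * (r : F) = 1 := congrArg Subtype.val hr
    obtain ⟨p, hp⟩ : ∃ p : k[X], aeval x p = (r : F) := by
      have h1 : (r : F) ∈ Algebra.adjoin k {x} := r.2
      rw [Algebra.adjoin_singleton_eq_range_aeval] at h1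
      exact h1
    have h0 : aeval x (X * p - 1) = 0 := by simp [hp, hr']
    have h1 := (transcendental_iff.mp hx) _ h0
    have h2 := congrArg (fun q : k[X] => q.coeff 0) h1
    simp at h2
  obtain ⟨B, hB1, hB2⟩ := Ideal.image_subset_nonunits_valuationSubring _ hI
  have hxB : x ∈ B.nonunits := hB2 ⟨xS, Ideal.subset_span rfl, rfl⟩
  have hKB : ∀ c : k, algebraMap k F c ∈ B := fun c => hB1 (S.algebraMap_mem c)
  have hxinv : x⁻¹ ∉ B := (B.mem_nonunits_iff_or.mp hxB).resolve_left hx0
  have hBtop : B ≠ ⊤ := by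
    rintro rfl
    exact hxinv (ValuationSubring.mem_top _)
  let v : Place k F := ⟨B, hKB, hBtop, hdisc B hKB hBtop⟩
  refine ⟨v, ?_⟩
  have h1 : ¬ (0 ≤ v.ord x⁻¹) := fun h => hxinv (FF.mem_of_ord_nonneg v h)
  rw [Place.ord_inv] at h1
  omega

end Fermat.Agent.S26.CURVEK
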