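import Fermat.Agent.S26.CURVEK.Statements

/-!
# S26 / P13 CURVEK, leaf L4 ZerosLe  (helper5176)
Stichtenoth 1.3.3 for an arbitrary constant field `k`:
`∑ ord_v(x) · deg v ≤ [F : k(x)]` over any finite set of zeros of a transcendental `x`.

Proof: weak approximation (from Mathlib's Artin–Whaples `AbsoluteValue.denseRange_algebraMap_pi`)
and the direct independence argument of Stichtenoth 1.3.3 (the family `t_v^i z_{v,j}` is linearly
independent over `k(x)`).  Helper lemmas are prefixed `l4_`.  Only `hfo` is actually needed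
(finiteness of the residue fields of the zeros of `x` is derived, `l4_finite_residueField_of_zero`).
-/

set_option autoImplicit false

namespace Fermat.Agent.S26.CURVEK

open AlgebraicCurve

section L4Helpers

open WithZero Polynomial IntermediateField



variable {K F : Type*} [Field K] [Field F] [Algebra K F]

/-- membership in the valuation ring of a place, in terms of the adic valuation -/
theorem l4_mem_iff_adicValuation_le_one (v : Place K F) (f : F) :
    f ∈ v.toValuationSubring ↔ v.adicValuation f ≤ 1 := by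
  refine ⟨v.adicValuation_le_one_of_mem, fun h => ?_⟩
  by_contra hf
  have hf0 : f ≠ 0 := fun h0 => hf (h0 ▸ v.toValuationSubring.zero_mem)
  have hinv : f⁻¹ ∈ v.toValuationSubring := (v.toValuationSubring.mem_or_inv_mem f).resolve_left hf
  have hnu : ¬ IsUnit (⟨f⁻¹, hinv⟩ : v.toValuationSubring) := by
    rintro ⟨u, hu⟩
    apply hf
    have h1 : ((u⁻¹ : v.toValuationSubringˣ) : v.toValuationSubring) * ⟨f⁻¹, hinv⟩ = 1 := by
      rw [← hu]; simp
    have h2 : (((u⁻¹ : v.toValuationSubringˣ) : v.toValuationSubring) : F) * f⁻¹ = 1 := by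
      have := congrArg (Subtype.val) h1
      simpa using this
    have h3 : (((u⁻¹ : v.toValuationSubringˣ) : v.toValuationSubring) : F) = f := by
      field_simp at h2
      exact h2
    rw [← h3]
    exact ((u⁻¹ : v.toValuationSubringˣ) : v.toValuationSubring).2
  have h1 : v.adicValuation f⁻¹ ≤ 1 := v.adicValuation_le_one_of_mem hinv
  have h2 : v.adicValuation f⁻¹ ≠ 1 := fun h => hnu ((v.adicValuation_coe_eq_one_iff ⟨f⁻¹, hinv⟩).mp h)
  have h3 : v.adicValuation f⁻¹ < 1 := lt_of_le_of_ne h1 h2
  rw [map_inv₀] at h3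
  have h4 : v.adicValuation f ≠ 0 := v.adicValuation_ne_zero hf0
  have h5 : 1 < v.adicValuation f := (inv_lt_one₀ (zero_lt_iff.mpr h4)).mp h3
  exact absurd h (not_le.mpr h5)

/-- the real absolute value `2 ^ (- ord_v)` attached to a place -/
noncomputable def l4_placeAbv (v : Place K F) : AbsoluteValue F ℝ :=
  v.heightOneSpectrum.adicAbv (K := F) (b := 2) (by norm_num)

theorem l4_placeAbv_apply (v : Place K F) (f : F) :
    l4_placeAbv v f = (WithZeroMulInt.toNNReal (e := 2) (by norm_num) (v.adicValuation f) : ℝ) := rfl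

theorem l4_placeAbv_lt_iff (v : Place K F) (f g : F) :
    l4_placeAbv v f < l4_placeAbv v g ↔ v.adicValuation f < v.adicValuation g := by
  rw [l4_placeAbv_apply, l4_placeAbv_apply, NNReal.coe_lt_coe]
  exact (WithZeroMulInt.toNNReal_strictMono (e := 2) (by norm_num)).lt_iff_lt

theorem l4_placeAbv_le_iff (v : Place K F) (f g : F) :
    l4_placeAbv v f ≤ l4_placeAbv v g ↔ v.adicValuation f ≤ v.adicValuation g := by
  rw [l4_placeAbv_apply, l4_placeAbv_apply, NNReal.coe_le_coe]
  exact (WithZeroMulInt.toNNReal_strictMono (e := 2) (by norm_num)).le_iff_le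

theorem l4_placeAbv_le_one_iff (v : Place K F) (f : F) :
    l4_placeAbv v f ≤ 1 ↔ v.adicValuation f ≤ 1 := by
  have := l4_placeAbv_le_iff v f 1
  simpa using this

/-- a place has a uniformizer -/
theorem l4_exists_adicValuation_eq_exp_neg_one (v : Place K F) :
    ∃ t : F, v.adicValuation t = exp (-1 : ℤ) := by
  obtain ⟨π, hπ⟩ := IsDiscreteValuationRing.exists_irreducible v.toValuationSubring
  exact ⟨(π : F), v.adicValuation_coe_irreducible hπ⟩

theorem l4_placeAbv_isNontrivial (v : Place K F) : (l4_placeAbv v).IsNontrivial := by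
  obtain ⟨t, ht⟩ := l4_exists_adicValuation_eq_exp_neg_one v
  have ht0 : t ≠ 0 := by
    rintro rfl
    rw [map_zero] at ht
    exact exp_ne_zero ht.symm
  refine ⟨t, ht0, ?_⟩
  have h1 : l4_placeAbv v t < l4_placeAbv v 1 := by
    rw [l4_placeAbv_lt_iff, ht, map_one, ← exp_zero, exp_lt_exp]
    norm_num
  rw [map_one] at h1
  exact ne_of_lt h1

theorem l4_placeAbv_not_isEquiv {v w : Place K F} (h : v ≠ w) :
    ¬ (l4_placeAbv v).IsEquiv (l4_placeAbv w) := by
  intro he
  apply h
  apply Place.ext
  ext f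
  rw [l4_mem_iff_adicValuation_le_one, l4_mem_iff_adicValuation_le_one, ← l4_placeAbv_le_one_iff,
    ← l4_placeAbv_le_one_iff]
  exact he.le_one_iff

theorem l4_placeAbv_exp (v : Place K F) (f : F) (m : ℤ) (h : l4_placeAbv v f < (2 : ℝ) ^ m) :
    v.adicValuation f < exp m := by
  by_contra hcon
  rw [not_lt] at hcon
  have h1 : (WithZeroMulInt.toNNReal (e := 2) (by norm_num) (exp m) : ℝ) ≤ l4_placeAbv v f := by
    rw [l4_placeAbv_apply, NNReal.coe_le_coe]
    exact (WithZeroMulInt.toNNReal_strictMono (e := 2) (by norm_num)).monotone hcon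
  have h2 : (WithZeroMulInt.toNNReal (e := 2) (by norm_num) (exp m) : ℝ) = (2 : ℝ) ^ m := by
    rw [WithZeroMulInt.toNNReal_neg_apply _ (exp_ne_zero)]
    simp [exp]
  rw [h2] at h1
  exact absurd h (not_lt.mpr h1)

/-- **Weak approximation** (valuation form): finitely many distinct places, arbitrary targets,
arbitrary precision. -/
theorem l4_weak_approximation (s : Finset (Place K F)) (x : Place K F → F) (m : ℤ) :
    ∃ z : F, ∀ v ∈ s, v.adicValuation (z - x v) < exp m := by
  classical
  let vabs : s → AbsoluteValue F ℝ := fun i => l4_placeAbv i.1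
  have h1 : ∀ i, (vabs i).IsNontrivial := fun i => l4_placeAbv_isNontrivial i.1
  have h2 : Pairwise fun i j => ¬ (vabs i).IsEquiv (vabs j) := by
    intro i j hij
    exact l4_placeAbv_not_isEquiv (fun h => hij (Subtype.ext h))
  have hd := AbsoluteValue.denseRange_algebraMap_pi h1 h2
  have hε : (0 : ℝ) < (2 : ℝ) ^ m := by positivity
  obtain ⟨z, hz⟩ := Metric.denseRange_iff.mp hd (fun i => WithAbs.toAbs (vabs i) (x i.1)) _ hε
  refine ⟨z, fun v hv => ?_⟩
  have hz' := (dist_pi_lt_iff hε).mp hz ⟨v, hv⟩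
  apply l4_placeAbv_exp
  rw [dist_comm, dist_eq_norm] at hz'
  exact hz'





theorem l4_adicValuation_aeval_le_one (w : Place K F) {x : F} (hx : w.adicValuation x ≤ 1)
    (p : K[X]) : w.adicValuation (aeval x p) ≤ 1 := by
  induction p using Polynomial.induction_on' with
  | add p q hp hq =>
    rw [map_add]
    exact (Valuation.map_add _ _ _).trans (max_le hp hq)
  | monomial n a =>
    rw [aeval_monomial, map_mul, map_pow]
    exact mul_le_one' (w.adicValuation_algebraMap_le_one a) (pow_le_one' hx n)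

theorem l4_adicValuation_aeval_sub_coeff_zero_le (w : Place K F) {x : F}
    (hx : w.adicValuation x ≤ 1) (p : K[X]) :
    w.adicValuation (aeval x p - algebraMap K F (p.coeff 0)) ≤ w.adicValuation x := by
  have h : aeval x p - algebraMap K F (p.coeff 0) = aeval x p.divX * x := by
    conv_lhs => rw [← Polynomial.divX_mul_X_add p]
    simp
  rw [h, map_mul]
  exact mul_le_of_le_one_left' (l4_adicValuation_aeval_le_one w hx _)

theorem l4_adicValuation_aeval_le_of_coeff_zero (w : Place K F) {x : F}
    (hx : w.adicValuation x ≤ 1) (p : K[X]) (hp : p.coeff 0 = 0) :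
    w.adicValuation (aeval x p) ≤ w.adicValuation x := by
  have := l4_adicValuation_aeval_sub_coeff_zero_le w hx p
  rwa [hp, map_zero, sub_zero] at this

/-- separating uniformizers -/
theorem l4_exists_uniformizer_family (s : Finset (Place K F)) (v : Place K F) :
    ∃ t : F, v.adicValuation t = exp (-1 : ℤ) ∧
      ∀ w ∈ s, w ≠ v → w.adicValuation t = 1 := by
  classical
  obtain ⟨π, hπ⟩ := l4_exists_adicValuation_eq_exp_neg_one v
  obtain ⟨t, ht⟩ := l4_weak_approximation (insert v s) (fun w => if w = v then π else 1) (-1)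
  have hlt : exp (-1 : ℤ) < (1 : ℤᵐ⁰) := by
    rw [← exp_zero, exp_lt_exp]; norm_num
  refine ⟨t, ?_, fun w hw hwv => ?_⟩
  · have h1 := ht v (Finset.mem_insert_self v s)
    simp only [if_true] at h1
    have h2 : t = π + (t - π) := by ring
    rw [h2, Valuation.map_add_eq_of_lt_left _ (by rw [hπ]; exact h1), hπ]
  · have h1 := ht w (Finset.mem_insert_of_mem hw)
    simp only [if_neg hwv] at h1
    have h2 : t = 1 + (t - 1) := by ring
    rw [h2, Valuation.map_add_eq_of_lt_left _ (by rw [map_one]; exact h1.trans hlt), map_one]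

/-- approximate a given element at `v`, be small at the other places of `s` -/
theorem l4_exists_approx_family (s : Finset (Place K F)) (v : Place K F) (y : F) (M : ℤ) :
    ∃ z : F, v.adicValuation (z - y) < 1 ∧
      ∀ w ∈ s, w ≠ v → w.adicValuation z < exp M := by
  classical
  obtain ⟨z, hz⟩ := l4_weak_approximation (insert v s) (fun w => if w = v then y else 0) (min 0 M)
  refine ⟨z, ?_, fun w hw hwv => ?_⟩
  · have h1 := hz v (Finset.mem_insert_self v s)
    simp only [if_true] at h1
    refine h1.trans_le ?_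
    rw [← exp_zero, exp_le_exp]
    exact min_le_left _ _
  · have h1 := hz w (Finset.mem_insert_of_mem hw)
    simp only [if_neg hwv, sub_zero] at h1
    refine h1.trans_le ?_
    rw [exp_le_exp]
    exact min_le_right _ _


/-- clearing denominators and common factors of a nonzero vector over `K(x)` -/
theorem l4_exists_primitive (x : F) {ι : Type*} [Fintype ι] (g : ι → K⟮x⟯) (hg : ∃ i, g i ≠ 0) :
    ∃ (μ : F) (p : ι → K[X]), μ ≠ 0 ∧ (∀ i, μ * (g i : F) = aeval x (p i)) ∧
      ∃ i, (p i).coeff 0 ≠ 0 := by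
  classical
  have h1 : ∀ i, ∃ r s : K[X], aeval x s ≠ 0 ∧ (g i : F) = aeval x r / aeval x s := by
    intro i
    obtain ⟨r, s, h⟩ := (IntermediateField.mem_adjoin_simple_iff K (g i : F)).mp (g i).2
    by_cases hs : aeval x s = 0
    · refine ⟨0, 1, by simp, ?_⟩
      rw [h, hs]; simp
    · exact ⟨r, s, hs, h⟩
  choose r s hs hrs using h1
  let S : K[X] := ∏ i, s i
  let q : ι → K[X] := fun i => r i * ∏ j ∈ Finset.univ.erase i, s j
  have hS : aeval x S ≠ 0 := by
    simp only [S, map_prod]
    exact Finset.prod_ne_zero_iff.mpr fun i _ => hs i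
  have hq : ∀ i, aeval x S * (g i : F) = aeval x (q i) := by
    intro i
    have hSi : S = s i * ∏ j ∈ Finset.univ.erase i, s j :=
      (Finset.mul_prod_erase _ _ (Finset.mem_univ i)).symm
    rw [hrs i, hSi]
    simp only [q, map_mul]
    field_simp [hs i]
  obtain ⟨i0, hi0⟩ := hg
  have hq0 : aeval x (q i0) ≠ 0 := by
    rw [← hq i0]
    exact mul_ne_zero hS (by simpa using hi0)
  obtain ⟨p, hp, hgcd⟩ := Finset.extract_gcd q (s := Finset.univ) ⟨i0, Finset.mem_univ _⟩
  have hd0 : aeval x (Finset.univ.gcd q) ≠ 0 := by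
    intro h
    apply hq0
    rw [hp i0 (Finset.mem_univ _), map_mul, h, zero_mul]
  refine ⟨aeval x S / aeval x (Finset.univ.gcd q), p, div_ne_zero hS hd0, fun i => ?_, ?_⟩
  · rw [div_mul_eq_mul_div, hq i]
    conv_lhs => rw [hp i (Finset.mem_univ _), map_mul]
    field_simp
  · by_contra hcon
    push Not at hcon
    have hX : (X : K[X]) ∣ Finset.univ.gcd p :=
      Finset.dvd_gcd fun i _ => Polynomial.X_dvd_iff.mpr (hcon i)
    rw [hgcd] at hX
    exact Polynomial.not_isUnit_X (isUnit_of_dvd_one hX)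

theorem l4_adicValuation_mul4_lt_one (w : Place K F) (A B C D : F) (α β γ δ : ℤ)
    (hA : w.adicValuation A ≤ exp α) (hB : w.adicValuation B ≤ exp β)
    (hC : w.adicValuation C ≤ exp γ) (hD : w.adicValuation D ≤ exp δ)
    (h : α + β + γ + δ < 0) : w.adicValuation (A * B * C * D) < 1 := by
  have h1 : w.adicValuation (A * B * C * D) ≤ exp (α + β + γ + δ) := by
    rw [map_mul, map_mul, map_mul, exp_add, exp_add, exp_add]
    exact mul_le_mul' (mul_le_mul' (mul_le_mul' hA hB) hC) hD
  refine h1.trans_lt ?_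
  rw [← exp_zero, exp_lt_exp]
  exact h


theorem l4_residue_eq_zero_of_lt (w : Place K F) (a : w.toValuationSubring)
    (h : w.adicValuation (a : F) < 1) : IsLocalRing.residue w.toValuationSubring a = 0 := by
  rw [IsLocalRing.residue_eq_zero_iff, IsLocalRing.mem_maximalIdeal, mem_nonunits_iff]
  intro hu
  exact absurd ((w.adicValuation_coe_eq_one_iff a).mpr hu) (ne_of_lt h)

theorem l4_residue_aeval (w : Place K F) {x : F} (hx : w.adicValuation x < 1) (P : K[X])
    (h : aeval x P ∈ w.toValuationSubring) :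
    IsLocalRing.residue w.toValuationSubring ⟨aeval x P, h⟩ =
      algebraMap K w.ResidueField (P.coeff 0) := by
  have h1 : (⟨aeval x P, h⟩ : w.toValuationSubring) =
      (⟨aeval x P, h⟩ - algebraMap K w.toValuationSubring (P.coeff 0)) +
        algebraMap K w.toValuationSubring (P.coeff 0) := by ring
  rw [h1, map_add, l4_residue_eq_zero_of_lt w _ ?_, zero_add]
  · rfl
  · have h2 : ((⟨aeval x P, h⟩ - algebraMap K w.toValuationSubring (P.coeff 0) :
        w.toValuationSubring) : F) = aeval x P - algebraMap K F (P.coeff 0) := rfl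
    rw [h2]
    exact (l4_adicValuation_aeval_sub_coeff_zero_le w hx.le P).trans_lt hx


/-- **Stichtenoth 1.3.3, linear independence form.** -/
theorem l4_linearIndependent_zeros_family (x : F) (s : Finset (Place K F))
    (e n : Place K F → ℕ)
    (he : ∀ v ∈ s, v.adicValuation x = exp (-(e v : ℤ)))
    (t : Place K F → F) (ht : ∀ v ∈ s, v.adicValuation (t v) = exp (-1 : ℤ))
    (ht' : ∀ v ∈ s, ∀ w ∈ s, w ≠ v → w.adicValuation (t v) = 1)
    (z : (v : Place K F) → Fin (n v) → F)
    (b : (v : Place K F) → Fin (n v) → v.ResidueField)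
    (hb : ∀ v ∈ s, LinearIndependent K (b v))
    (hz : ∀ v ∈ s, ∀ j, ∃ h : z v j ∈ v.toValuationSubring,
      IsLocalRing.residue v.toValuationSubring ⟨z v j, h⟩ = b v j)
    (hz' : ∀ v ∈ s, ∀ j, ∀ w ∈ s, w ≠ v → w.adicValuation (z v j) ≤ w.adicValuation x) :
    LinearIndependent K⟮x⟯
      (fun i : (Σ v : s, Fin (e v) × Fin (n v)) => t i.1 ^ (i.2.1 : ℕ) * z i.1 i.2.2) := by
  classical
  rw [Fintype.linearIndependent_iff]
  intro g hg
  by_contra hne
  push Not at hne
  obtain ⟨μ, p, hμ, hp, ⟨⟨k, a1, j1⟩, hi1⟩⟩ := l4_exists_primitive x g hne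
  have hsum : ∑ i : (Σ v : s, Fin (e v) × Fin (n v)),
      aeval x (p i) * (t i.1 ^ (i.2.1 : ℕ) * z i.1 i.2.2) = 0 := by
    have h0 : μ * ∑ i, g i • (t i.1 ^ (i.2.1 : ℕ) * z i.1 i.2.2) = 0 := by rw [hg, mul_zero]
    rw [Finset.mul_sum] at h0
    rw [← h0]
    refine Finset.sum_congr rfl fun i _ => ?_
    rw [← hp i, IntermediateField.smul_def, smul_eq_mul]
    ring
  have hk : (k : Place K F) ∈ s := k.2
  let A : Finset (Fin (e k)) := Finset.univ.filter fun a => ∃ j, (p ⟨k, a, j⟩).coeff 0 ≠ 0
  have hA : A.Nonempty := ⟨a1, by simp only [A, Finset.mem_filter, Finset.mem_univ, true_and]; exact ⟨j1, hi1⟩⟩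
  obtain ⟨jc, hjc⟩ : ∃ j, (p ⟨k, A.min' hA, j⟩).coeff 0 ≠ 0 := by
    have := Finset.min'_mem A hA
    simpa only [A, Finset.mem_filter, Finset.mem_univ, true_and] using this
  have hmin : ∀ a : Fin (e k), a < A.min' hA → ∀ j, (p ⟨k, a, j⟩).coeff 0 = 0 := by
    intro a ha j
    by_contra h
    have hmem : a ∈ A := by
      simp only [A, Finset.mem_filter, Finset.mem_univ, true_and]; exact ⟨j, h⟩
    exact absurd (Finset.min'_le A a hmem) (not_le.mpr ha)
  generalize A.min' hA = c at hjc hmin
  have hxw : (k : Place K F).adicValuation x = exp (-(e k : ℤ)) := he k hk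
  have hcw : ((c : ℕ) : ℤ) < e k := by exact_mod_cast c.2
  have hx1 : (k : Place K F).adicValuation x < 1 := by
    rw [hxw, ← exp_zero, exp_lt_exp]; omega
  have htw : (k : Place K F).adicValuation (t k) = exp (-1 : ℤ) := ht k hk
  have htw0 : t k ≠ 0 := by
    intro h; rw [h, map_zero] at htw; exact exp_ne_zero htw.symm
  have hD : (k : Place K F).adicValuation ((t k ^ (c : ℕ))⁻¹) ≤ exp ((c : ℕ) : ℤ) := by
    rw [map_inv₀, map_pow, htw, ← exp_nsmul, ← exp_neg]; simp
  have hpow : ∀ a : ℕ, (k : Place K F).adicValuation (t k ^ a) ≤ exp (-(a : ℤ)) := by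
    intro a
    rw [map_pow, htw, ← exp_nsmul]; simp
  have hz1 : ∀ j, (k : Place K F).adicValuation (z k j) ≤ exp (0 : ℤ) := by
    intro j
    obtain ⟨h, -⟩ := hz k hk j
    rw [exp_zero]
    exact (k : Place K F).adicValuation_le_one_of_mem h
  have hae1 : ∀ P : K[X], (k : Place K F).adicValuation (aeval x P) ≤ exp (0 : ℤ) := by
    intro P
    rw [exp_zero]
    exact l4_adicValuation_aeval_le_one _ hx1.le P
  let T : (Σ v : s, Fin (e v) × Fin (n v)) → F := fun i =>
    aeval x (p i) * t i.1 ^ (i.2.1 : ℕ) * z i.1 i.2.2 * (t k ^ (c : ℕ))⁻¹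
  have hTsum : ∑ i, T i = 0 := by
    have h0 : ∑ i, T i = (∑ i : (Σ v : s, Fin (e v) × Fin (n v)),
        aeval x (p i) * (t i.1 ^ (i.2.1 : ℕ) * z i.1 i.2.2)) * (t k ^ (c : ℕ))⁻¹ := by
      rw [Finset.sum_mul]
      refine Finset.sum_congr rfl fun i _ => ?_
      simp only [T]; ring
    rw [h0, hsum, zero_mul]
  -- terms at other places are small
  have hsmall1 : ∀ (v : s) (a : Fin (e v)) (j : Fin (n v)), v ≠ k →
      (k : Place K F).adicValuation (T ⟨v, a, j⟩) < 1 := by
    intro v a j hvk
    have hvk' : (k : Place K F) ≠ v := fun h => hvk (Subtype.ext h.symm)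
    refine l4_adicValuation_mul4_lt_one _ _ _ _ _ 0 0 (-(e k : ℤ)) (c : ℕ) (hae1 _) ?_ ?_ hD (by omega)
    · rw [map_pow, ht' v v.2 k hk hvk', one_pow, exp_zero]
    · rw [← hxw]
      exact hz' v v.2 j k hk hvk'
  have hsmall2 : ∀ (a : Fin (e k)) (j : Fin (n k)), a ≠ c →
      (k : Place K F).adicValuation (T ⟨k, a, j⟩) < 1 := by
    intro a j hac
    rcases lt_or_gt_of_ne hac with hlt | hgt
    · have hlt' : (a : ℕ) < (c : ℕ) := hlt
      refine l4_adicValuation_mul4_lt_one _ _ _ _ _ (-(e k : ℤ)) (-((a : ℕ) : ℤ)) 0 (c : ℕ) ?_ (hpow a) (hz1 j) hD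
        (by omega)
      rw [← hxw]
      exact l4_adicValuation_aeval_le_of_coeff_zero _ hx1.le _ (hmin a hlt j)
    · have hgt' : (c : ℕ) < (a : ℕ) := hgt
      exact l4_adicValuation_mul4_lt_one _ _ _ _ _ 0 (-((a : ℕ) : ℤ)) 0 (c : ℕ) (hae1 _) (hpow a) (hz1 j) hD
        (by omega)
  have hmain : ∀ j : Fin (n k), T ⟨k, c, j⟩ = aeval x (p ⟨k, c, j⟩) * z k j := by
    intro j
    simp only [T]
    field_simp
  -- everything lies in the valuation ring
  have hTmem : ∀ i, T i ∈ (k : Place K F).toValuationSubring := by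
    rintro ⟨v, a, j⟩
    rw [l4_mem_iff_adicValuation_le_one]
    by_cases hvk : v = k
    · subst hvk
      by_cases hac : a = c
      · subst hac
        rw [hmain, map_mul]
        have h1 := hae1 (p ⟨v, a, j⟩)
        have h2 := hz1 j
        rw [exp_zero] at h1 h2
        exact mul_le_one' h1 h2
      · exact (hsmall2 a j hac).le
    · exact (hsmall1 v a j hvk).le
  have hsum' : ∑ i, IsLocalRing.residue (k : Place K F).toValuationSubring ⟨T i, hTmem i⟩ = 0 := by
    rw [← map_sum]
    have h0 : (∑ i, (⟨T i, hTmem i⟩ : (k : Place K F).toValuationSubring)) = 0 := by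
      apply Subtype.ext
      push_cast
      exact hTsum
    rw [h0, map_zero]
  rw [Fintype.sum_sigma, Finset.sum_eq_single k, Fintype.sum_prod_type,
    Finset.sum_eq_single c] at hsum'
  · have hres : ∀ j : Fin (n k),
        IsLocalRing.residue (k : Place K F).toValuationSubring ⟨T ⟨k, c, j⟩, hTmem ⟨k, c, j⟩⟩ =
          (p ⟨k, c, j⟩).coeff 0 • b k j := by
      intro j
      obtain ⟨hzm, hzr⟩ := hz k hk j
      have ham : aeval x (p ⟨k, c, j⟩) ∈ (k : Place K F).toValuationSubring := by
        rw [l4_mem_iff_adicValuation_le_one]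
        have := hae1 (p ⟨k, c, j⟩)
        rwa [exp_zero] at this
      have h0 : (⟨T ⟨k, c, j⟩, hTmem ⟨k, c, j⟩⟩ : (k : Place K F).toValuationSubring) =
          ⟨aeval x (p ⟨k, c, j⟩), ham⟩ * ⟨z k j, hzm⟩ := Subtype.ext (hmain j)
      rw [h0, map_mul, l4_residue_aeval _ hx1, hzr, Algebra.smul_def]
    simp only [hres] at hsum'
    exact hjc (Fintype.linearIndependent_iff.mp (hb k hk) _ hsum' jc)
  · intro a _ hac
    exact Finset.sum_eq_zero fun j _ => l4_residue_eq_zero_of_lt _ _ (hsmall2 a j hac)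
  · intro h; exact absurd (Finset.mem_univ _) h
  · intro v _ hvk
    exact Finset.sum_eq_zero fun y _ => l4_residue_eq_zero_of_lt _ _ (hsmall1 v y.1 y.2 hvk)
  · intro h; exact absurd (Finset.mem_univ _) h


/-- **Stichtenoth 1.3.3, counting form**: independent families in the residue fields of distinct
zeros of `x`, weighted by the orders, have total size at most `[F : K(x)]`. -/
theorem l4_sum_mul_card_le_finrank (x : F) [FiniteDimensional K⟮x⟯ F] (s : Finset (Place K F))
    (e n : Place K F → ℕ)
    (he : ∀ v ∈ s, v.adicValuation x = exp (-(e v : ℤ)))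
    (b : (v : Place K F) → Fin (n v) → v.ResidueField)
    (hb : ∀ v ∈ s, LinearIndependent K (b v)) :
    ∑ v ∈ s, e v * n v ≤ Module.finrank K⟮x⟯ F := by
  classical
  choose t ht ht' using fun v : Place K F => l4_exists_uniformizer_family s v
  -- lifts of the residue classes
  have hlift : ∀ (v : Place K F) (j : Fin (n v)), ∃ β : v.toValuationSubring,
      IsLocalRing.residue v.toValuationSubring β = b v j :=
    fun v j => IsLocalRing.residue_surjective (b v j)
  choose β hβ using hlift
  have hz0 : ∀ (v : Place K F) (j : Fin (n v)), ∃ z : F,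
      v.adicValuation (z - (β v j : F)) < 1 ∧
        ∀ w ∈ s, w ≠ v → w.adicValuation z < exp (-((s.sup e : ℕ) : ℤ)) :=
    fun v j => l4_exists_approx_family s v (β v j : F) _
  choose z hz hz' using hz0
  have hli := l4_linearIndependent_zeros_family x s e n he t (fun v _ => ht v)
    (fun v _ w hw hwv => ht' v w hw hwv) z b hb ?_ ?_
  · have hcard := hli.fintype_card_le_finrank
    rw [Fintype.card_sigma] at hcard
    simp only [Fintype.card_prod, Fintype.card_fin] at hcard
    rw [Finset.sum_coe_sort s (fun v => e v * n v)] at hcard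
    exact hcard
  · intro v _ j
    have hmem : z v j - (β v j : F) ∈ v.toValuationSubring :=
      (l4_mem_iff_adicValuation_le_one v _).mpr (hz v j).le
    have hzmem : z v j ∈ v.toValuationSubring := by
      have := v.toValuationSubring.add_mem _ _ hmem (β v j).2
      simpa using this
    refine ⟨hzmem, ?_⟩
    have h1 : (⟨z v j, hzmem⟩ : v.toValuationSubring) = ⟨z v j - (β v j : F), hmem⟩ + β v j := by
      apply Subtype.ext
      simp
    rw [h1, map_add, l4_residue_eq_zero_of_lt v _ (hz v j), zero_add, hβ]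
  · intro v _ j w hw hwv
    refine (hz' v j w hw hwv).le.trans ?_
    rw [he w hw, exp_le_exp]
    have : e w ≤ s.sup e := Finset.le_sup hw
    omega

/-- single-place version of `l4_sum_mul_card_le_finrank` -/
theorem l4_mul_card_le_finrank_single (x : F) [FiniteDimensional K⟮x⟯ F] (v : Place K F)
    (e n : ℕ) (he : v.adicValuation x = exp (-(e : ℤ)))
    (b : Fin n → v.ResidueField) (hb : LinearIndependent K b) :
    e * n ≤ Module.finrank K⟮x⟯ F := by
  classical
  have h := l4_sum_mul_card_le_finrank x {v} (fun _ => e) (fun _ => n)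
    (fun w hw => by rw [Finset.mem_singleton.mp hw]; exact he)
    (fun w => if h : w = v then fun j => h ▸ b j else fun _ => 0) (fun w hw => ?_)
  · simpa using h
  · obtain rfl := Finset.mem_singleton.mp hw
    simp only [↓reduceDIte]
    exact hb

/-- the residue field of a zero of `x` is finite over `K` when `[F : K(x)] < ∞` -/
theorem l4_finite_residueField_of_zero (x : F) [FiniteDimensional K⟮x⟯ F] (v : Place K F)
    (hv : v.adicValuation x < 1) (hx : x ≠ 0) : Module.Finite K v.ResidueField := by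
  classical
  have hpos : 0 < v.ord x := by
    rw [v.adicValuation_eq_exp_neg_ord hx, ← exp_zero, exp_lt_exp] at hv
    omega
  have hord : v.adicValuation x = exp (-(((v.ord x).toNat : ℕ) : ℤ)) := by
    rw [v.adicValuation_eq_exp_neg_ord hx, Int.toNat_of_nonneg hpos.le]
  have hpos' : 1 ≤ (v.ord x).toNat := by omega
  have hbound : ∀ t : Finset v.ResidueField,
      (LinearIndependent K fun i : t => (i : v.ResidueField)) →
        t.card ≤ Module.finrank K⟮x⟯ F := by
    intro t ht
    have hli : LinearIndependent K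
        (fun j : Fin t.card => ((t.equivFin.symm j : t) : v.ResidueField)) :=
      ht.comp _ t.equivFin.symm.injective
    have h := l4_mul_card_le_finrank_single x v (v.ord x).toNat t.card hord _ hli
    calc t.card = 1 * t.card := (one_mul _).symm
      _ ≤ (v.ord x).toNat * t.card := Nat.mul_le_mul_right _ hpos'
      _ ≤ _ := h
  have hrank : Module.rank K v.ResidueField ≤ (Module.finrank K⟮x⟯ F : ℕ) := rank_le hbound
  exact Module.rank_lt_aleph0_iff.mp (hrank.trans_lt (Cardinal.natCast_lt_aleph0))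

/-- **Stichtenoth 1.3.3**: `∑ ord_v(x) · deg v ≤ [F : K(x)]` over any finite set of zeros. -/
theorem l4_sum_ord_mul_deg_le_finrank (x : F) [FiniteDimensional K⟮x⟯ F] (hx : x ≠ 0)
    (s : Finset (Place K F)) (hs : ∀ v ∈ s, 0 < v.ord x) :
    ∑ v ∈ s, (v.ord x).toNat * v.deg ≤ Module.finrank K⟮x⟯ F := by
  classical
  have hfin : ∀ v ∈ s, Module.Finite K v.ResidueField := by
    intro v hv
    refine l4_finite_residueField_of_zero x v ?_ hx
    rw [v.adicValuation_eq_exp_neg_ord hx, ← exp_zero, exp_lt_exp]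
    have := hs v hv
    omega
  refine l4_sum_mul_card_le_finrank x s (fun v => (v.ord x).toNat) (fun v => v.deg)
    (fun v hv => ?_)
    (fun v => if h : Module.Finite K v.ResidueField then
      (fun j => (Module.finBasis K v.ResidueField) j) else fun _ => 0) (fun v hv => ?_)
  · rw [v.adicValuation_eq_exp_neg_ord hx, Int.toNat_of_nonneg (hs v hv).le]
  · have := hfin v hv
    simp only [dif_pos this]
    exact (Module.finBasis K v.ResidueField).linearIndependent


end L4Helpers

open Module

variable {k F : Type*} [Field k] [Field F] [Algebra k F]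

theorem zerosLe (hfo : StFiniteOver k F) (hres : StResidueFinite k F) : StZerosLe k F := by
  intro x hx s hs
  have : FiniteDimensional (IntermediateField.adjoin k {x}) F := hfo x hx
  have hx0 : x ≠ 0 := by
    rintro rfl
    exact hx isAlgebraic_zero
  have h := l4_sum_ord_mul_deg_le_finrank x hx0 s hs
  have h2 : ∑ v ∈ s, v.ord x * (v.deg : ℤ) = ((∑ v ∈ s, (v.ord x).toNat * v.deg : ℕ) : ℤ) := by
    rw [Nat.cast_sum]
    refine Finset.sum_congr rfl fun v hv => ?_
    rw [Nat.cast_mul, Int.toNat_of_nonneg (hs v hv).le]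
  rw [h2]
  exact_mod_cast h

end Fermat.Agent.S26.CURVEK
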