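import Fermat.Agent.S26.CURVEK.Statements

/-!
# S26 / P13 CURVEK, leaf L7 ZeroDegree  (helper5176)
Stichtenoth 1.4.11 for an arbitrary constant field `k`: the zeros of a transcendental `x` form a
finite set and `deg (x)_0 = [F : k(x)]`.

Proof: finiteness of the zero set and `≤` are Stichtenoth 1.3.3 (`hzle`; finiteness is reproved
here from weak approximation, helpers `l7_*`).  For `≥`: let `u_1..u_n` be a basis of `F / k(x)`,
`C ≥ 0` a divisor with `(u_j) ≥ -C`, `B = (x)_0`.  The `(l+1) n` elements `x^{-i} u_j` (`i ≤ l`) lie in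
`L(l B + C)` and are `k`-linearly independent, so `(l+1) n ≤ ℓ(0) + l deg B + deg C` for all `l`.
-/

set_option autoImplicit false

namespace Fermat.Agent.S26.CURVEK

open AlgebraicCurve

section L7Helpers

open WithZero Polynomial IntermediateField

variable {K F : Type*} [Field K] [Field F] [Algebra K F]



/-- membership in the valuation ring of a place, in terms of the adic valuation -/
theorem l7_mem_iff_adicValuation_le_one (v : Place K F) (f : F) :
    f ∈ v.toValuationSubring ↔ v.adicValuation f ≤ 1 := by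
  refine ⟨v.adicValuation_le_one_of_mem, fun h => ?_⟩
  by_contra hf
  have hf0 : f ≠ 0 := fun h0 => hf (h0 ▸ v.toValuationSubring.zero_mem)
  have hinv : f⁻¹ ∈ v.toValuationSubring := (v.toValuationSubring.mem_or_inv_mem f).resolve_left hf
  have hnu : ¬ IsUnit (⟨f⁻¹, hinv⟩ : v.toValuationSubring) := by
    rintro ⟨u, hu⟩
    apply hf
    have h1 : ((u⁻¹ : v.toValuationSubringˣ) : v.toValuationSubring) * ⟨f⁻¹, hinv⟩ = 1 := by
      rw [← hu]; simp
    have h2 : (((u⁻¹ : v.toValuationSubringˣ) : v.toValuationSubring) : F) * f⁻¹ = 1 := by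
      have := congrArg (Subtype.val) h1
      simpa using this
    have h3 : (((u⁻¹ : v.toValuationSubringˣ) : v.toValuationSubring) : F) = f := by
      field_simp at h2
      exact h2
    rw [← h3]
    exact ((u⁻¹ : v.toValuationSubringˣ) : v.toValuationSubring).2
  have h1 : v.adicValuation f⁻¹ ≤ 1 := v.adicValuation_le_one_of_mem hinv
  have h2 : v.adicValuation f⁻¹ ≠ 1 := fun h => hnu ((v.adicValuation_coe_eq_one_iff ⟨f⁻¹, hinv⟩).mp h)
  have h3 : v.adicValuation f⁻¹ < 1 := lt_of_le_of_ne h1 h2
  rw [map_inv₀] at h3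
  have h4 : v.adicValuation f ≠ 0 := v.adicValuation_ne_zero hf0
  have h5 : 1 < v.adicValuation f := (inv_lt_one₀ (zero_lt_iff.mpr h4)).mp h3
  exact absurd h (not_le.mpr h5)

/-- the real absolute value `2 ^ (- ord_v)` attached to a place -/
noncomputable def l7_placeAbv (v : Place K F) : AbsoluteValue F ℝ :=
  v.heightOneSpectrum.adicAbv (K := F) (b := 2) (by norm_num)

theorem l7_placeAbv_apply (v : Place K F) (f : F) :
    l7_placeAbv v f = (WithZeroMulInt.toNNReal (e := 2) (by norm_num) (v.adicValuation f) : ℝ) := rfl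

theorem l7_placeAbv_lt_iff (v : Place K F) (f g : F) :
    l7_placeAbv v f < l7_placeAbv v g ↔ v.adicValuation f < v.adicValuation g := by
  rw [l7_placeAbv_apply, l7_placeAbv_apply, NNReal.coe_lt_coe]
  exact (WithZeroMulInt.toNNReal_strictMono (e := 2) (by norm_num)).lt_iff_lt

theorem l7_placeAbv_le_iff (v : Place K F) (f g : F) :
    l7_placeAbv v f ≤ l7_placeAbv v g ↔ v.adicValuation f ≤ v.adicValuation g := by
  rw [l7_placeAbv_apply, l7_placeAbv_apply, NNReal.coe_le_coe]
  exact (WithZeroMulInt.toNNReal_strictMono (e := 2) (by norm_num)).le_iff_le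

theorem l7_placeAbv_le_one_iff (v : Place K F) (f : F) :
    l7_placeAbv v f ≤ 1 ↔ v.adicValuation f ≤ 1 := by
  have := l7_placeAbv_le_iff v f 1
  simpa using this

/-- a place has a uniformizer -/
theorem l7_exists_adicValuation_eq_exp_neg_one (v : Place K F) :
    ∃ t : F, v.adicValuation t = exp (-1 : ℤ) := by
  obtain ⟨π, hπ⟩ := IsDiscreteValuationRing.exists_irreducible v.toValuationSubring
  exact ⟨(π : F), v.adicValuation_coe_irreducible hπ⟩

theorem l7_placeAbv_isNontrivial (v : Place K F) : (l7_placeAbv v).IsNontrivial := by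
  obtain ⟨t, ht⟩ := l7_exists_adicValuation_eq_exp_neg_one v
  have ht0 : t ≠ 0 := by
    rintro rfl
    rw [map_zero] at ht
    exact exp_ne_zero ht.symm
  refine ⟨t, ht0, ?_⟩
  have h1 : l7_placeAbv v t < l7_placeAbv v 1 := by
    rw [l7_placeAbv_lt_iff, ht, map_one, ← exp_zero, exp_lt_exp]
    norm_num
  rw [map_one] at h1
  exact ne_of_lt h1

theorem l7_placeAbv_not_isEquiv {v w : Place K F} (h : v ≠ w) :
    ¬ (l7_placeAbv v).IsEquiv (l7_placeAbv w) := by
  intro he
  apply h
  apply Place.ext
  ext f
  rw [l7_mem_iff_adicValuation_le_one, l7_mem_iff_adicValuation_le_one, ← l7_placeAbv_le_one_iff,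
    ← l7_placeAbv_le_one_iff]
  exact he.le_one_iff

theorem l7_placeAbv_exp (v : Place K F) (f : F) (m : ℤ) (h : l7_placeAbv v f < (2 : ℝ) ^ m) :
    v.adicValuation f < exp m := by
  by_contra hcon
  rw [not_lt] at hcon
  have h1 : (WithZeroMulInt.toNNReal (e := 2) (by norm_num) (exp m) : ℝ) ≤ l7_placeAbv v f := by
    rw [l7_placeAbv_apply, NNReal.coe_le_coe]
    exact (WithZeroMulInt.toNNReal_strictMono (e := 2) (by norm_num)).monotone hcon
  have h2 : (WithZeroMulInt.toNNReal (e := 2) (by norm_num) (exp m) : ℝ) = (2 : ℝ) ^ m := by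
    rw [WithZeroMulInt.toNNReal_neg_apply _ (exp_ne_zero)]
    simp [exp]
  rw [h2] at h1
  exact absurd h (not_lt.mpr h1)

/-- **Weak approximation** (valuation form): finitely many distinct places, arbitrary targets,
arbitrary precision. -/
theorem l7_weak_approximation (s : Finset (Place K F)) (x : Place K F → F) (m : ℤ) :
    ∃ z : F, ∀ v ∈ s, v.adicValuation (z - x v) < exp m := by
  classical
  let vabs : s → AbsoluteValue F ℝ := fun i => l7_placeAbv i.1
  have h1 : ∀ i, (vabs i).IsNontrivial := fun i => l7_placeAbv_isNontrivial i.1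
  have h2 : Pairwise fun i j => ¬ (vabs i).IsEquiv (vabs j) := by
    intro i j hij
    exact l7_placeAbv_not_isEquiv (fun h => hij (Subtype.ext h))
  have hd := AbsoluteValue.denseRange_algebraMap_pi h1 h2
  have hε : (0 : ℝ) < (2 : ℝ) ^ m := by positivity
  obtain ⟨z, hz⟩ := Metric.denseRange_iff.mp hd (fun i => WithAbs.toAbs (vabs i) (x i.1)) _ hε
  refine ⟨z, fun v hv => ?_⟩
  have hz' := (dist_pi_lt_iff hε).mp hz ⟨v, hv⟩
  apply l7_placeAbv_exp
  rw [dist_comm, dist_eq_norm] at hz'
  exact hz'





theorem l7_adicValuation_aeval_le_one (w : Place K F) {x : F} (hx : w.adicValuation x ≤ 1)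
    (p : K[X]) : w.adicValuation (aeval x p) ≤ 1 := by
  induction p using Polynomial.induction_on' with
  | add p q hp hq =>
    rw [map_add]
    exact (Valuation.map_add _ _ _).trans (max_le hp hq)
  | monomial n a =>
    rw [aeval_monomial, map_mul, map_pow]
    exact mul_le_one' (w.adicValuation_algebraMap_le_one a) (pow_le_one' hx n)

theorem l7_adicValuation_aeval_sub_coeff_zero_le (w : Place K F) {x : F}
    (hx : w.adicValuation x ≤ 1) (p : K[X]) :
    w.adicValuation (aeval x p - algebraMap K F (p.coeff 0)) ≤ w.adicValuation x := by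
  have h : aeval x p - algebraMap K F (p.coeff 0) = aeval x p.divX * x := by
    conv_lhs => rw [← Polynomial.divX_mul_X_add p]
    simp
  rw [h, map_mul]
  exact mul_le_of_le_one_left' (l7_adicValuation_aeval_le_one w hx _)

theorem l7_adicValuation_aeval_le_of_coeff_zero (w : Place K F) {x : F}
    (hx : w.adicValuation x ≤ 1) (p : K[X]) (hp : p.coeff 0 = 0) :
    w.adicValuation (aeval x p) ≤ w.adicValuation x := by
  have := l7_adicValuation_aeval_sub_coeff_zero_le w hx p
  rwa [hp, map_zero, sub_zero] at this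

/-- separating uniformizers -/
theorem l7_exists_uniformizer_family (s : Finset (Place K F)) (v : Place K F) :
    ∃ t : F, v.adicValuation t = exp (-1 : ℤ) ∧
      ∀ w ∈ s, w ≠ v → w.adicValuation t = 1 := by
  classical
  obtain ⟨π, hπ⟩ := l7_exists_adicValuation_eq_exp_neg_one v
  obtain ⟨t, ht⟩ := l7_weak_approximation (insert v s) (fun w => if w = v then π else 1) (-1)
  have hlt : exp (-1 : ℤ) < (1 : ℤᵐ⁰) := by
    rw [← exp_zero, exp_lt_exp]; norm_num
  refine ⟨t, ?_, fun w hw hwv => ?_⟩
  · have h1 := ht v (Finset.mem_insert_self v s)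
    simp only [if_true] at h1
    have h2 : t = π + (t - π) := by ring
    rw [h2, Valuation.map_add_eq_of_lt_left _ (by rw [hπ]; exact h1), hπ]
  · have h1 := ht w (Finset.mem_insert_of_mem hw)
    simp only [if_neg hwv] at h1
    have h2 : t = 1 + (t - 1) := by ring
    rw [h2, Valuation.map_add_eq_of_lt_left _ (by rw [map_one]; exact h1.trans hlt), map_one]

/-- approximate a given element at `v`, be small at the other places of `s` -/
theorem l7_exists_approx_family (s : Finset (Place K F)) (v : Place K F) (y : F) (M : ℤ) :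
    ∃ z : F, v.adicValuation (z - y) < 1 ∧
      ∀ w ∈ s, w ≠ v → w.adicValuation z < exp M := by
  classical
  obtain ⟨z, hz⟩ := l7_weak_approximation (insert v s) (fun w => if w = v then y else 0) (min 0 M)
  refine ⟨z, ?_, fun w hw hwv => ?_⟩
  · have h1 := hz v (Finset.mem_insert_self v s)
    simp only [if_true] at h1
    refine h1.trans_le ?_
    rw [← exp_zero, exp_le_exp]
    exact min_le_left _ _
  · have h1 := hz w (Finset.mem_insert_of_mem hw)
    simp only [if_neg hwv, sub_zero] at h1
    refine h1.trans_le ?_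
    rw [exp_le_exp]
    exact min_le_right _ _


/-- clearing denominators and common factors of a nonzero vector over `K(x)` -/
theorem l7_exists_primitive (x : F) {ι : Type*} [Fintype ι] (g : ι → K⟮x⟯) (hg : ∃ i, g i ≠ 0) :
    ∃ (μ : F) (p : ι → K[X]), μ ≠ 0 ∧ (∀ i, μ * (g i : F) = aeval x (p i)) ∧
      ∃ i, (p i).coeff 0 ≠ 0 := by
  classical
  have h1 : ∀ i, ∃ r s : K[X], aeval x s ≠ 0 ∧ (g i : F) = aeval x r / aeval x s := by
    intro i
    obtain ⟨r, s, h⟩ := (IntermediateField.mem_adjoin_simple_iff K (g i : F)).mp (g i).2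
    by_cases hs : aeval x s = 0
    · refine ⟨0, 1, by simp, ?_⟩
      rw [h, hs]; simp
    · exact ⟨r, s, hs, h⟩
  choose r s hs hrs using h1
  let S : K[X] := ∏ i, s i
  let q : ι → K[X] := fun i => r i * ∏ j ∈ Finset.univ.erase i, s j
  have hS : aeval x S ≠ 0 := by
    simp only [S, map_prod]
    exact Finset.prod_ne_zero_iff.mpr fun i _ => hs i
  have hq : ∀ i, aeval x S * (g i : F) = aeval x (q i) := by
    intro i
    have hSi : S = s i * ∏ j ∈ Finset.univ.erase i, s j :=
      (Finset.mul_prod_erase _ _ (Finset.mem_univ i)).symm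
    rw [hrs i, hSi]
    simp only [q, map_mul]
    field_simp [hs i]
  obtain ⟨i0, hi0⟩ := hg
  have hq0 : aeval x (q i0) ≠ 0 := by
    rw [← hq i0]
    exact mul_ne_zero hS (by simpa using hi0)
  obtain ⟨p, hp, hgcd⟩ := Finset.extract_gcd q (s := Finset.univ) ⟨i0, Finset.mem_univ _⟩
  have hd0 : aeval x (Finset.univ.gcd q) ≠ 0 := by
    intro h
    apply hq0
    rw [hp i0 (Finset.mem_univ _), map_mul, h, zero_mul]
  refine ⟨aeval x S / aeval x (Finset.univ.gcd q), p, div_ne_zero hS hd0, fun i => ?_, ?_⟩
  · rw [div_mul_eq_mul_div, hq i]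
    conv_lhs => rw [hp i (Finset.mem_univ _), map_mul]
    field_simp
  · by_contra hcon
    push Not at hcon
    have hX : (X : K[X]) ∣ Finset.univ.gcd p :=
      Finset.dvd_gcd fun i _ => Polynomial.X_dvd_iff.mpr (hcon i)
    rw [hgcd] at hX
    exact Polynomial.not_isUnit_X (isUnit_of_dvd_one hX)

theorem l7_adicValuation_mul4_lt_one (w : Place K F) (A B C D : F) (α β γ δ : ℤ)
    (hA : w.adicValuation A ≤ exp α) (hB : w.adicValuation B ≤ exp β)
    (hC : w.adicValuation C ≤ exp γ) (hD : w.adicValuation D ≤ exp δ)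
    (h : α + β + γ + δ < 0) : w.adicValuation (A * B * C * D) < 1 := by
  have h1 : w.adicValuation (A * B * C * D) ≤ exp (α + β + γ + δ) := by
    rw [map_mul, map_mul, map_mul, exp_add, exp_add, exp_add]
    exact mul_le_mul' (mul_le_mul' (mul_le_mul' hA hB) hC) hD
  refine h1.trans_lt ?_
  rw [← exp_zero, exp_lt_exp]
  exact h


theorem l7_residue_eq_zero_of_lt (w : Place K F) (a : w.toValuationSubring)
    (h : w.adicValuation (a : F) < 1) : IsLocalRing.residue w.toValuationSubring a = 0 := by
  rw [IsLocalRing.residue_eq_zero_iff, IsLocalRing.mem_maximalIdeal, mem_nonunits_iff]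
  intro hu
  exact absurd ((w.adicValuation_coe_eq_one_iff a).mpr hu) (ne_of_lt h)

theorem l7_residue_aeval (w : Place K F) {x : F} (hx : w.adicValuation x < 1) (P : K[X])
    (h : aeval x P ∈ w.toValuationSubring) :
    IsLocalRing.residue w.toValuationSubring ⟨aeval x P, h⟩ =
      algebraMap K w.ResidueField (P.coeff 0) := by
  have h1 : (⟨aeval x P, h⟩ : w.toValuationSubring) =
      (⟨aeval x P, h⟩ - algebraMap K w.toValuationSubring (P.coeff 0)) +
        algebraMap K w.toValuationSubring (P.coeff 0) := by ring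
  rw [h1, map_add, l7_residue_eq_zero_of_lt w _ ?_, zero_add]
  · rfl
  · have h2 : ((⟨aeval x P, h⟩ - algebraMap K w.toValuationSubring (P.coeff 0) :
        w.toValuationSubring) : F) = aeval x P - algebraMap K F (P.coeff 0) := rfl
    rw [h2]
    exact (l7_adicValuation_aeval_sub_coeff_zero_le w hx.le P).trans_lt hx


/-- **Stichtenoth 1.3.3, linear independence form.** -/
theorem l7_linearIndependent_zeros_family (x : F) (s : Finset (Place K F))
    (e n : Place K F → ℕ)
    (he : ∀ v ∈ s, v.adicValuation x = exp (-(e v : ℤ)))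
    (t : Place K F → F) (ht : ∀ v ∈ s, v.adicValuation (t v) = exp (-1 : ℤ))
    (ht' : ∀ v ∈ s, ∀ w ∈ s, w ≠ v → w.adicValuation (t v) = 1)
    (z : (v : Place K F) → Fin (n v) → F)
    (b : (v : Place K F) → Fin (n v) → v.ResidueField)
    (hb : ∀ v ∈ s, LinearIndependent K (b v))
    (hz : ∀ v ∈ s, ∀ j, ∃ h : z v j ∈ v.toValuationSubring,
      IsLocalRing.residue v.toValuationSubring ⟨z v j, h⟩ = b v j)
    (hz' : ∀ v ∈ s, ∀ j, ∀ w ∈ s, w ≠ v → w.adicValuation (z v j) ≤ w.adicValuation x) :
    LinearIndependent K⟮x⟯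
      (fun i : (Σ v : s, Fin (e v) × Fin (n v)) => t i.1 ^ (i.2.1 : ℕ) * z i.1 i.2.2) := by
  classical
  rw [Fintype.linearIndependent_iff]
  intro g hg
  by_contra hne
  push Not at hne
  obtain ⟨μ, p, hμ, hp, ⟨⟨k, a1, j1⟩, hi1⟩⟩ := l7_exists_primitive x g hne
  have hsum : ∑ i : (Σ v : s, Fin (e v) × Fin (n v)),
      aeval x (p i) * (t i.1 ^ (i.2.1 : ℕ) * z i.1 i.2.2) = 0 := by
    have h0 : μ * ∑ i, g i • (t i.1 ^ (i.2.1 : ℕ) * z i.1 i.2.2) = 0 := by rw [hg, mul_zero]
    rw [Finset.mul_sum] at h0
    rw [← h0]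
    refine Finset.sum_congr rfl fun i _ => ?_
    rw [← hp i, IntermediateField.smul_def, smul_eq_mul]
    ring
  have hk : (k : Place K F) ∈ s := k.2
  let A : Finset (Fin (e k)) := Finset.univ.filter fun a => ∃ j, (p ⟨k, a, j⟩).coeff 0 ≠ 0
  have hA : A.Nonempty := ⟨a1, by simp only [A, Finset.mem_filter, Finset.mem_univ, true_and]; exact ⟨j1, hi1⟩⟩
  obtain ⟨jc, hjc⟩ : ∃ j, (p ⟨k, A.min' hA, j⟩).coeff 0 ≠ 0 := by
    have := Finset.min'_mem A hA
    simpa only [A, Finset.mem_filter, Finset.mem_univ, true_and] using this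
  have hmin : ∀ a : Fin (e k), a < A.min' hA → ∀ j, (p ⟨k, a, j⟩).coeff 0 = 0 := by
    intro a ha j
    by_contra h
    have hmem : a ∈ A := by
      simp only [A, Finset.mem_filter, Finset.mem_univ, true_and]; exact ⟨j, h⟩
    exact absurd (Finset.min'_le A a hmem) (not_le.mpr ha)
  generalize A.min' hA = c at hjc hmin
  have hxw : (k : Place K F).adicValuation x = exp (-(e k : ℤ)) := he k hk
  have hcw : ((c : ℕ) : ℤ) < e k := by exact_mod_cast c.2
  have hx1 : (k : Place K F).adicValuation x < 1 := by
    rw [hxw, ← exp_zero, exp_lt_exp]; omega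
  have htw : (k : Place K F).adicValuation (t k) = exp (-1 : ℤ) := ht k hk
  have htw0 : t k ≠ 0 := by
    intro h; rw [h, map_zero] at htw; exact exp_ne_zero htw.symm
  have hD : (k : Place K F).adicValuation ((t k ^ (c : ℕ))⁻¹) ≤ exp ((c : ℕ) : ℤ) := by
    rw [map_inv₀, map_pow, htw, ← exp_nsmul, ← exp_neg]; simp
  have hpow : ∀ a : ℕ, (k : Place K F).adicValuation (t k ^ a) ≤ exp (-(a : ℤ)) := by
    intro a
    rw [map_pow, htw, ← exp_nsmul]; simp
  have hz1 : ∀ j, (k : Place K F).adicValuation (z k j) ≤ exp (0 : ℤ) := by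
    intro j
    obtain ⟨h, -⟩ := hz k hk j
    rw [exp_zero]
    exact (k : Place K F).adicValuation_le_one_of_mem h
  have hae1 : ∀ P : K[X], (k : Place K F).adicValuation (aeval x P) ≤ exp (0 : ℤ) := by
    intro P
    rw [exp_zero]
    exact l7_adicValuation_aeval_le_one _ hx1.le P
  let T : (Σ v : s, Fin (e v) × Fin (n v)) → F := fun i =>
    aeval x (p i) * t i.1 ^ (i.2.1 : ℕ) * z i.1 i.2.2 * (t k ^ (c : ℕ))⁻¹
  have hTsum : ∑ i, T i = 0 := by
    have h0 : ∑ i, T i = (∑ i : (Σ v : s, Fin (e v) × Fin (n v)),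
        aeval x (p i) * (t i.1 ^ (i.2.1 : ℕ) * z i.1 i.2.2)) * (t k ^ (c : ℕ))⁻¹ := by
      rw [Finset.sum_mul]
      refine Finset.sum_congr rfl fun i _ => ?_
      simp only [T]; ring
    rw [h0, hsum, zero_mul]
  -- terms at other places are small
  have hsmall1 : ∀ (v : s) (a : Fin (e v)) (j : Fin (n v)), v ≠ k →
      (k : Place K F).adicValuation (T ⟨v, a, j⟩) < 1 := by
    intro v a j hvk
    have hvk' : (k : Place K F) ≠ v := fun h => hvk (Subtype.ext h.symm)
    refine l7_adicValuation_mul4_lt_one _ _ _ _ _ 0 0 (-(e k : ℤ)) (c : ℕ) (hae1 _) ?_ ?_ hD (by omega)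
    · rw [map_pow, ht' v v.2 k hk hvk', one_pow, exp_zero]
    · rw [← hxw]
      exact hz' v v.2 j k hk hvk'
  have hsmall2 : ∀ (a : Fin (e k)) (j : Fin (n k)), a ≠ c →
      (k : Place K F).adicValuation (T ⟨k, a, j⟩) < 1 := by
    intro a j hac
    rcases lt_or_gt_of_ne hac with hlt | hgt
    · have hlt' : (a : ℕ) < (c : ℕ) := hlt
      refine l7_adicValuation_mul4_lt_one _ _ _ _ _ (-(e k : ℤ)) (-((a : ℕ) : ℤ)) 0 (c : ℕ) ?_ (hpow a) (hz1 j) hD
        (by omega)
      rw [← hxw]
      exact l7_adicValuation_aeval_le_of_coeff_zero _ hx1.le _ (hmin a hlt j)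
    · have hgt' : (c : ℕ) < (a : ℕ) := hgt
      exact l7_adicValuation_mul4_lt_one _ _ _ _ _ 0 (-((a : ℕ) : ℤ)) 0 (c : ℕ) (hae1 _) (hpow a) (hz1 j) hD
        (by omega)
  have hmain : ∀ j : Fin (n k), T ⟨k, c, j⟩ = aeval x (p ⟨k, c, j⟩) * z k j := by
    intro j
    simp only [T]
    field_simp
  -- everything lies in the valuation ring
  have hTmem : ∀ i, T i ∈ (k : Place K F).toValuationSubring := by
    rintro ⟨v, a, j⟩
    rw [l7_mem_iff_adicValuation_le_one]
    by_cases hvk : v = k
    · subst hvk
      by_cases hac : a = c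
      · subst hac
        rw [hmain, map_mul]
        have h1 := hae1 (p ⟨v, a, j⟩)
        have h2 := hz1 j
        rw [exp_zero] at h1 h2
        exact mul_le_one' h1 h2
      · exact (hsmall2 a j hac).le
    · exact (hsmall1 v a j hvk).le
  have hsum' : ∑ i, IsLocalRing.residue (k : Place K F).toValuationSubring ⟨T i, hTmem i⟩ = 0 := by
    rw [← map_sum]
    have h0 : (∑ i, (⟨T i, hTmem i⟩ : (k : Place K F).toValuationSubring)) = 0 := by
      apply Subtype.ext
      push_cast
      exact hTsum
    rw [h0, map_zero]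
  rw [Fintype.sum_sigma, Finset.sum_eq_single k, Fintype.sum_prod_type,
    Finset.sum_eq_single c] at hsum'
  · have hres : ∀ j : Fin (n k),
        IsLocalRing.residue (k : Place K F).toValuationSubring ⟨T ⟨k, c, j⟩, hTmem ⟨k, c, j⟩⟩ =
          (p ⟨k, c, j⟩).coeff 0 • b k j := by
      intro j
      obtain ⟨hzm, hzr⟩ := hz k hk j
      have ham : aeval x (p ⟨k, c, j⟩) ∈ (k : Place K F).toValuationSubring := by
        rw [l7_mem_iff_adicValuation_le_one]
        have := hae1 (p ⟨k, c, j⟩)
        rwa [exp_zero] at this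
      have h0 : (⟨T ⟨k, c, j⟩, hTmem ⟨k, c, j⟩⟩ : (k : Place K F).toValuationSubring) =
          ⟨aeval x (p ⟨k, c, j⟩), ham⟩ * ⟨z k j, hzm⟩ := Subtype.ext (hmain j)
      rw [h0, map_mul, l7_residue_aeval _ hx1, hzr, Algebra.smul_def]
    simp only [hres] at hsum'
    exact hjc (Fintype.linearIndependent_iff.mp (hb k hk) _ hsum' jc)
  · intro a _ hac
    exact Finset.sum_eq_zero fun j _ => l7_residue_eq_zero_of_lt _ _ (hsmall2 a j hac)
  · intro h; exact absurd (Finset.mem_univ _) h
  · intro v _ hvk
    exact Finset.sum_eq_zero fun y _ => l7_residue_eq_zero_of_lt _ _ (hsmall1 v y.1 y.2 hvk)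
  · intro h; exact absurd (Finset.mem_univ _) h


/-- **Stichtenoth 1.3.3, counting form**: independent families in the residue fields of distinct
zeros of `x`, weighted by the orders, have total size at most `[F : K(x)]`. -/
theorem l7_sum_mul_card_le_finrank (x : F) [FiniteDimensional K⟮x⟯ F] (s : Finset (Place K F))
    (e n : Place K F → ℕ)
    (he : ∀ v ∈ s, v.adicValuation x = exp (-(e v : ℤ)))
    (b : (v : Place K F) → Fin (n v) → v.ResidueField)
    (hb : ∀ v ∈ s, LinearIndependent K (b v)) :
    ∑ v ∈ s, e v * n v ≤ Module.finrank K⟮x⟯ F := by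
  classical
  choose t ht ht' using fun v : Place K F => l7_exists_uniformizer_family s v
  -- lifts of the residue classes
  have hlift : ∀ (v : Place K F) (j : Fin (n v)), ∃ β : v.toValuationSubring,
      IsLocalRing.residue v.toValuationSubring β = b v j :=
    fun v j => IsLocalRing.residue_surjective (b v j)
  choose β hβ using hlift
  have hz0 : ∀ (v : Place K F) (j : Fin (n v)), ∃ z : F,
      v.adicValuation (z - (β v j : F)) < 1 ∧
        ∀ w ∈ s, w ≠ v → w.adicValuation z < exp (-((s.sup e : ℕ) : ℤ)) :=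
    fun v j => l7_exists_approx_family s v (β v j : F) _
  choose z hz hz' using hz0
  have hli := l7_linearIndependent_zeros_family x s e n he t (fun v _ => ht v)
    (fun v _ w hw hwv => ht' v w hw hwv) z b hb ?_ ?_
  · have hcard := hli.fintype_card_le_finrank
    rw [Fintype.card_sigma] at hcard
    simp only [Fintype.card_prod, Fintype.card_fin] at hcard
    rw [Finset.sum_coe_sort s (fun v => e v * n v)] at hcard
    exact hcard
  · intro v _ j
    have hmem : z v j - (β v j : F) ∈ v.toValuationSubring :=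
      (l7_mem_iff_adicValuation_le_one v _).mpr (hz v j).le
    have hzmem : z v j ∈ v.toValuationSubring := by
      have := v.toValuationSubring.add_mem _ _ hmem (β v j).2
      simpa using this
    refine ⟨hzmem, ?_⟩
    have h1 : (⟨z v j, hzmem⟩ : v.toValuationSubring) = ⟨z v j - (β v j : F), hmem⟩ + β v j := by
      apply Subtype.ext
      simp
    rw [h1, map_add, l7_residue_eq_zero_of_lt v _ (hz v j), zero_add, hβ]
  · intro v _ j w hw hwv
    refine (hz' v j w hw hwv).le.trans ?_
    rw [he w hw, exp_le_exp]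
    have : e w ≤ s.sup e := Finset.le_sup hw
    omega

/-- single-place version of `l7_sum_mul_card_le_finrank` -/
theorem l7_mul_card_le_finrank_single (x : F) [FiniteDimensional K⟮x⟯ F] (v : Place K F)
    (e n : ℕ) (he : v.adicValuation x = exp (-(e : ℤ)))
    (b : Fin n → v.ResidueField) (hb : LinearIndependent K b) :
    e * n ≤ Module.finrank K⟮x⟯ F := by
  classical
  have h := l7_sum_mul_card_le_finrank x {v} (fun _ => e) (fun _ => n)
    (fun w hw => by rw [Finset.mem_singleton.mp hw]; exact he)
    (fun w => if h : w = v then fun j => h ▸ b j else fun _ => 0) (fun w hw => ?_)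
  · simpa using h
  · obtain rfl := Finset.mem_singleton.mp hw
    simp only [↓reduceDIte]
    exact hb

/-- the residue field of a zero of `x` is finite over `K` when `[F : K(x)] < ∞` -/
theorem l7_finite_residueField_of_zero (x : F) [FiniteDimensional K⟮x⟯ F] (v : Place K F)
    (hv : v.adicValuation x < 1) (hx : x ≠ 0) : Module.Finite K v.ResidueField := by
  classical
  have hpos : 0 < v.ord x := by
    rw [v.adicValuation_eq_exp_neg_ord hx, ← exp_zero, exp_lt_exp] at hv
    omega
  have hord : v.adicValuation x = exp (-(((v.ord x).toNat : ℕ) : ℤ)) := by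
    rw [v.adicValuation_eq_exp_neg_ord hx, Int.toNat_of_nonneg hpos.le]
  have hpos' : 1 ≤ (v.ord x).toNat := by omega
  have hbound : ∀ t : Finset v.ResidueField,
      (LinearIndependent K fun i : t => (i : v.ResidueField)) →
        t.card ≤ Module.finrank K⟮x⟯ F := by
    intro t ht
    have hli : LinearIndependent K
        (fun j : Fin t.card => ((t.equivFin.symm j : t) : v.ResidueField)) :=
      ht.comp _ t.equivFin.symm.injective
    have h := l7_mul_card_le_finrank_single x v (v.ord x).toNat t.card hord _ hli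
    calc t.card = 1 * t.card := (one_mul _).symm
      _ ≤ (v.ord x).toNat * t.card := Nat.mul_le_mul_right _ hpos'
      _ ≤ _ := h
  have hrank : Module.rank K v.ResidueField ≤ (Module.finrank K⟮x⟯ F : ℕ) := rank_le hbound
  exact Module.rank_lt_aleph0_iff.mp (hrank.trans_lt (Cardinal.natCast_lt_aleph0))

/-- **Stichtenoth 1.3.3**: `∑ ord_v(x) · deg v ≤ [F : K(x)]` over any finite set of zeros. -/
theorem l7_sum_ord_mul_deg_le_finrank (x : F) [FiniteDimensional K⟮x⟯ F] (hx : x ≠ 0)
    (s : Finset (Place K F)) (hs : ∀ v ∈ s, 0 < v.ord x) :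
    ∑ v ∈ s, (v.ord x).toNat * v.deg ≤ Module.finrank K⟮x⟯ F := by
  classical
  have hfin : ∀ v ∈ s, Module.Finite K v.ResidueField := by
    intro v hv
    refine l7_finite_residueField_of_zero x v ?_ hx
    rw [v.adicValuation_eq_exp_neg_ord hx, ← exp_zero, exp_lt_exp]
    have := hs v hv
    omega
  refine l7_sum_mul_card_le_finrank x s (fun v => (v.ord x).toNat) (fun v => v.deg)
    (fun v hv => ?_)
    (fun v => if h : Module.Finite K v.ResidueField then
      (fun j => (Module.finBasis K v.ResidueField) j) else fun _ => 0) (fun v hv => ?_)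
  · rw [v.adicValuation_eq_exp_neg_ord hx, Int.toNat_of_nonneg (hs v hv).le]
  · have := hfin v hv
    simp only [dif_pos this]
    exact (Module.finBasis K v.ResidueField).linearIndependent

/-- a place with finite residue field has positive degree -/
theorem l7_deg_pos_of_finite (v : Place K F) [Module.Finite K v.ResidueField] : 0 < v.deg :=
  Module.finrank_pos

/-- the zeros of `x` form a finite set when `[F : K(x)] < ∞` -/
theorem l7_finite_zeros (x : F) [FiniteDimensional K⟮x⟯ F] :
    {v : Place K F | 0 < v.ord x}.Finite := by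
  classical
  by_contra hinf
  rcases eq_or_ne x 0 with rfl | hx
  · apply hinf
    simp
  obtain ⟨s, hs, hcard⟩ := (Set.not_finite.mp hinf).exists_subset_card_eq
    (Module.finrank K⟮x⟯ F + 1)
  have h1 := l7_sum_ord_mul_deg_le_finrank x hx s (fun v hv => hs hv)
  have h2 : ∑ v ∈ s, 1 ≤ ∑ v ∈ s, (v.ord x).toNat * v.deg := by
    refine Finset.sum_le_sum fun v hv => ?_
    have h3 : 0 < v.ord x := hs hv
    have : Module.Finite K v.ResidueField := by
      refine l7_finite_residueField_of_zero x v ?_ hx
      rw [v.adicValuation_eq_exp_neg_ord hx, ← exp_zero, exp_lt_exp]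
      omega
    have h4 : 0 < v.deg := l7_deg_pos_of_finite v
    have h5 : 1 ≤ (v.ord x).toNat := by omega
    calc 1 = 1 * 1 := rfl
      _ ≤ (v.ord x).toNat * v.deg := Nat.mul_le_mul h5 h4
  simp only [Finset.sum_const, smul_eq_mul, mul_one] at h2
  omega


theorem l7_adjoin_simple_inv (x : F) : K⟮x⁻¹⟯ = K⟮x⟯ := by
  apply le_antisymm
  · rw [IntermediateField.adjoin_simple_le_iff]
    exact inv_mem (IntermediateField.mem_adjoin_simple_self K x)
  · rw [IntermediateField.adjoin_simple_le_iff]
    have h := inv_mem (IntermediateField.mem_adjoin_simple_self K x⁻¹)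
    rwa [inv_inv] at h

theorem l7_finiteDimensional_adjoin_simple_inv (x : F) [h : FiniteDimensional K⟮x⟯ F] :
    FiniteDimensional K⟮x⁻¹⟯ F := by
  rw [l7_adjoin_simple_inv]
  exact h

/-- the poles of `x` form a finite set when `[F : K(x)] < ∞` -/
theorem l7_finite_poles (x : F) [FiniteDimensional K⟮x⟯ F] :
    {v : Place K F | v.ord x < 0}.Finite := by
  have := l7_finiteDimensional_adjoin_simple_inv (K := K) x
  have h := l7_finite_zeros (K := K) x⁻¹
  refine h.subset fun v hv => ?_
  simp only [Set.mem_ofPred_eq] at hv ⊢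
  rw [v.ord_inv]
  omega

/-- **the divisor of a function**: when `[F : K(x)] < ∞`, `v ↦ ord_v x` has finite support. -/
theorem l7_exists_divisor_of_finiteDimensional (x : F) [FiniteDimensional K⟮x⟯ F] :
    ∃ D : Divisor K F, ∀ v : Place K F, D v = v.ord x := by
  classical
  refine ⟨Finsupp.onFinset ((l7_finite_zeros (K := K) x).toFinset ∪ (l7_finite_poles (K := K) x).toFinset)
    (fun v => v.ord x) (fun v hv => ?_), fun v => rfl⟩
  rw [Finset.mem_union, Set.Finite.mem_toFinset, Set.Finite.mem_toFinset]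
  simp only [Set.mem_ofPred_eq]
  omega

/-- elements algebraic over the constants have no zeros and no poles -/
theorem l7_ord_eq_zero_of_isAlgebraic (v : Place K F) {x : F} (hx : IsAlgebraic K x) :
    v.ord x = 0 := by
  rcases eq_or_ne x 0 with rfl | hx0
  · simp
  have key : ∀ y : F, IsAlgebraic K y → y ∈ v.toValuationSubring := by
    intro y hy
    have h1 : IsIntegral v.toValuationSubring y := (hy.isIntegral).tower_top
    obtain ⟨a, ha⟩ := (IsIntegrallyClosed.isIntegral_iff (R := v.toValuationSubring) (K := F)).mp h1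
    rw [← ha]
    exact a.2
  have h1 := (l7_mem_iff_adicValuation_le_one v x).mp (key x hx)
  have h2 := (l7_mem_iff_adicValuation_le_one v x⁻¹).mp (key x⁻¹ hx.inv)
  rw [v.adicValuation_le_one_iff] at h1 h2
  rw [v.ord_inv] at h2
  have h1' := h1.resolve_left hx0
  have h2' := h2.resolve_left (inv_ne_zero hx0)
  omega


end L7Helpers

open Module

variable {k F : Type*} [Field k] [Field F] [Algebra k F]

theorem l7_exists_pole_bound (hfo : StFiniteOver k F) (u : F) :
    ∃ P : Divisor k F, 0 ≤ P ∧ ∀ v : Place k F, -P v ≤ v.ord u := by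
  classical
  by_cases halg : IsAlgebraic k u
  · exact ⟨0, le_rfl, fun v => by simp [l7_ord_eq_zero_of_isAlgebraic v halg]⟩
  · have : FiniteDimensional (IntermediateField.adjoin k {u}) F := hfo u halg
    refine ⟨Finsupp.onFinset (l7_finite_poles (K := k) u).toFinset (fun v => max 0 (-(v.ord u)))
      (fun v hv => ?_), ?_, fun v => ?_⟩
    · rw [Set.Finite.mem_toFinset]
      simp only [Set.mem_ofPred_eq]
      by_contra h
      apply hv
      simp only [max_eq_left_iff]
      omega
    · intro v
      simp [Finsupp.onFinset_apply]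
    · rw [Finsupp.onFinset_apply]
      omega

theorem zeroDegree (hfo : StFiniteOver k F) (hres : StResidueFinite k F)
    (hex : StExistsZero k F) (hzle : StZerosLe k F) (hfin : StFinite k F) :
    StZeroDegree k F := by
  classical
  intro x hx
  have hfd : FiniteDimensional (IntermediateField.adjoin k {x}) F := hfo x hx
  have hx0 : x ≠ 0 := by
    rintro rfl
    exact hx isAlgebraic_zero
  set s : Finset (Place k F) := (l7_finite_zeros (K := k) x).toFinset with hs
  have hmem : ∀ v : Place k F, v ∈ s ↔ 0 < v.ord x := by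
    intro v
    rw [hs, Set.Finite.mem_toFinset]
    rfl
  refine ⟨s, hmem, le_antisymm (hzle x hx s fun v hv => (hmem v).mp hv) ?_⟩
  -- the zero divisor of `x`
  let B : Divisor k F := ∑ v ∈ s, Finsupp.single v (v.ord x)
  have hBv : ∀ w : Place k F, B w = if w ∈ s then w.ord x else 0 := by
    intro w
    simp only [B, Finsupp.finsetSum_apply, Finsupp.single_apply, Finset.sum_ite_eq']
  have hB0 : 0 ≤ B := by
    intro v
    rw [hBv]
    split_ifs with hvs
    · exact ((hmem v).mp hvs).le
    · exact le_rfl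
  have hdegB : Divisor.degree B = ∑ v ∈ s, v.ord x * (v.deg : ℤ) := by
    simp only [B, map_sum, Divisor.degree_single]
  -- a basis of `F / k(x)` and a bound for its poles
  set n := finrank (IntermediateField.adjoin k {x}) F with hn
  let b := Module.finBasis (IntermediateField.adjoin k {x}) F
  choose P hP0 hP using fun j : Fin n => l7_exists_pole_bound hfo (b j)
  let C : Divisor k F := ∑ j, P j
  have hC0 : 0 ≤ C := Finset.sum_nonneg fun j _ => hP0 j
  have hCv : ∀ (j : Fin n) (v : Place k F), -C v ≤ v.ord (b j) := by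
    intro j v
    have h1 : P j v ≤ C v := by
      have hCe : C v = ∑ i, P i v := by simp only [C, Finsupp.finsetSum_apply]
      rw [hCe]
      exact Finset.single_le_sum (f := fun i => P i v) (fun i _ => hP0 i v) (Finset.mem_univ j)
    have := hP j v
    omega
  have hxinv : x⁻¹ ∈ IntermediateField.adjoin k {x} :=
    inv_mem (IntermediateField.mem_adjoin_simple_self k x)
  have hxt : Transcendental k x⁻¹ := fun h => hx (by simpa using h.inv)
  have key : ∀ l : ℕ, (((l : ℤ) + 1) * n : ℤ) ≤
      finrank k (riemannRochSpace (0 : Divisor k F)) +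
        (l * Divisor.degree B + Divisor.degree C) := by
    intro l
    set D : Divisor k F := l • B + C with hD
    have hfinD : Module.Finite k (riemannRochSpace D) := hfin.1 D
    let w : Fin (l + 1) × Fin n → F := fun p => x⁻¹ ^ (p.1 : ℕ) * b p.2
    have hw_mem : ∀ p, w p ∈ riemannRochSpace D := by
      intro p
      rw [mem_riemannRochSpace_iff]
      intro v
      right
      have hb0 : b p.2 ≠ 0 := b.ne_zero p.2
      have hpow0 : x⁻¹ ^ (p.1 : ℕ) ≠ 0 := pow_ne_zero _ (inv_ne_zero hx0)
      have hord : v.ord (w p) = -((p.1 : ℕ) : ℤ) * v.ord x + v.ord (b p.2) := by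
        show v.ord (x⁻¹ ^ (p.1 : ℕ) * b p.2) = _
        rw [v.ord_mul hpow0 hb0, ← zpow_natCast, v.ord_zpow, v.ord_inv]
        ring
      rw [hord]
      have hDv : D v = l * B v + C v := by
        simp [hD]
      rw [hDv, hBv]
      have h1 := hCv p.2 v
      have hi : ((p.1 : ℕ) : ℤ) ≤ l := by
        have := p.1.2
        omega
      split_ifs with hvs
      · have hpos := (hmem v).mp hvs
        nlinarith [mul_nonneg (sub_nonneg.mpr hi) hpos.le]
      · have hnp : v.ord x ≤ 0 := by
          rw [hmem] at hvs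
          omega
        nlinarith [mul_nonneg (Int.natCast_nonneg (p.1 : ℕ)) (neg_nonneg.mpr hnp)]
    have hli : LinearIndependent k w := by
      rw [Fintype.linearIndependent_iff]
      intro c hc p
      let y : IntermediateField.adjoin k {x} := ⟨x⁻¹, hxinv⟩
      let q : Fin n → Polynomial k := fun j =>
        ∑ i : Fin (l + 1), Polynomial.monomial (i : ℕ) (c (i, j))
      have hqv : ∀ j, Polynomial.aeval x⁻¹ (q j) = ∑ i : Fin (l + 1), c (i, j) • x⁻¹ ^ (i : ℕ) := by
        intro j
        simp only [q, map_sum, Polynomial.aeval_monomial, Algebra.smul_def]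
      have hcoe : ∀ j, ((Polynomial.aeval y (q j) : IntermediateField.adjoin k {x}) : F) =
          Polynomial.aeval x⁻¹ (q j) := by
        intro j
        exact (Polynomial.aeval_algebraMap_apply (A := IntermediateField.adjoin k {x}) (B := F)
          y (q j)).symm
      have ha : ∑ j, Polynomial.aeval y (q j) • b j = 0 := by
        rw [← hc, Fintype.sum_prod_type_right]
        refine Finset.sum_congr rfl fun j _ => ?_
        rw [IntermediateField.smul_def, hcoe, hqv, smul_eq_mul, Finset.sum_mul]
        refine Finset.sum_congr rfl fun i _ => ?_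
        rw [smul_mul_assoc]
      have haj : Polynomial.aeval y (q p.2) = 0 :=
        Fintype.linearIndependent_iff.mp b.linearIndependent _ ha p.2
      have hq : Polynomial.aeval x⁻¹ (q p.2) = 0 := by
        rw [← hcoe, haj]
        rfl
      have hq0 : q p.2 = 0 := transcendental_iff.mp hxt _ hq
      have hcf := congrArg (fun r : Polynomial k => r.coeff (p.1 : ℕ)) hq0
      simp only [q, Polynomial.finsetSum_coeff, Polynomial.coeff_monomial,
        Polynomial.coeff_zero] at hcf
      rw [Finset.sum_eq_single p.1 (fun i _ hi => if_neg (fun h => hi (Fin.ext h)))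
        (fun h => absurd (Finset.mem_univ _) h), if_pos rfl] at hcf
      exact hcf
    have hcard : (l + 1) * n ≤ finrank k (riemannRochSpace D) := by
      let w' : Fin (l + 1) × Fin n → riemannRochSpace D := fun p => ⟨w p, hw_mem p⟩
      have hli' : LinearIndependent k w' :=
        LinearIndependent.of_comp (riemannRochSpace D).subtype hli
      have := hli'.fintype_card_le_finrank
      simpa [Fintype.card_prod] using this
    have hD0 : (0 : Divisor k F) ≤ D := add_nonneg (nsmul_nonneg hB0 l) hC0
    have h2 := hfin.2 D 0 hD0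
    have hdeg : Divisor.degree D = l * Divisor.degree B + Divisor.degree C := by
      simp [hD, map_add, map_nsmul]
    rw [hdeg, map_zero, sub_zero] at h2
    have h3 : (((l : ℤ) + 1) * n : ℤ) ≤ finrank k (riemannRochSpace D) := by
      exact_mod_cast hcard
    linarith
  by_contra hlt
  rw [not_le, ← hdegB] at hlt
  set ℓ0 : ℤ := ((finrank k (riemannRochSpace (0 : Divisor k F)) : ℕ) : ℤ) with hℓ0
  have hℓ0nn : 0 ≤ ℓ0 := by positivity
  have hLnn : 0 ≤ ℓ0 + |Divisor.degree C| + 1 := by positivity
  have hk := key (ℓ0 + |Divisor.degree C| + 1).toNat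
  rw [Int.toNat_of_nonneg hLnn] at hk
  have hdB : Divisor.degree B ≤ (n : ℤ) - 1 := by omega
  have hmul := mul_le_mul_of_nonneg_left hdB hLnn
  have habs := le_abs_self (Divisor.degree C)
  have hn0 : (0 : ℤ) ≤ n := Int.natCast_nonneg n
  nlinarith

end Fermat.Agent.S26.CURVEK
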