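import Fermat.Agent.S26.CURVEK.Statements

/-!
# S26 / P13 CURVEK, leaf L8 Principal
div f = (zeros of f) - (zeros of 1/f), degree [F:k(f)] - [F:k(1/f)] = 0; elements algebraic
over k have order 0 at every place.  Also: every nonzero f has a pole divisor.
-/

set_option autoImplicit false

namespace Fermat.Agent.S26.CURVEK

open AlgebraicCurve Module

variable {k F : Type*} [Field k] [Field F] [Algebra k F]

/-- elements algebraic over `k` lie in every valuation ring containing `k` -/
theorem l8_mem_of_isAlgebraic (v : Place k F) {f : F} (hf : IsAlgebraic k f) :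
    ∃ a : v.toValuationSubring, (a : F) = f := by
  have h1 : IsIntegral v.toValuationSubring f := hf.isIntegral.tower_top
  obtain ⟨a, ha⟩ := (IsIntegrallyClosed.isIntegral_iff (R := v.toValuationSubring) (K := F)).mp h1
  exact ⟨a, ha⟩

/-- elements algebraic over `k` have order `0` at every place -/
theorem l8_ord_eq_zero_of_isAlgebraic (v : Place k F) {f : F} (hf : IsAlgebraic k f) :
    v.ord f = 0 := by
  rcases eq_or_ne f 0 with rfl | hf0
  · exact v.ord_zero
  obtain ⟨a, ha⟩ := l8_mem_of_isAlgebraic v hf
  obtain ⟨b, hb⟩ := l8_mem_of_isAlgebraic v hf.inv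
  have hab : a * b = 1 := by
    apply Subtype.ext
    rw [MulMemClass.coe_mul, ha, hb, OneMemClass.coe_one, mul_inv_cancel₀ hf0]
  have hba : b * a = 1 := by rw [mul_comm, hab]
  have := v.ord_coe_unit ⟨a, b, hab, hba⟩
  rw [← ha]
  exact this

theorem l8_transcendental_inv {f : F} (hf : Transcendental k f) : Transcendental k f⁻¹ := by
  intro h
  apply hf
  have := h.inv
  rwa [inv_inv] at this

theorem l8_adjoin_inv (f : F) :
    IntermediateField.adjoin k {f⁻¹} = IntermediateField.adjoin k {f} := by
  apply le_antisymm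
  · rw [IntermediateField.adjoin_le_iff]
    intro y hy
    rw [Set.mem_singleton_iff] at hy
    rw [hy]
    exact inv_mem (IntermediateField.mem_adjoin_simple_self k f)
  · rw [IntermediateField.adjoin_le_iff]
    intro y hy
    rw [Set.mem_singleton_iff] at hy
    rw [hy]
    have := inv_mem (IntermediateField.mem_adjoin_simple_self k f⁻¹)
    rwa [inv_inv] at this

theorem l8_finrank_adjoin_inv (f : F) :
    finrank (IntermediateField.adjoin k {f⁻¹}) F = finrank (IntermediateField.adjoin k {f}) F := by
  rw [l8_adjoin_inv]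

/-- the degree of a divisor given on a finite set -/
theorem l8_degree_onFinset (t : Finset (Place k F)) (g : Place k F → ℤ)
    (hg : ∀ v, g v ≠ 0 → v ∈ t) :
    Divisor.degree (Finsupp.onFinset t g hg) = ∑ v ∈ t, g v * (v.deg : ℤ) := by
  have h1 : Divisor.degree (Finsupp.onFinset t g hg) =
      (Finsupp.onFinset t g hg).sum fun v n => n * (v.deg : ℤ) := by
    simp [Divisor.degree, Finsupp.liftAddHom_apply]
  rw [h1, Finsupp.sum_of_support_subset _ Finsupp.support_onFinset_subset _
    (fun v _ => zero_mul _)]
  exact Finset.sum_congr rfl fun v _ => by rw [Finsupp.onFinset_apply]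

theorem principal (hzd : StZeroDegree k F) : HasPrincipalDivisors k F := by
  classical
  refine ⟨fun f hf0 => ?_⟩
  by_cases hf : Transcendental k f
  · obtain ⟨s1, hs1, hd1⟩ := hzd f hf
    obtain ⟨s2, hs2, hd2⟩ := hzd f⁻¹ (l8_transcendental_inv hf)
    have hg : ∀ v : Place k F, v.ord f ≠ 0 → v ∈ s1 ∪ s2 := by
      intro v hv
      rcases lt_or_gt_of_ne hv with h | h
      · exact Finset.mem_union_right _ ((hs2 v).mpr (by rw [v.ord_inv]; omega))
      · exact Finset.mem_union_left _ ((hs1 v).mpr h)
    refine ⟨Finsupp.onFinset (s1 ∪ s2) (fun v => v.ord f) hg,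
      fun v => Finsupp.onFinset_apply, ?_⟩
    rw [l8_degree_onFinset]
    have hdisj : Disjoint s1 s2 := by
      rw [Finset.disjoint_left]
      intro v h1 h2
      have a1 := (hs1 v).mp h1
      have a2 := (hs2 v).mp h2
      rw [v.ord_inv] at a2
      omega
    rw [Finset.sum_union hdisj, hd1]
    have h2 : ∑ v ∈ s2, v.ord f * (v.deg : ℤ) = - ∑ v ∈ s2, v.ord f⁻¹ * (v.deg : ℤ) := by
      rw [← Finset.sum_neg_distrib]
      exact Finset.sum_congr rfl fun v _ => by rw [v.ord_inv]; ring
    rw [h2, hd2, l8_finrank_adjoin_inv]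
    ring
  · have hf' : IsAlgebraic k f := by
      by_contra h; exact hf h
    exact ⟨0, fun v => by
      rw [Finsupp.zero_apply, l8_ord_eq_zero_of_isAlgebraic v hf'], map_zero _⟩

/-- the pole divisor exists, and for transcendental `x` its degree is `[F : k(x)]` -/
theorem exists_poleDivisor (hzd : StZeroDegree k F) (x : F) :
    ∃ B : Divisor k F, IsPoleDivisor B x ∧
      (Transcendental k x →
        Divisor.degree B = (finrank (IntermediateField.adjoin k {x}) F : ℤ)) ∧
      (IsAlgebraic k x → B = 0) := by
  classical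
  by_cases hx : Transcendental k x
  · obtain ⟨s2, hs2, hd2⟩ := hzd x⁻¹ (l8_transcendental_inv hx)
    have hg : ∀ v : Place k F, max 0 (-(v.ord x)) ≠ 0 → v ∈ s2 := by
      intro v hv
      refine (hs2 v).mpr ?_
      rw [v.ord_inv]
      rcases le_or_gt (-(v.ord x)) 0 with h | h
      · exact absurd (max_eq_left h) hv
      · exact h
    refine ⟨Finsupp.onFinset s2 (fun v => max 0 (-(v.ord x))) hg,
      fun v => Finsupp.onFinset_apply, fun _ => ?_, fun h => absurd h hx⟩
    rw [l8_degree_onFinset, ← l8_finrank_adjoin_inv, ← hd2]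
    refine Finset.sum_congr rfl fun v hv => ?_
    have := (hs2 v).mp hv
    rw [v.ord_inv] at this ⊢
    rw [max_eq_right this.le]
  · have hx' : IsAlgebraic k x := by
      by_contra h; exact hx h
    refine ⟨0, fun v => ?_, fun h => absurd h hx, fun _ => rfl⟩
    rw [Finsupp.zero_apply, l8_ord_eq_zero_of_isAlgebraic v hx']
    simp

end Fermat.Agent.S26.CURVEK
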