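import Fermat.Agent.S26.CURVEK.L0_FiniteOver
import Fermat.Agent.S26.CURVEK.L1_Discrete
import Fermat.Agent.S26.CURVEK.L2_ResidueFinite
import Fermat.Agent.S26.CURVEK.L3_ExistsZero
import Fermat.Agent.S26.CURVEK.L4_ZerosLe
import Fermat.Agent.S26.CURVEK.FiniteFF
import Fermat.Agent.S26.CURVEK.L7_ZeroDegree
import Fermat.Agent.S26.CURVEK.L8_Principal
import Fermat.Agent.S26.CURVEK.L9_Restr
import Fermat.Agent.S26.CURVEK.L10_AdjoinRank
import Fermat.Agent.S26.CURVEK.L11_Transfer

/-!
# S26 / P13 CURVEK : assembly of Part A (algebra), complete part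

`core` : everything the general chain gives for a function field in one variable over an arbitrary
constant field.  `riemannWith_generic` : for `F0/K ⊆ F/k` linearly disjoint with `F = k(F0)`,
Riemann's inequality with constant `γ` on `F0/K` implies Riemann's inequality with `γ` on `F/k`.
-/

set_option autoImplicit false

namespace Fermat.Agent.S26.CURVEK

open AlgebraicCurve Module

/-- The outputs of the general chain L0-L8 (`StFinite` is taken from helper9503's library
`Fermat/Agent/S26/FF` via `finite_of_isFF1`; the leaves L5 `codim`, L6 `finite` are not needed). -/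
structure Core (k F : Type*) [Field k] [Field F] [Algebra k F] : Prop where
  finiteOver : StFiniteOver k F
  discrete : StDiscrete k F
  residueFinite : StResidueFinite k F
  deg_pos : ∀ v : Place k F, 0 < v.deg
  existsZero : StExistsZero k F
  zerosLe : StZerosLe k F
  finite : StFinite k F
  zeroDegree : StZeroDegree k F
  principal : HasPrincipalDivisors k F

theorem core {k F : Type*} [Field k] [Field F] [Algebra k F] (h : IsFF1 k F) : Core k F := by
  have hfo := finiteOver h
  have hdisc := discrete hfo
  have hres := residueFinite hfo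
  have hex := existsZero hdisc
  have hzle := zerosLe hfo hres
  have hfin := finite_of_isFF1 h
  have hzd := zeroDegree hfo hres hex hzle hfin
  exact ⟨hfo, hdisc, hres, deg_pos hfo, hex, hzle, hfin, hzd, principal hzd⟩

variable {K F0 k F : Type*} [Field K] [Field F0] [Field k] [Field F]
  [Algebra K F0] [Algebra k F] [Algebra F0 F]

/-- Riemann's inequality on `F/k` with the constant of `F0/K`. -/
theorem riemannWith_generic (hK : ConstLE K F0 k F) (hLD : LinDisj K F0 k F)
    (hGen : Generated F0 k F) (h0 : IsFF1 K F0) (γ : ℤ) (hR0 : StRiemannWith K F0 γ) :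
    StRiemannWith k F γ := by
  have c0 := core h0
  have h1 : IsFF1 k F := isFF1_of_generated hK hLD hGen h0
  have c1 := core h1
  have := c1.principal
  obtain ⟨x, hx, hxfin⟩ := h0
  obtain ⟨B0, hB0, hdB0, -⟩ := exists_poleDivisor c0.zeroDegree x
  obtain ⟨B, hB, hdB, -⟩ := exists_poleDivisor c1.zeroDegree (algebraMap F0 F x)
  have hx' := transcendental_map hLD x hx
  obtain ⟨hfin', hrank⟩ := finrank_adjoin_map hK hLD hGen x hx hxfin
  have hpos : 0 < Divisor.degree B := by
    rw [hdB hx']
    exact_mod_cast Module.finrank_pos
  have hdeg : Divisor.degree B ≤ Divisor.degree B0 := by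
    rw [hdB hx', hdB0 hx, hrank]
  exact riemann_of_constant_subfield hK hLD c0.discrete c1.finite x B0 hB0 B hB hpos hdeg γ hR0

end Fermat.Agent.S26.CURVEK
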