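import Mathlib
import Fermat.Prelude.Def_AlgebraicCurve_Repartitions

/-!
# S26 / package P13 CURVEK : frozen definitions and leaf statements (deputy sub-lead helper803)

The curve `C` over the field `K(T)`.  Part A is pure algebra in the PRELUDE language
(`AlgebraicCurve.Place`, `Divisor`, `Divisor.degree`, `riemannRochSpace`, `HasPrincipalDivisors`):

* `k`, `F` : an ARBITRARY constant field `k` and a function field `F / k` in one variable
  (in the application `k = K(T)`, `F = K(C × T)`; `k` is NOT algebraically closed, places have
  arbitrary degrees `v.deg = [κ(v) : k]`);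
* `K`, `F0` : the constant field `K` and `F0 = K(C)`, with `F0 → F` (`pr_C^*`).

Every leaf `Lk` proves ONE statement below from explicit prerequisite hypotheses, so all leaves are
sorry-free on their own and parallel.  Reference: Stichtenoth, Algebraic Function Fields and
Codes (2nd ed.), chapter 1 (valuation-theoretic proofs; no separability, no Dedekind domains).
-/

set_option autoImplicit false

namespace Fermat.Agent.S26.CURVEK

open AlgebraicCurve Module

section OneField

variable (k F : Type*) [Field k] [Field F] [Algebra k F]

/-- `F / k` is a function field in one variable over the (arbitrary) field `k`. -/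
def IsFF1 : Prop :=
  ∃ x : F, Transcendental k x ∧ FiniteDimensional (IntermediateField.adjoin k {x}) F

/-- `F` is finite over `k(y)` for EVERY transcendental `y`. -/
def StFiniteOver : Prop :=
  ∀ y : F, Transcendental k y → FiniteDimensional (IntermediateField.adjoin k {y}) F

/-- Every nontrivial valuation ring of `F / k` is discrete (so it is a `Place`). -/
def StDiscrete : Prop :=
  ∀ O : ValuationSubring F, (∀ a : k, algebraMap k F a ∈ O) → O ≠ ⊤ → IsPrincipalIdealRing O

/-- Residue fields of places are finite over `k` (so `0 < v.deg`). -/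
def StResidueFinite : Prop :=
  ∀ v : Place k F, Module.Finite k v.ResidueField

/-- Every transcendental element has a zero. -/
def StExistsZero : Prop :=
  ∀ x : F, Transcendental k x → ∃ v : Place k F, 0 < v.ord x

/-- Stichtenoth 1.3.3: zeros of `x`, counted with multiplicity and degree, are at most
`[F : k(x)]`. -/
def StZerosLe : Prop :=
  ∀ x : F, Transcendental k x → ∀ s : Finset (Place k F), (∀ v ∈ s, 0 < v.ord x) →
    ∑ v ∈ s, v.ord x * (v.deg : ℤ) ≤ (finrank (IntermediateField.adjoin k {x}) F : ℤ)

/-- Stichtenoth 1.4.8: `L(B) ⊆ L(A)` has codimension at most `deg A - deg B` for `B ≤ A`. -/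
def StCodim : Prop :=
  ∀ A B : Divisor k F, B ≤ A →
    Module.Finite k
      (↥(riemannRochSpace A) ⧸ Submodule.comap (riemannRochSpace A).subtype (riemannRochSpace B)) ∧
    (finrank k
      (↥(riemannRochSpace A) ⧸ Submodule.comap (riemannRochSpace A).subtype (riemannRochSpace B)) :
        ℤ) ≤ Divisor.degree A - Divisor.degree B

/-- All `L(D)` are finite-dimensional and `ℓ(A) ≤ ℓ(B) + deg A - deg B` for `B ≤ A`. -/
def StFinite : Prop :=
  (∀ D : Divisor k F, Module.Finite k (riemannRochSpace D)) ∧
  (∀ A B : Divisor k F, B ≤ A →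
    (finrank k (riemannRochSpace A) : ℤ) ≤
      finrank k (riemannRochSpace B) + (Divisor.degree A - Divisor.degree B))

/-- Stichtenoth 1.4.11: the zeros of a transcendental `x` form a finite set and
`deg (x)_0 = [F : k(x)]`. -/
def StZeroDegree : Prop :=
  ∀ x : F, Transcendental k x →
    ∃ s : Finset (Place k F), (∀ v : Place k F, v ∈ s ↔ 0 < v.ord x) ∧
      ∑ v ∈ s, v.ord x * (v.deg : ℤ) = (finrank (IntermediateField.adjoin k {x}) F : ℤ)

/-- Riemann's inequality with the constant `γ`. -/
def StRiemannWith (γ : ℤ) : Prop :=
  ∀ D : Divisor k F, Divisor.degree D + 1 - γ ≤ (finrank k (riemannRochSpace D) : ℤ)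

variable {k F}

/-- `B` is the pole divisor `(x)_∞` of `x`. -/
def IsPoleDivisor (B : Divisor k F) (x : F) : Prop :=
  ∀ v : Place k F, B v = max 0 (-(v.ord x))

end OneField

section TwoFields

variable (K F0 k F : Type*) [Field K] [Field F0] [Field k] [Field F]
  [Algebra K F0] [Algebra k F] [Algebra F0 F]

/-- `K ⊆ k` inside `F`. -/
def ConstLE : Prop :=
  ∀ a : K, ∃ b : k, algebraMap k F b = algebraMap F0 F (algebraMap K F0 a)

/-- `F0` and `k` are linearly disjoint over `K` inside `F`. -/
def LinDisj : Prop :=
  ∀ (n : ℕ) (b : Fin n → F0), LinearIndependent K b →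
    LinearIndependent k (fun i => algebraMap F0 F (b i))

/-- `F = k(F0)`. -/
def Generated : Prop :=
  IntermediateField.adjoin k (Set.range (algebraMap F0 F)) = ⊤

/-- Pole divisors of elements of `F0` have the same degree on `F0 / K` and on `F / k`. -/
def PoleDegEq : Prop :=
  ∀ (x : F0) (B0 : Divisor K F0) (B : Divisor k F), IsPoleDivisor B0 x →
    IsPoleDivisor B (algebraMap F0 F x) → Divisor.degree B = Divisor.degree B0

variable {F0 k F}

/-- The valuation subring of `F0` induced by a place of `F / k`. -/
def restrSubring (v : Place k F) : ValuationSubring F0 :=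
  v.toValuationSubring.comap (algebraMap F0 F)

variable {K}

/-- `A = Con(A0)`, the conorm of the divisor `A0` of `F0 / K`:
`A v = e(v) * A0 (v ∩ F0)`, and `A v = 0` if `v` is trivial on `F0`. -/
def IsConorm (A : Divisor k F) (A0 : Divisor K F0) : Prop :=
  ∀ v : Place k F,
    ((∀ y : F0, y ≠ 0 → v.ord (algebraMap F0 F y) = 0) → A v = 0) ∧
    ∀ (w : Place K F0) (e : ℕ), w.toValuationSubring = restrSubring v →
      (∀ y : F0, y ≠ 0 → v.ord (algebraMap F0 F y) = e * w.ord y) → A v = e * A0 w

end TwoFields

end Fermat.Agent.S26.CURVEK
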