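import Fermat.Agent.S26.Defs
import Fermat.Agent.S26.CURVEK.Statements

/-!
# S26 / package P13 CURVEK, Part B (geometry): frozen definitions (deputy sub-lead helper803)

Setting: `C`, `T`, `X` integral schemes, `X = C ×_K T` with projections `p : X ⟶ C`, `q : X ⟶ T`.
`k = K(T)`, `F = K(X)`, `F0 = K(C)` (with its `K`-algebra structure `FF sC` of `Defs.lean`).
The algebra structures `K(T) → K(X)`, `K(C) → K(X)` are passed as ABSTRACT instances together with
the hypothesis that they are `funMap q`, `funMap p`; the assembly (L20) supplies them by `letI`.

Places are related to points through their CENTRES (`Dominates`): no DVR / dimension theory of the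
local rings is needed.
-/

set_option autoImplicit false

universe u

open CategoryTheory AlgebraicGeometry AlgebraicCurve

namespace Fermat.Agent.S26.CURVEK

noncomputable section

/-- `φ^* : K(Y) → K(X)` for a morphism `φ : X ⟶ Y` of integral schemes sending the generic point
to the generic point (i.e. a dominant morphism). -/
def funMap {X Y : Scheme.{u}} [IsIntegral X] [IsIntegral Y] (φ : X ⟶ Y)
    (h : φ.base (genericPoint X) = genericPoint Y) : Y.functionField →+* X.functionField :=
  (φ.stalkMap (genericPoint X)).hom.comp (Y.presheaf.stalkCongr (.of_eq h.symm)).hom.hom

/-- The valuation subring `O` of the function field dominates the local ring at `x`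
(`x` is a centre of `O`). -/
def Dominates {X : Scheme.{u}} [IsIntegral X] (x : X) (O : ValuationSubring X.functionField) :
    Prop :=
  localRing X x ≤ O.toSubring ∧ ∀ a ∈ localRing X x, a⁻¹ ∉ localRing X x → a⁻¹ ∉ O

variable {K : Type u} [Field K]

/-- `E0` is the divisor (Prelude sense, on the function field `FF sC`) of the family of local
equations `E` on `C`: its multiplicity at a place `w` is the order at `w` of the local equation
of `E` at any centre of `w`. -/
def IsDivisorOf {C : Scheme.{u}} [IsIntegral C] (sC : C ⟶ Spec (CommRingCat.of K))
    (E : Fam C) (E0 : Divisor K (FF sC)) : Prop :=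
  ∀ (w : Place K (FF sC)) (c : C), Dominates c w.toValuationSubring →
    E0 w = w.ord (((E c : (C.functionField)ˣ) : C.functionField) : FF sC)

/-- `A` is the divisor on the generic fibre (a divisor of `K(X) / k`, Prelude sense) of the family
of local equations `D` on `X`. -/
def IsDivGen {X : Scheme.{u}} [IsIntegral X] {k : Type u} [Field k] [Algebra k X.functionField]
    (D : Fam X) (A : Divisor k X.functionField) : Prop :=
  ∀ (v : Place k X.functionField) (x : X), Dominates x v.toValuationSubring →
    A v = v.ord ((D x : (X.functionField)ˣ) : X.functionField)

end

end Fermat.Agent.S26.CURVEK
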