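import Fermat.Agent.S26.CURVEK.Statements
import Fermat.Agent.S26.FF.FromFinite

/-!
# S26 / P13 CURVEK, leaf L0 FiniteOver
F finite over k(y) for every transcendental y.  Wrapper (helper803) around helper9503's library
`Fermat/Agent/S26/FF` (`isFF1_of_finite`, `DegBound`): a `k(y)`-linearly independent family is
`k[y]`-independent, so its size is bounded.
-/

set_option autoImplicit false

namespace Fermat.Agent.S26.CURVEK

open AlgebraicCurve Module Polynomial

variable {k F : Type*} [Field k] [Field F] [Algebra k F]

/-- a `k(y)`-linearly independent family is `k[y]`-independent -/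
theorem l0_polyIndep_of_linearIndependent {y : F} (hy : Transcendental k y) {ι : Type*}
    [Fintype ι] {u : ι → F} (hu : LinearIndependent (IntermediateField.adjoin k {y}) u) :
    FF.PolyIndep k y u := by
  intro φ hφ i
  have hmem : ∀ p : k[X], aeval y p ∈ IntermediateField.adjoin k {y} := fun p =>
    IntermediateField.algebra_adjoin_le_adjoin k _ (aeval_mem_adjoin_singleton k y)
  have h1 : ∑ j, (⟨aeval y (φ j), hmem (φ j)⟩ : IntermediateField.adjoin k {y}) • u j = 0 := by
    rw [← hφ]
    exact Finset.sum_congr rfl fun j _ => rfl
  have h2 := (Fintype.linearIndependent_iff.mp hu) _ h1 i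
  have h3 : aeval y (φ i) = 0 := congrArg Subtype.val h2
  exact (transcendental_iff.mp hy) _ h3

theorem finiteOver (h : IsFF1 k F) : StFiniteOver k F := by
  classical
  obtain ⟨x₀, hx₀, hfin⟩ := h
  have : Module.Finite (IntermediateField.adjoin k {x₀}) F := hfin
  have : FF.IsFF1 k F := FF.isFF1_of_finite hx₀
  intro y hy
  obtain ⟨N, hN⟩ := FF.IsFF1.exists_degBound y hy
  have hrank : Module.rank (IntermediateField.adjoin k {y}) F ≤ N := by
    refine rank_le fun s hs => ?_
    have := hN.card_le (l0_polyIndep_of_linearIndependent hy hs)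
    simpa using this
  exact Module.rank_lt_aleph0_iff.mp (lt_of_le_of_lt hrank (Cardinal.natCast_lt_aleph0))

end Fermat.Agent.S26.CURVEK
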