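import Fermat.Agent.S26.CURVEK.Statements

/-!
# S26 / P13 CURVEK, leaf L12 Conorm  (helper5176)
Existence, additivity, uniqueness and degree of the conorm `Con : Div(F0/K) → Div(F/k)`.

* `exists_conorm`: `A v := e(v) A0(v ∩ F0)`; finite support because the places above `w` are zeros
  of a uniformizer of `w`, and `F/k` has principal divisors.
* `conorm_unique`, `conorm_add`: from the dichotomy of leaf L9 (inlined as
  `l12_exists_ramification`, proof of helper7943, origin/helper7943 L9_Restr.lean).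
* `degree_conorm`: for a place `w` of `F0`, Riemann's inequality gives `y` with pole divisor
  `m w`, `m ≥ 1`; then `Con(m w) = (y)_∞` on `F`, which has degree `m deg w` by `PoleDegEq`.
  The general case follows by additivity.
-/

set_option autoImplicit false

namespace Fermat.Agent.S26.CURVEK

open AlgebraicCurve Module

variable {K F0 k F : Type*} [Field K] [Field F0] [Field k] [Field F]
  [Algebra K F0] [Algebra k F] [Algebra F0 F]


/-- (as in the landed `Fermat/Agent/S24/A564/PlaceBasic.lean`, helper4344) -/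
theorem l12_mem_of_ord_nonneg {k F : Type*} [Field k] [Field F] [Algebra k F] (v : Place k F)
    {f : F} (h : 0 ≤ v.ord f) : f ∈ v.toValuationSubring := by
  rcases eq_or_ne f 0 with rfl | hf
  · exact zero_mem _
  obtain ⟨π, hπ⟩ := IsDiscreteValuationRing.exists_irreducible v.toValuationSubring
  obtain ⟨u, hu⟩ := v.exists_unit_mul_zpow hf hπ
  rw [hu]
  obtain ⟨n, hn⟩ := Int.eq_ofNat_of_zero_le h
  rw [hn, zpow_natCast]
  exact mul_mem (u : v.toValuationSubring).2 (pow_mem π.2 n)

theorem l12_ord_nonneg_of_mem {k F : Type*} [Field k] [Field F] [Algebra k F] (v : Place k F)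
    {f : F} (h : f ∈ v.toValuationSubring) : 0 ≤ v.ord f := by
  rcases eq_or_ne f 0 with rfl | hf
  · simp
  have := (v.adicValuation_le_one_iff (f := f)).mp (v.adicValuation_le_one_of_mem h)
  tauto


theorem l12_exists_ramification (hK : ConstLE K F0 k F) (hdisc0 : StDiscrete K F0) (v : Place k F) :
    (∀ y : F0, y ≠ 0 → v.ord (algebraMap F0 F y) = 0) ∨
    ∃ (w : Place K F0) (e : ℕ), 0 < e ∧ w.toValuationSubring = restrSubring v ∧
      ∀ y : F0, y ≠ 0 → v.ord (algebraMap F0 F y) = e * w.ord y := by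
  classical
  set φ := algebraMap F0 F with hφ
  have hφ0 : ∀ y : F0, y ≠ 0 → φ y ≠ 0 := fun y hy => (map_ne_zero φ).mpr hy
  have hmem : ∀ y : F0, y ∈ restrSubring (F0 := F0) v ↔ φ y ∈ v.toValuationSubring :=
    fun y => Iff.rfl
  have hunit : ∀ y : F0, φ y ∈ v.toValuationSubring → (φ y)⁻¹ ∈ v.toValuationSubring →
      v.ord (φ y) = 0 := by
    intro y h1 h2
    have a1 := l12_ord_nonneg_of_mem v h1
    have a2 := l12_ord_nonneg_of_mem v h2
    rw [v.ord_inv] at a2
    omega
  by_cases hA : restrSubring (F0 := F0) v = ⊤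
  · left
    intro y hy
    have h1 : y ∈ restrSubring (F0 := F0) v := by rw [hA]; trivial
    have h2 : y⁻¹ ∈ restrSubring (F0 := F0) v := by rw [hA]; trivial
    refine hunit y ((hmem y).mp h1) ?_
    rw [← map_inv₀]; exact (hmem y⁻¹).mp h2
  · right
    have hKmem : ∀ a : K, algebraMap K F0 a ∈ restrSubring (F0 := F0) v := by
      intro a
      obtain ⟨b, hb⟩ := hK a
      rw [hmem, ← hb]
      exact v.algebraMap_mem' b
    have hpid := hdisc0 (restrSubring (F0 := F0) v) hKmem hA
    obtain ⟨w, hw⟩ : ∃ w : Place K F0, w.toValuationSubring = restrSubring (F0 := F0) v :=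
      ⟨⟨restrSubring (F0 := F0) v, hKmem, hA, hpid⟩, rfl⟩
    have hmemw : ∀ y : F0, y ∈ w.toValuationSubring ↔ φ y ∈ v.toValuationSubring := by
      intro y; rw [hw]; exact hmem y
    obtain ⟨π, hπ⟩ := IsDiscreteValuationRing.exists_irreducible w.toValuationSubring
    have hπ0 : (π : F0) ≠ 0 := by
      simpa [ne_eq, ZeroMemClass.coe_eq_zero] using hπ.ne_zero
    have he_nonneg : 0 ≤ v.ord (φ π) := l12_ord_nonneg_of_mem v ((hmemw _).mp π.2)
    have he_pos : 0 < v.ord (φ π) := by
      by_contra hcon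
      have h0 : v.ord (φ π) = 0 := by omega
      have h1 : (φ (π : F0))⁻¹ ∈ v.toValuationSubring :=
        l12_mem_of_ord_nonneg v (by rw [v.ord_inv, h0]; simp)
      have h2 : ((π : F0))⁻¹ ∈ w.toValuationSubring := by
        rw [hmemw, map_inv₀]; exact h1
      exact hπ.not_isUnit (isUnit_iff_exists_inv.mpr
        ⟨⟨_, h2⟩, Subtype.ext (mul_inv_cancel₀ hπ0)⟩)
    obtain ⟨e, he⟩ := Int.eq_ofNat_of_zero_le he_nonneg
    refine ⟨w, e, by omega, hw, fun y hy => ?_⟩
    obtain ⟨u, hu⟩ := w.exists_unit_mul_zpow hy hπ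
    have hu0 : ((u : w.toValuationSubring) : F0) ≠ 0 := by
      simp [ne_eq, ZeroMemClass.coe_eq_zero]
    have hinv : (((u⁻¹ : (w.toValuationSubring)ˣ) : w.toValuationSubring) : F0) =
        ((u : w.toValuationSubring) : F0)⁻¹ := by
      apply eq_inv_of_mul_eq_one_left
      have h := congrArg (Subtype.val : w.toValuationSubring → F0) (Units.inv_mul u)
      rw [MulMemClass.coe_mul, OneMemClass.coe_one] at h
      exact h
    have hQu : v.ord (φ ((u : w.toValuationSubring) : F0)) = 0 := by
      refine hunit _ ((hmemw _).mp (u : w.toValuationSubring).2) ?_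
      rw [← map_inv₀, ← hinv]
      exact (hmemw _).mp ((u⁻¹ : (w.toValuationSubring)ˣ) : w.toValuationSubring).2
    conv_lhs => rw [hu]
    rw [map_mul, map_zpow₀, v.ord_mul (hφ0 _ hu0) (zpow_ne_zero _ (hφ0 _ hπ0)), hQu, zero_add,
      v.ord_zpow, he, mul_comm]


/-- a uniformizer -/
theorem l12_exists_ord_eq_one (w : Place K F0) : ∃ y : F0, y ≠ 0 ∧ w.ord y = 1 := by
  obtain ⟨π, hπ⟩ := IsDiscreteValuationRing.exists_irreducible w.toValuationSubring
  refine ⟨(π : F0), ?_, w.ord_coe_irreducible hπ⟩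
  intro h
  exact hπ.ne_zero (Subtype.ext h)

theorem l12_uniq {v : Place k F} {w w' : Place K F0} {e e' : ℕ}
    (hw : w.toValuationSubring = restrSubring v)
    (hy : ∀ y : F0, y ≠ 0 → v.ord (algebraMap F0 F y) = e * w.ord y)
    (hw' : w'.toValuationSubring = restrSubring v)
    (hy' : ∀ y : F0, y ≠ 0 → v.ord (algebraMap F0 F y) = e' * w'.ord y) :
    w = w' ∧ e = e' := by
  have hww : w = w' := Place.ext (hw.trans hw'.symm)
  subst hww
  obtain ⟨y, hy0, hy1⟩ := l12_exists_ord_eq_one w
  have h1 := hy y hy0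
  have h2 := hy' y hy0
  rw [hy1] at h1 h2
  refine ⟨rfl, ?_⟩
  have h3 : (e : ℤ) = e' := by linarith
  exact_mod_cast h3

theorem l12_not_triv {v : Place k F} {w : Place K F0} {e : ℕ} (he : 0 < e)
    (hy : ∀ y : F0, y ≠ 0 → v.ord (algebraMap F0 F y) = e * w.ord y) :
    ¬ (∀ y : F0, y ≠ 0 → v.ord (algebraMap F0 F y) = 0) := by
  intro ht
  obtain ⟨y, hy0, hy1⟩ := l12_exists_ord_eq_one w
  have h1 := hy y hy0
  rw [ht y hy0, hy1] at h1
  have h2 : (e : ℤ) = 0 := by linarith
  have h3 : e = 0 := by exact_mod_cast h2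
  omega

theorem l12_isConorm_zsmul {A : Divisor k F} {A0 : Divisor K F0} (c : ℤ) (h : IsConorm A A0) :
    IsConorm (c • A) (c • A0) := by
  intro v
  refine ⟨fun ht => ?_, fun w e hw hy => ?_⟩
  · rw [Finsupp.smul_apply, (h v).1 ht, smul_zero]
  · rw [Finsupp.smul_apply, Finsupp.smul_apply, (h v).2 w e hw hy, smul_eq_mul, smul_eq_mul]
    ring

theorem l12_isConorm_zero : IsConorm (0 : Divisor k F) (0 : Divisor K F0) := by
  intro v
  exact ⟨fun _ => rfl, fun w e _ _ => by simp⟩

theorem l12_mono {A B : Divisor K F0} (h : B ≤ A) : riemannRochSpace B ≤ riemannRochSpace A := by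
  intro f hf v
  exact (hf v).trans (WithZero.exp_le_exp.mpr (h v))

theorem exists_conorm (hK : ConstLE K F0 k F) (hdisc0 : StDiscrete K F0)
    [HasPrincipalDivisors k F] (A0 : Divisor K F0) :
    ∃ A : Divisor k F, IsConorm A A0 := by
  classical
  choose y hy0 hy1 using fun w : Place K F0 => l12_exists_ord_eq_one w
  have hdiv : ∀ w : Place K F0, ∃ D : Divisor k F,
      ∀ v : Place k F, D v = v.ord (algebraMap F0 F (y w)) := by
    intro w
    obtain ⟨D, hD, _⟩ := HasPrincipalDivisors.exists_divisor (K := k) (algebraMap F0 F (y w))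
      ((map_ne_zero _).mpr (hy0 w))
    exact ⟨D, hD⟩
  choose Dv hDv using hdiv
  let R : Place k F → Place K F0 → ℕ → Prop := fun v w e =>
    0 < e ∧ w.toValuationSubring = restrSubring v ∧
      ∀ y : F0, y ≠ 0 → v.ord (algebraMap F0 F y) = e * w.ord y
  let g : Place k F → ℤ := fun v =>
    if h : ∃ (w : Place K F0) (e : ℕ), R v w e then
      (h.choose_spec.choose : ℤ) * A0 h.choose else 0
  have hg : ∀ v w e, R v w e → g v = e * A0 w := by
    intro v w e hR
    have h : ∃ (w : Place K F0) (e : ℕ), R v w e := ⟨w, e, hR⟩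
    have hspec := h.choose_spec.choose_spec
    obtain ⟨h1, h2⟩ := l12_uniq hR.2.1 hR.2.2 hspec.2.1 hspec.2.2
    simp only [g, dif_pos h]
    rw [h2, h1]
  have hg0 : ∀ v, (¬ ∃ (w : Place K F0) (e : ℕ), R v w e) → g v = 0 := by
    intro v h
    simp only [g, dif_neg h]
  let S : Finset (Place k F) := A0.support.biUnion fun w => (Dv w).support
  have hS : ∀ v, g v ≠ 0 → v ∈ S := by
    intro v hv
    by_cases h : ∃ (w : Place K F0) (e : ℕ), R v w e
    · obtain ⟨w, e, hR⟩ := h
      rw [hg v w e hR] at hv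
      have hA0 : A0 w ≠ 0 := fun h0 => hv (by rw [h0, mul_zero])
      rw [Finset.mem_biUnion]
      refine ⟨w, Finsupp.mem_support_iff.mpr hA0, Finsupp.mem_support_iff.mpr ?_⟩
      rw [hDv, hR.2.2 (y w) (hy0 w), hy1 w, mul_one]
      exact_mod_cast hR.1.ne'
    · exact absurd (hg0 v h) hv
  refine ⟨Finsupp.onFinset S g hS, fun v => ⟨fun ht => ?_, fun w e hw hy => ?_⟩⟩
  · rw [Finsupp.onFinset_apply]
    apply hg0
    rintro ⟨w, e, he, hw, hy⟩
    exact l12_not_triv he hy ht
  · rw [Finsupp.onFinset_apply]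
    rcases Nat.eq_zero_or_pos e with rfl | he
    · have ht : ∀ y : F0, y ≠ 0 → v.ord (algebraMap F0 F y) = 0 := by
        intro y' hy'
        simpa using hy y' hy'
      rw [hg0 v (by rintro ⟨w', e', he', hw', hy'⟩; exact l12_not_triv he' hy' ht)]
      simp
    · exact hg v w e ⟨he, hw, hy⟩

theorem conorm_add (hK : ConstLE K F0 k F) (hdisc0 : StDiscrete K F0)
    {A A' : Divisor k F} {A0 A0' : Divisor K F0} (h : IsConorm A A0) (h' : IsConorm A' A0') :
    IsConorm (A + A') (A0 + A0') := by
  intro v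
  refine ⟨fun ht => ?_, fun w e hw hy => ?_⟩
  · rw [Finsupp.add_apply, (h v).1 ht, (h' v).1 ht, add_zero]
  · rw [Finsupp.add_apply, Finsupp.add_apply, (h v).2 w e hw hy, (h' v).2 w e hw hy, mul_add]

theorem conorm_unique (hK : ConstLE K F0 k F) (hdisc0 : StDiscrete K F0)
    {A A' : Divisor k F} {A0 : Divisor K F0} (h : IsConorm A A0) (h' : IsConorm A' A0) :
    A = A' := by
  refine Finsupp.ext fun v => ?_
  rcases l12_exists_ramification hK hdisc0 v with ht | ⟨w, e, _, hw, hy⟩
  · rw [(h v).1 ht, (h' v).1 ht]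
  · rw [(h v).2 w e hw hy, (h' v).2 w e hw hy]

/-- a function whose only pole is `w` -/
theorem l12_exists_pole_only (hdeg0 : ∀ w : Place K F0, 0 < w.deg) (γ : ℤ)
    (hR0 : StRiemannWith K F0 γ) (w : Place K F0) :
    ∃ (y : F0) (m : ℕ), y ≠ 0 ∧ 0 < m ∧ IsPoleDivisor (Finsupp.single w (m : ℤ)) y := by
  classical
  by_contra hcon
  push Not at hcon
  have hsub : ∀ n : ℕ,
      riemannRochSpace ((n : ℤ) • Finsupp.single w (1 : ℤ) : Divisor K F0) ≤
        riemannRochSpace (0 : Divisor K F0) := by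
    intro n f hf
    rw [mem_riemannRochSpace_iff] at hf ⊢
    intro v
    rcases eq_or_ne f 0 with rfl | hf0
    · left; rfl
    right
    simp only [Finsupp.coe_zero, Pi.zero_apply, neg_zero]
    have hv := (hf v).resolve_left hf0
    by_cases hvw : v = w
    · subst hvw
      by_contra hneg
      rw [not_le] at hneg
      apply hcon f (-(v.ord f)).toNat hf0 (by omega)
      intro u
      by_cases huv : u = v
      · subst huv
        rw [Finsupp.single_eq_same]
        omega
      · have hu := (hf u).resolve_left hf0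
        rw [Finsupp.smul_apply, Finsupp.single_apply, if_neg (Ne.symm huv)] at hu
        rw [Finsupp.single_apply, if_neg (Ne.symm huv)]
        simp only [smul_zero, neg_zero] at hu
        omega
    · rw [Finsupp.smul_apply, Finsupp.single_apply, if_neg (Ne.symm hvw)] at hv
      simpa using hv
  have heq : ∀ n : ℕ,
      riemannRochSpace ((n : ℤ) • Finsupp.single w (1 : ℤ) : Divisor K F0) =
        riemannRochSpace (0 : Divisor K F0) := by
    intro n
    refine le_antisymm (hsub n) (l12_mono ?_)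
    intro v
    rw [Finsupp.smul_apply, Finsupp.single_apply]
    simp only [Finsupp.coe_zero, Pi.zero_apply, smul_eq_mul]
    split_ifs
    · simp
    · simp
  set c : ℤ := ((finrank K (riemannRochSpace (0 : Divisor K F0)) : ℕ) : ℤ) with hc
  have hdw : (1 : ℤ) ≤ w.deg := by exact_mod_cast hdeg0 w
  have hnn : 0 ≤ |c| + |γ| + 1 := by positivity
  have key := hR0 (((|c| + |γ| + 1).toNat : ℤ) • Finsupp.single w (1 : ℤ))
  rw [heq, map_zsmul, Divisor.degree_single, one_mul, Int.toNat_of_nonneg hnn, smul_eq_mul] at key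
  have h1 := mul_le_mul_of_nonneg_left hdw hnn
  have h2 := le_abs_self c
  have h3 := le_abs_self γ
  linarith

theorem degree_conorm (hK : ConstLE K F0 k F) (hdisc0 : StDiscrete K F0)
    (hdeg0 : ∀ w : Place K F0, 0 < w.deg) (γ : ℤ) (hR0 : StRiemannWith K F0 γ)
    [HasPrincipalDivisors k F] (hpole : PoleDegEq K F0 k F)
    (A0 : Divisor K F0) (A : Divisor k F) (h : IsConorm A A0) :
    Divisor.degree A = Divisor.degree A0 := by
  classical
  have single1 : ∀ (w : Place K F0) (A₁ : Divisor k F),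
      IsConorm A₁ (Finsupp.single w (1 : ℤ)) → Divisor.degree A₁ = w.deg := by
    intro w A₁ hA₁
    obtain ⟨y, m, hy0, hm, hpd⟩ := l12_exists_pole_only hdeg0 γ hR0 w
    obtain ⟨Dy, hDy, _⟩ := HasPrincipalDivisors.exists_divisor (K := k) (algebraMap F0 F y)
      ((map_ne_zero _).mpr hy0)
    let B : Divisor k F := Finsupp.onFinset Dy.support
      (fun v => max 0 (-(v.ord (algebraMap F0 F y)))) (by
        intro v hv
        rw [Finsupp.mem_support_iff, hDy]
        intro h0
        apply hv
        rw [h0]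
        simp)
    have hB : IsPoleDivisor B (algebraMap F0 F y) := fun v => rfl
    have hBc : IsConorm B (Finsupp.single w (m : ℤ)) := by
      intro v
      refine ⟨fun ht => ?_, fun w' e hw' hy' => ?_⟩
      · rw [hB v, ht y hy0]
        simp
      · rw [hB v, hy' y hy0, hpd w']
        have he0 : (0 : ℤ) ≤ e := Int.natCast_nonneg e
        rcases le_total 0 (-(w'.ord y)) with h1 | h1
        · rw [max_eq_right h1, max_eq_right (by nlinarith)]
          ring
        · rw [max_eq_left h1, max_eq_left (by nlinarith)]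
          ring
    have hmA : IsConorm ((m : ℤ) • A₁) (Finsupp.single w (m : ℤ)) := by
      have h1 := l12_isConorm_zsmul (m : ℤ) hA₁
      rwa [Finsupp.smul_single, smul_eq_mul, mul_one] at h1
    have hBeq : B = (m : ℤ) • A₁ := conorm_unique hK hdisc0 hBc hmA
    have hdegB := hpole y (Finsupp.single w (m : ℤ)) B hpd hB
    rw [hBeq, map_zsmul, Divisor.degree_single, smul_eq_mul] at hdegB
    have hm' : (m : ℤ) ≠ 0 := by exact_mod_cast hm.ne'
    exact mul_left_cancel₀ hm' hdegB
  revert A
  induction A0 using Finsupp.induction_linear with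
  | zero =>
    intro A h
    rw [conorm_unique hK hdisc0 h l12_isConorm_zero, map_zero, map_zero]
  | add f g hf hg =>
    intro A h
    obtain ⟨Af, hAf⟩ := exists_conorm hK hdisc0 f
    obtain ⟨Ag, hAg⟩ := exists_conorm hK hdisc0 g
    rw [conorm_unique hK hdisc0 h (conorm_add hK hdisc0 hAf hAg), map_add, map_add,
      hf Af hAf, hg Ag hAg]
  | single w c =>
    intro A h
    obtain ⟨A₁, hA₁⟩ := exists_conorm hK hdisc0 (Finsupp.single w (1 : ℤ))
    have hc : IsConorm (c • A₁) (Finsupp.single w c) := by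
      have h1 := l12_isConorm_zsmul c hA₁
      rwa [Finsupp.smul_single, smul_eq_mul, mul_one] at h1
    rw [conorm_unique hK hdisc0 h hc, map_zsmul, single1 w A₁ hA₁, Divisor.degree_single,
      smul_eq_mul]

end Fermat.Agent.S26.CURVEK
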