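import Fermat.Agent.S26.CURVEK.Statements

/-!
# S26 / P13 CURVEK, leaf L13 PoleDeg  (helper5176)
`poleDegEq`: pole divisors of elements of `F0` have the same degree on `F0 / K` and on `F / k`
(both are `[F0 : K(x)] = [F : k(x)]`, or both are `0` for algebraic `x`), and the consumer form
`exists_ne_zero_mem` of (K3).

The leaf is self-contained: the helper lemmas `l13_*` in the first two sections are the proofs of
leaves L8 (`exists_poleDivisor`) and L10 (`transcendental_map`, `finrank_adjoin_map`) by helper7943
(origin/helper7943, files L8_Principal.lean, L10_AdjoinRank.lean), copied with renamed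
declarations because leaves may not import each other.
-/

set_option autoImplicit false

namespace Fermat.Agent.S26.CURVEK

open AlgebraicCurve Module

section L13fromL8


variable {k F : Type*} [Field k] [Field F] [Algebra k F]

/-- elements algebraic over `k` lie in every valuation ring containing `k` -/
theorem l13_mem_of_isAlgebraic (v : Place k F) {f : F} (hf : IsAlgebraic k f) :
    ∃ a : v.toValuationSubring, (a : F) = f := by
  have h1 : IsIntegral v.toValuationSubring f := hf.isIntegral.tower_top
  obtain ⟨a, ha⟩ := (IsIntegrallyClosed.isIntegral_iff (R := v.toValuationSubring) (K := F)).mp h1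
  exact ⟨a, ha⟩

/-- elements algebraic over `k` have order `0` at every place -/
theorem l13_ord_eq_zero_of_isAlgebraic (v : Place k F) {f : F} (hf : IsAlgebraic k f) :
    v.ord f = 0 := by
  rcases eq_or_ne f 0 with rfl | hf0
  · exact v.ord_zero
  obtain ⟨a, ha⟩ := l13_mem_of_isAlgebraic v hf
  obtain ⟨b, hb⟩ := l13_mem_of_isAlgebraic v hf.inv
  have hab : a * b = 1 := by
    apply Subtype.ext
    rw [MulMemClass.coe_mul, ha, hb, OneMemClass.coe_one, mul_inv_cancel₀ hf0]
  have hba : b * a = 1 := by rw [mul_comm, hab]
  have := v.ord_coe_unit ⟨a, b, hab, hba⟩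
  rw [← ha]
  exact this

theorem l13_transcendental_inv {f : F} (hf : Transcendental k f) : Transcendental k f⁻¹ := by
  intro h
  apply hf
  have := h.inv
  rwa [inv_inv] at this

theorem l13_adjoin_inv (f : F) :
    IntermediateField.adjoin k {f⁻¹} = IntermediateField.adjoin k {f} := by
  apply le_antisymm
  · rw [IntermediateField.adjoin_le_iff]
    intro y hy
    rw [Set.mem_singleton_iff] at hy
    rw [hy]
    exact inv_mem (IntermediateField.mem_adjoin_simple_self k f)
  · rw [IntermediateField.adjoin_le_iff]
    intro y hy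
    rw [Set.mem_singleton_iff] at hy
    rw [hy]
    have := inv_mem (IntermediateField.mem_adjoin_simple_self k f⁻¹)
    rwa [inv_inv] at this

theorem l13_finrank_adjoin_inv (f : F) :
    finrank (IntermediateField.adjoin k {f⁻¹}) F = finrank (IntermediateField.adjoin k {f}) F := by
  rw [l13_adjoin_inv]

/-- the degree of a divisor given on a finite set -/
theorem l13_degree_onFinset (t : Finset (Place k F)) (g : Place k F → ℤ)
    (hg : ∀ v, g v ≠ 0 → v ∈ t) :
    Divisor.degree (Finsupp.onFinset t g hg) = ∑ v ∈ t, g v * (v.deg : ℤ) := by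
  have h1 : Divisor.degree (Finsupp.onFinset t g hg) =
      (Finsupp.onFinset t g hg).sum fun v n => n * (v.deg : ℤ) := by
    simp [Divisor.degree, Finsupp.liftAddHom_apply]
  rw [h1, Finsupp.sum_of_support_subset _ Finsupp.support_onFinset_subset _
    (fun v _ => zero_mul _)]
  exact Finset.sum_congr rfl fun v _ => by rw [Finsupp.onFinset_apply]

theorem l13_principal (hzd : StZeroDegree k F) : HasPrincipalDivisors k F := by
  classical
  refine ⟨fun f hf0 => ?_⟩
  by_cases hf : Transcendental k f
  · obtain ⟨s1, hs1, hd1⟩ := hzd f hf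
    obtain ⟨s2, hs2, hd2⟩ := hzd f⁻¹ (l13_transcendental_inv hf)
    have hg : ∀ v : Place k F, v.ord f ≠ 0 → v ∈ s1 ∪ s2 := by
      intro v hv
      rcases lt_or_gt_of_ne hv with h | h
      · exact Finset.mem_union_right _ ((hs2 v).mpr (by rw [v.ord_inv]; omega))
      · exact Finset.mem_union_left _ ((hs1 v).mpr h)
    refine ⟨Finsupp.onFinset (s1 ∪ s2) (fun v => v.ord f) hg,
      fun v => Finsupp.onFinset_apply, ?_⟩
    rw [l13_degree_onFinset]
    have hdisj : Disjoint s1 s2 := by
      rw [Finset.disjoint_left]
      intro v h1 h2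
      have a1 := (hs1 v).mp h1
      have a2 := (hs2 v).mp h2
      rw [v.ord_inv] at a2
      omega
    rw [Finset.sum_union hdisj, hd1]
    have h2 : ∑ v ∈ s2, v.ord f * (v.deg : ℤ) = - ∑ v ∈ s2, v.ord f⁻¹ * (v.deg : ℤ) := by
      rw [← Finset.sum_neg_distrib]
      exact Finset.sum_congr rfl fun v _ => by rw [v.ord_inv]; ring
    rw [h2, hd2, l13_finrank_adjoin_inv]
    ring
  · have hf' : IsAlgebraic k f := by
      by_contra h; exact hf h
    exact ⟨0, fun v => by
      rw [Finsupp.zero_apply, l13_ord_eq_zero_of_isAlgebraic v hf'], map_zero _⟩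

/-- the pole divisor exists, and for transcendental `x` its degree is `[F : k(x)]` -/
theorem l13_exists_poleDivisor (hzd : StZeroDegree k F) (x : F) :
    ∃ B : Divisor k F, IsPoleDivisor B x ∧
      (Transcendental k x →
        Divisor.degree B = (finrank (IntermediateField.adjoin k {x}) F : ℤ)) ∧
      (IsAlgebraic k x → B = 0) := by
  classical
  by_cases hx : Transcendental k x
  · obtain ⟨s2, hs2, hd2⟩ := hzd x⁻¹ (l13_transcendental_inv hx)
    have hg : ∀ v : Place k F, max 0 (-(v.ord x)) ≠ 0 → v ∈ s2 := by
      intro v hv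
      refine (hs2 v).mpr ?_
      rw [v.ord_inv]
      rcases le_or_gt (-(v.ord x)) 0 with h | h
      · exact absurd (max_eq_left h) hv
      · exact h
    refine ⟨Finsupp.onFinset s2 (fun v => max 0 (-(v.ord x))) hg,
      fun v => Finsupp.onFinset_apply, fun _ => ?_, fun h => absurd h hx⟩
    rw [l13_degree_onFinset, ← l13_finrank_adjoin_inv, ← hd2]
    refine Finset.sum_congr rfl fun v hv => ?_
    have := (hs2 v).mp hv
    rw [v.ord_inv] at this ⊢
    rw [max_eq_right this.le]
  · have hx' : IsAlgebraic k x := by
      by_contra h; exact hx h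
    refine ⟨0, fun v => ?_, fun h => absurd h hx, fun _ => rfl⟩
    rw [Finsupp.zero_apply, l13_ord_eq_zero_of_isAlgebraic v hx']
    simp


end L13fromL8

section L13fromL10


variable {K F0 k F : Type*} [Field K] [Field F0] [Field k] [Field F]
  [Algebra K F0] [Algebra k F] [Algebra F0 F]

/-- `LinDisj` for families indexed by a `Fintype` -/
theorem l13_linDisj_fintype (hLD : LinDisj K F0 k F) {ι : Type*} [Fintype ι] (w : ι → F0)
    (hw : LinearIndependent K w) : LinearIndependent k (fun i => algebraMap F0 F (w i)) := by
  have e := Fintype.equivFin ι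
  have h1 : LinearIndependent K (w ∘ e.symm) := (linearIndependent_equiv e.symm).mpr hw
  have h2 := hLD _ _ h1
  have h3 : LinearIndependent k ((fun i => algebraMap F0 F (w i)) ∘ e.symm) := h2
  exact (linearIndependent_equiv e.symm).mp h3

omit [Field k] [Field F] [Algebra k F] [Algebra F0 F] in
theorem l13_linearIndependent_pow {x : F0} (hx : Transcendental K x) (n : ℕ) :
    LinearIndependent K (fun j : Fin n => x ^ (j : ℕ)) := by
  have hb := (Polynomial.basisMonomials K).linearIndependent
  have h1 := hb.map' (Polynomial.aeval x).toLinearMap (by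
    rw [LinearMap.ker_eq_bot]; exact transcendental_iff_injective.mp hx)
  have h2 : LinearIndependent K (fun i : ℕ => x ^ i) := by
    simpa [Function.comp_def] using h1
  exact h2.comp _ Fin.val_injective

theorem l13_transcendental_map (hLD : LinDisj K F0 k F) (x : F0) (hx : Transcendental K x) :
    Transcendental k (algebraMap F0 F x) := by
  rw [transcendental_iff_injective, injective_iff_map_eq_zero]
  intro p hp
  have h1 := hLD _ _ (l13_linearIndependent_pow hx (p.natDegree + 1))
  rw [Fintype.linearIndependent_iff] at h1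
  have h2 := h1 (fun j => p.coeff j) (by
    rw [Polynomial.aeval_eq_sum_range, Finset.sum_range] at hp
    rw [← hp]
    exact Finset.sum_congr rfl fun j _ => by rw [map_pow])
  ext i
  by_cases hi : i < p.natDegree + 1
  · simpa using h2 ⟨i, hi⟩
  · simp only [Polynomial.coeff_zero]
    exact Polynomial.coeff_eq_zero_of_natDegree_lt (by omega)

omit [Field k] [Field F] [Algebra k F] [Algebra F0 F] in
/-- the family `x^j * b i` is `K`-linearly independent -/
theorem l13_linearIndependent_pow_mul {x : F0} (hx : Transcendental K x) {r : ℕ}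
    (b : Fin r → F0) (hb : LinearIndependent (IntermediateField.adjoin K {x}) b) (n : ℕ) :
    LinearIndependent K (fun p : Fin r × Fin n => x ^ (p.2 : ℕ) * b p.1) := by
  rw [Fintype.linearIndependent_iff]
  intro a ha p
  rw [Fintype.sum_prod_type] at ha
  have hmem : ∀ i, ∑ j : Fin n, a (i, j) • x ^ (j : ℕ) ∈ IntermediateField.adjoin K {x} :=
    fun i => sum_mem fun j _ => IntermediateField.smul_mem _
      (pow_mem (IntermediateField.mem_adjoin_simple_self K x) _)
  have h1 : ∑ i, (⟨_, hmem i⟩ : IntermediateField.adjoin K {x}) • b i = 0 := by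
    rw [← ha]
    refine Finset.sum_congr rfl fun i _ => ?_
    show (∑ j : Fin n, a (i, j) • x ^ (j : ℕ)) * b i = _
    rw [Finset.sum_mul]
    refine Finset.sum_congr rfl fun j _ => ?_
    rw [smul_mul_assoc]
  have h2 := (Fintype.linearIndependent_iff.mp hb) _ h1 p.1
  have h3 : ∑ j : Fin n, a (p.1, j) • x ^ (j : ℕ) = 0 := congrArg Subtype.val h2
  exact (Fintype.linearIndependent_iff.mp (l13_linearIndependent_pow hx n))
    (fun j => a (p.1, j)) h3 p.2

/-- the images of a `K(x)`-independent family are `k(ιx)`-independent -/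
theorem l13_linearIndependent_map (hLD : LinDisj K F0 k F) {x : F0} (hx : Transcendental K x)
    {r : ℕ} (b : Fin r → F0) (hb : LinearIndependent (IntermediateField.adjoin K {x}) b) :
    LinearIndependent (IntermediateField.adjoin k {algebraMap F0 F x})
      (fun i => algebraMap F0 F (b i)) := by
  classical
  set φ := algebraMap F0 F with hφ
  set x' := φ x with hx'
  have key : ∀ P : Fin r → Polynomial k,
      ∑ i, Polynomial.aeval x' (P i) * φ (b i) = 0 → ∀ i, P i = 0 := by
    intro P hP i
    set d := Finset.univ.sup (fun i => (P i).natDegree) + 1 with hd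
    have hdeg : ∀ i, (P i).natDegree < d := fun i =>
      Nat.lt_succ_of_le (Finset.le_sup (f := fun i => (P i).natDegree) (Finset.mem_univ i))
    have hLI := l13_linDisj_fintype hLD _ (l13_linearIndependent_pow_mul hx b hb d)
    rw [Fintype.linearIndependent_iff] at hLI
    have h0 := hLI (fun p => (P p.1).coeff p.2) (by
      rw [Fintype.sum_prod_type, ← hP]
      refine Finset.sum_congr rfl fun i _ => ?_
      rw [Polynomial.aeval_eq_sum_range' (hdeg i), Finset.sum_mul, Finset.sum_range]
      refine Finset.sum_congr rfl fun j _ => ?_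
      rw [map_mul, map_pow, smul_mul_assoc])
    ext j
    by_cases hj : j < d
    · simpa using h0 (i, ⟨j, hj⟩)
    · simp only [Polynomial.coeff_zero]
      exact Polynomial.coeff_eq_zero_of_natDegree_lt (by have := hdeg i; omega)
  rw [Fintype.linearIndependent_iff]
  intro c hc i
  have hrep : ∀ i, ∃ R S : Polynomial k, Polynomial.aeval x' S ≠ 0 ∧
      (c i : F) * Polynomial.aeval x' S = Polynomial.aeval x' R := by
    intro i
    obtain ⟨R, S, hRS⟩ := (IntermediateField.mem_adjoin_simple_iff k (c i : F)).mp (c i).2
    by_cases hS : Polynomial.aeval x' S = 0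
    · refine ⟨0, 1, by simp, ?_⟩
      rw [hRS, hS, div_zero]; simp
    · exact ⟨R, S, hS, by rw [hRS, div_mul_cancel₀ _ hS]⟩
  choose R S hS hRS using hrep
  set Q := ∏ j, Polynomial.aeval x' (S j) with hQ
  have hQ0 : Q ≠ 0 := Finset.prod_ne_zero_iff.mpr fun j _ => hS j
  let P : Fin r → Polynomial k := fun i => R i * ∏ j ∈ Finset.univ.erase i, S j
  have hP : ∀ i, Polynomial.aeval x' (P i) = (c i : F) * Q := by
    intro i
    simp only [P, map_mul, map_prod]
    rw [← hRS i, mul_assoc,
      Finset.mul_prod_erase Finset.univ (fun j => Polynomial.aeval x' (S j)) (Finset.mem_univ i)]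
  have hzero := key P (by
    have h1 : ∑ i, Polynomial.aeval x' (P i) * φ (b i) = Q * ∑ i, (c i : F) * φ (b i) := by
      rw [Finset.mul_sum]
      exact Finset.sum_congr rfl fun i _ => by rw [hP]; ring
    rw [h1]
    have hc' : ∑ i, (c i : F) * φ (b i) = 0 := hc
    rw [hc', mul_zero])
  have h4 := hP i
  rw [hzero i, map_zero] at h4
  have h5 : (c i : F) = 0 := by
    rcases mul_eq_zero.mp h4.symm with h | h
    · exact h
    · exact absurd h hQ0
  exact Subtype.ext h5

/-- `K(x)` maps into `k(ιx)` -/
theorem l13_algebraMap_mem_adjoin (hK : ConstLE K F0 k F) (x : F0)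
    (c : IntermediateField.adjoin K {x}) :
    algebraMap F0 F (c : F0) ∈ IntermediateField.adjoin k {algebraMap F0 F x} := by
  let T : IntermediateField K F0 :=
    Subfield.toIntermediateField
      ((IntermediateField.adjoin k {algebraMap F0 F x}).toSubfield.comap (algebraMap F0 F))
      (fun a => by
        obtain ⟨b, hb⟩ := hK a
        show algebraMap F0 F (algebraMap K F0 a) ∈ IntermediateField.adjoin k {algebraMap F0 F x}
        rw [← hb]
        exact (IntermediateField.adjoin k {algebraMap F0 F x}).algebraMap_mem b)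
  have h : IntermediateField.adjoin K {x} ≤ T := by
    rw [IntermediateField.adjoin_le_iff]
    intro y hy
    rw [Set.mem_singleton_iff] at hy
    rw [hy]
    exact IntermediateField.mem_adjoin_simple_self k _
  exact h c.2

/-- a spanning family of `F0` over `K(x)` spans `F` over `k(ιx)` -/
theorem l13_span_eq_top (hK : ConstLE K F0 k F) (hGen : Generated F0 k F) {x : F0}
    {ι : Type*} (b : ι → F0)
    (hb : Submodule.span (IntermediateField.adjoin K {x}) (Set.range b) = ⊤)
    (halg : Algebra.IsAlgebraic (IntermediateField.adjoin K {x}) F0) :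
    Submodule.span (IntermediateField.adjoin k {algebraMap F0 F x})
      (Set.range fun i => algebraMap F0 F (b i)) = ⊤ := by
  set φ := algebraMap F0 F with hφ
  set E := IntermediateField.adjoin k {φ x} with hE
  let j : IntermediateField.adjoin K {x} →+* E :=
    RingHom.codRestrict (φ.comp (algebraMap (IntermediateField.adjoin K {x}) F0)) E
      (fun c => l13_algebraMap_mem_adjoin hK x c)
  have hj : (algebraMap E F).comp j =
      φ.comp (algebraMap (IntermediateField.adjoin K {x}) F0) := by
    ext c; rfl
  have halg' : ∀ y ∈ Set.range φ, IsAlgebraic E y := by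
    rintro _ ⟨y, rfl⟩
    exact (IsIntegral.map_of_comp_eq j φ hj (halg.isAlgebraic y).isIntegral).isAlgebraic
  have htop : IntermediateField.adjoin E (Set.range φ) = ⊤ := by
    rw [eq_top_iff]
    intro y _
    have h1 : IntermediateField.adjoin k (Set.range φ) ≤
        (IntermediateField.adjoin E (Set.range φ)).restrictScalars k := by
      rw [IntermediateField.adjoin_le_iff]
      exact IntermediateField.subset_adjoin E _
    have h2 : y ∈ IntermediateField.adjoin k (Set.range φ) := by
      have hG : IntermediateField.adjoin k (Set.range φ) = ⊤ := hGen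
      rw [hG]; trivial
    exact h1 h2
  have h3 := IntermediateField.adjoin_toSubalgebra_of_isAlgebraic halg'
  rw [htop] at h3
  have h4 : Submodule.span E (Set.range φ) = ⊤ := by
    have h5 := Algebra.adjoin_eq_span (R := E) (s := Set.range φ)
    rw [← h3] at h5
    have h6 : (Submonoid.closure (Set.range φ) : Set F) = Set.range φ := by
      have : Set.range φ = ((MonoidHom.mrange (φ : F0 →* F) : Submonoid F) : Set F) := by
        ext y; simp
      rw [this, Submonoid.closure_eq]
    rw [h6] at h5
    rw [← h5]
    rfl
  rw [eq_top_iff, ← h4, Submodule.span_le]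
  rintro _ ⟨y, rfl⟩
  have hy : y ∈ Submodule.span (IntermediateField.adjoin K {x}) (Set.range b) := by
    rw [hb]; trivial
  induction hy using Submodule.span_induction with
  | mem z hz =>
    obtain ⟨i, rfl⟩ := hz
    exact Submodule.subset_span ⟨i, rfl⟩
  | zero => rw [map_zero]; exact Submodule.zero_mem _
  | add z w _ _ hz hw => rw [map_add]; exact Submodule.add_mem _ hz hw
  | smul c z _ hz =>
    have : φ (c • z) = j c • φ z := by
      rw [Algebra.smul_def, map_mul]; rfl
    rw [this]
    exact Submodule.smul_mem _ _ hz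

theorem l13_finrank_adjoin_map (hK : ConstLE K F0 k F) (hLD : LinDisj K F0 k F)
    (hGen : Generated F0 k F) (x : F0) (hx : Transcendental K x)
    (hfin : FiniteDimensional (IntermediateField.adjoin K {x}) F0) :
    FiniteDimensional (IntermediateField.adjoin k {algebraMap F0 F x}) F ∧
    finrank (IntermediateField.adjoin k {algebraMap F0 F x}) F =
      finrank (IntermediateField.adjoin K {x}) F0 := by
  let b := Module.finBasis (IntermediateField.adjoin K {x}) F0
  have hspan := l13_span_eq_top (k := k) (F := F) hK hGen (fun i => b i) b.span_eq inferInstance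
  have hli := l13_linearIndependent_map hLD hx (fun i => b i) b.linearIndependent
  let B := Basis.mk hli (by rw [hspan])
  exact ⟨Module.Finite.of_basis B, by rw [Module.finrank_eq_card_basis B, Fintype.card_fin]⟩

theorem l13_isFF1_of_generated (hK : ConstLE K F0 k F) (hLD : LinDisj K F0 k F)
    (hGen : Generated F0 k F) (h0 : IsFF1 K F0) : IsFF1 k F := by
  obtain ⟨x, hx, hfin⟩ := h0
  exact ⟨algebraMap F0 F x, l13_transcendental_map hLD x hx,
    (l13_finrank_adjoin_map hK hLD hGen x hx hfin).1⟩


end L13fromL10

variable {K F0 k F : Type*} [Field K] [Field F0] [Field k] [Field F]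
  [Algebra K F0] [Algebra k F] [Algebra F0 F]

/-- an element of `F0` algebraic over `K` is algebraic over `k` in `F` -/
theorem l13_isAlgebraic_map (hK : ConstLE K F0 k F) {x : F0} (hx : IsAlgebraic K x) :
    IsAlgebraic k (algebraMap F0 F x) := by
  classical
  obtain ⟨p, hp0, hp⟩ := hx
  choose b hb using fun i : ℕ => hK (p.coeff i)
  refine ⟨∑ i ∈ p.support, Polynomial.monomial i (b i), ?_, ?_⟩
  · intro h0
    have hc := congrArg (fun r : Polynomial k => r.coeff p.natDegree) h0
    simp only [Polynomial.finsetSum_coeff, Polynomial.coeff_monomial, Polynomial.coeff_zero,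
      Finset.sum_ite_eq', Polynomial.mem_support_iff] at hc
    have hlc : p.coeff p.natDegree ≠ 0 := by
      rw [Polynomial.coeff_natDegree]
      exact Polynomial.leadingCoeff_ne_zero.mpr hp0
    rw [if_pos hlc] at hc
    have h1 := hb p.natDegree
    rw [hc, map_zero] at h1
    have h2 : algebraMap K F0 (p.coeff p.natDegree) = 0 :=
      (algebraMap F0 F).injective (by rw [← h1, map_zero])
    exact hlc ((algebraMap K F0).injective (by rw [h2, map_zero]))
  · rw [map_sum]
    simp only [Polynomial.aeval_monomial, hb]
    have h3 : Polynomial.aeval x p = ∑ i ∈ p.support, algebraMap K F0 (p.coeff i) * x ^ i := by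
      conv_lhs => rw [Polynomial.as_sum_support p]
      rw [map_sum]
      simp only [Polynomial.aeval_monomial]
    rw [hp] at h3
    have h4 := congrArg (algebraMap F0 F) h3
    rw [map_zero, map_sum] at h4
    simp only [map_mul, map_pow] at h4
    exact h4.symm

theorem poleDegEq (hK : ConstLE K F0 k F) (hLD : LinDisj K F0 k F) (hGen : Generated F0 k F)
    (hfo0 : StFiniteOver K F0) (hzd0 : StZeroDegree K F0) (hzd : StZeroDegree k F) :
    PoleDegEq K F0 k F := by
  intro x B0 B hB0 hB
  obtain ⟨B0', hB0', ht0, ha0⟩ := l13_exists_poleDivisor hzd0 x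
  obtain ⟨B', hB', ht, ha⟩ := l13_exists_poleDivisor hzd (algebraMap F0 F x)
  have e0 : B0 = B0' := Finsupp.ext fun v => (hB0 v).trans (hB0' v).symm
  have e : B = B' := Finsupp.ext fun v => (hB v).trans (hB' v).symm
  rw [e0, e]
  by_cases hx : IsAlgebraic K x
  · rw [ha0 hx, ha (l13_isAlgebraic_map hK hx), map_zero, map_zero]
  · have hx' := l13_transcendental_map hLD x hx
    rw [ht0 hx, ht hx']
    have h := (l13_finrank_adjoin_map hK hLD hGen x hx (hfo0 x hx)).2
    exact_mod_cast h

/-- consumer form of (K3): `deg D ≥ 0`, `deg E0 ≥ γ`  ⟹  `L(D + Con E0) ≠ 0`. -/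
theorem exists_ne_zero_mem (γ : ℤ) (hR : StRiemannWith k F γ)
    (E0 : Divisor K F0) (hE0 : γ ≤ Divisor.degree E0) (EF : Divisor k F)
    (hEF : Divisor.degree EF = Divisor.degree E0)
    (D : Divisor k F) (hD : 0 ≤ Divisor.degree D) :
    ∃ f : F, f ≠ 0 ∧ f ∈ riemannRochSpace (D + EF) := by
  have h := hR (D + EF)
  rw [map_add, hEF] at h
  have hpos : 0 < finrank k (riemannRochSpace (D + EF)) := by
    have : (0 : ℤ) < finrank k (riemannRochSpace (D + EF)) := by linarith
    exact_mod_cast this
  have hnt : Nontrivial (riemannRochSpace (D + EF)) := Module.nontrivial_of_finrank_pos hpos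
  obtain ⟨f, hf⟩ := exists_ne (0 : riemannRochSpace (D + EF))
  exact ⟨f, fun h0 => hf (Subtype.ext h0), f.2⟩

end Fermat.Agent.S26.CURVEK
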