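import Fermat.Agent.S26.CURVEK.Core
import Fermat.Agent.S26.CURVEK.L12_Conorm
import Fermat.Agent.S26.CURVEK.L13_PoleDeg

/-!
# S26 / P13 CURVEK : assembly of Part A (algebra), conorm form

`riemann_generic` : for `F0/K ⊆ F/k` linearly disjoint with `F = k(F0)` and Riemann's inequality
with constant `γ` on `F0/K`:  `deg D ≥ 0`, `deg E0 ≥ γ`  ⟹  `L(D + Con E0) ≠ 0` on `F/k`.
(`core`, `riemannWith_generic` are in Core.lean.)
-/

set_option autoImplicit false

namespace Fermat.Agent.S26.CURVEK

open AlgebraicCurve Module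

variable {K F0 k F : Type*} [Field K] [Field F0] [Field k] [Field F]
  [Algebra K F0] [Algebra k F] [Algebra F0 F]

/-- **Algebraic export (K3)** of P13. -/
theorem riemann_generic (hK : ConstLE K F0 k F) (hLD : LinDisj K F0 k F)
    (hGen : Generated F0 k F) (h0 : IsFF1 K F0) (γ : ℤ) (hR0 : StRiemannWith K F0 γ)
    (E0 : Divisor K F0) (hE0 : γ ≤ Divisor.degree E0) (EF : Divisor k F) (hEF : IsConorm EF E0)
    (D : Divisor k F) (hD : 0 ≤ Divisor.degree D) :
    ∃ f : F, f ≠ 0 ∧ f ∈ riemannRochSpace (D + EF) := by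
  have c0 := core h0
  have h1 : IsFF1 k F := isFF1_of_generated hK hLD hGen h0
  have c1 := core h1
  have := c1.principal
  have hpole := poleDegEq hK hLD hGen c0.finiteOver c0.zeroDegree c1.zeroDegree
  have hdegE := degree_conorm hK c0.discrete c0.deg_pos γ hR0 hpole E0 EF hEF
  exact exists_ne_zero_mem γ (riemannWith_generic hK hLD hGen h0 γ hR0) E0 hE0 EF hdegE D hD

end Fermat.Agent.S26.CURVEK
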